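import Fermat.Agent.RT.MazurP.Trivial.Ending
import Fermat.Agent.RT.MazurP.Link
import Fermat.Agent.NewformLocal.Toric.NormRed

/-!
# Mazur's principle at `p`, general case: definitions

The hypothesis that a class is new at `p`, the one sided spaces `j ^ d B + B`, and relations
between sections of a class with trivial reductions.
-/

set_option autoImplicit false
set_option synthInstance.maxHeartbeats 400000
set_option maxHeartbeats 1000000
set_option linter.unusedSectionVars false

noncomputable section

namespace Fermat.Agent.Extra39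

open ModularCurve AlgebraicCurve Fermat.Agent.Semistable Fermat.Agent.Arith
open Fermat.Agent.RT.Mazur Fermat.Agent.RT.MazurP

variable {p M : ℕ} [Fact p.Prime] [NeZero M]

/-- The norms to level `M` of `f` and of `w f` are constants times `p`-th powers. -/
def NormsArePowers (hpM : ¬ p ∣ M) (f : FB (p * M)) : Prop :=
  (∃ (c : QBar) (g : FB M),
      NewformLocal.Toric.normUp p M f = algebraMap QBar (FB M) c * g ^ p) ∧
    ∃ (c : QBar) (g : FB M),
      NewformLocal.Toric.normUp p M (wEquiv p M hpM f) = algebraMap QBar (FB M) c * g ^ p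

/-- Both properties are stable under constants and `p`-th powers. -/
theorem NormsArePowers.scale {hpM : ¬ p ∣ M} {f : FB (p * M)} (h : NormsArePowers hpM f)
    (c : QBar) (y : FB (p * M)) :
    NormsArePowers hpM (algebraMap QBar (FB (p * M)) c * f * y ^ p) := by
  have key : ∀ x : FB (p * M), (∃ (d : QBar) (g : FB M),
        NewformLocal.Toric.normUp p M x = algebraMap QBar (FB M) d * g ^ p) →
      ∀ (c : QBar) (y : FB (p * M)), ∃ (d : QBar) (g : FB M),
        NewformLocal.Toric.normUp p M (algebraMap QBar (FB (p * M)) c * x * y ^ p) =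
          algebraMap QBar (FB M) d * g ^ p := by
    rintro x ⟨d, g, e⟩ c y
    refine ⟨c ^ (p + 1) * d, g * NewformLocal.Toric.normUp p M y, ?_⟩
    have ec : NewformLocal.Toric.normUp p M (algebraMap QBar (FB (p * M)) c) =
        algebraMap QBar (FB M) (c ^ (p + 1)) := by
      letI := algebraAlong (upF M p)
      haveI := isScalarTower_along (upF M p)
      show Algebra.norm (FB M) (algebraMap QBar (FB (p * M)) c) = _
      rw [IsScalarTower.algebraMap_apply QBar (FB M) (FB (p * M)), Algebra.norm_algebraMap,
        map_pow]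
      exact congrArg _ (NewformLocal.Toric.finrankAlong_upF p M hpM)
    rw [map_mul, map_mul, map_pow, e, ec, map_mul, mul_pow]
    ring
  refine ⟨key f h.1 c y, ?_⟩
  rw [map_mul (wEquiv p M hpM), map_mul (wEquiv p M hpM), map_pow (wEquiv p M hpM),
    AlgEquiv.commutes]
  exact key _ h.2 c _

/-- Multiplication by a series. -/
def mulSer {k : Type*} [Field k] (a : LaurentSeries k) : LaurentSeries k →ₗ[k] LaurentSeries k where
  toFun x := a * x
  map_add' := mul_add a
  map_smul' c x := by rw [RingHom.id_apply, ← HahnSeries.C_mul_eq_smul, ← HahnSeries.C_mul_eq_smul]; ring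

@[simp] theorem mulSer_apply {k : Type*} [Field k] (a x : LaurentSeries k) : mulSer a x = a * x :=
  rfl

/-- `j ^ d B + B` on the `s`-th side, `d` the side degree times `n`. -/
def SideSB (A : ValuationSubring QBar) (p M n : ℕ) [Fact p.Prime] [NeZero M]
    [CharP (Res A) p] [FF.IsFunctionField (Res A) (KM A M)] (s : Fin 2) : Submodule (Res A) (LaurentSeries (Res A)) :=
  (HkS A M (sideDeg p s * n)).map (mulSer (jPow A p n s)) ⊔
    HkS A M (sideDeg p s * n)

variable {A : ValuationSubring QBar} {hpM : ¬ p ∣ M} [CharP (Res A) p]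
  [FF.IsFunctionField (Res A) (KM A M)] {C : CoefField A p}

/-- Fixed sections `x`, `z` of degree `n` with reductions `β` and `β J ^ n` and
`J ^ n x = z + π ^ k w`. -/
structure Rel (K : Kum hpM C) (n k : ℕ) where
  /-- The common leading constant. -/
  β : Res A
  β_ne : β ≠ 0
  /-- The section near `∞`. -/
  x : loc2 A (iota2 M p hpM)
  /-- The section away from `∞`. -/
  z : loc2 A (iota2 M p hpM)
  /-- The quotient. -/
  w : loc2 A (iota2 M p hpM)
  x_mem : (x : FB (p * M)) ∈ K.V n
  z_mem : (z : FB (p * M)) ∈ K.V n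
  x_fix : ∀ τ ∈ C.H, galF (p * M) τ x = x
  z_fix : ∀ τ ∈ C.H, galF (p * M) τ z = z
  w_fix : ∀ τ ∈ C.H, galF (p * M) τ w = w
  rel : Jp A hpM ^ n * x =
    z + cst hpM ⟨C.π ^ k, pow_mem (mem_of_mem_nonunits C.π_nonunit) k⟩ * w
  red_x : red2 A (iota2 M p hpM) x = β • 1
  red_z : red2 A (iota2 M p hpM) z = β • jPow A p n

end Fermat.Agent.Extra39

end
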