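import Fermat.Agent.RT.MazurP.Incl
import Fermat.Agent.RT.MazurP.Torsion
import Fermat.Agent.RT.LowerQ.Classes
import Fermat.Agent.GaloisReps.Models

/-!
# Eigen classes killed by the pullback to level `4 p M₀`

The degree of the level change is `4` or `6 < p²`, so by Kummer theory the killed classes of
exponent `p` form a Galois stable cyclic group; an irreducible `E[p]` allows no such eigen class.
-/

set_option autoImplicit false
set_option synthInstance.maxHeartbeats 400000
set_option linter.unusedSectionVars false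
set_option linter.style.haveILetI false
set_option maxHeartbeats 1000000

noncomputable section

namespace Fermat.Agent.Extra39

open ModularCurve AlgebraicCurve Fermat.Agent.Semistable Fermat.Agent.Arith
open Fermat.Agent.RT Fermat.Agent.RT.MazurP Fermat.Agent.EC.Rep
open Polynomial
open scoped IntermediateField

section Kummer

variable {F L : Type*} [Field F] [Field L] [Algebra F L] [FiniteDimensional F L] {p : ℕ}

/-- In an extension of degree less than `p ^ 2` at most one cyclic group of Kummer classes dies. -/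
theorem exists_eq_pow_mul_of_finrank_lt (hp : p.Prime) {ζ : F} (hζ : IsPrimitiveRoot ζ p)
    (hd : Module.finrank F L < p * p) {f g : F} (hf : ∀ b : F, b ^ p ≠ f) (hg0 : g ≠ 0)
    {H G : L} (hH : H ^ p = algebraMap F L f) (hG : G ^ p = algebraMap F L g) :
    ∃ (i : ℕ) (a : F), g = f ^ i * a ^ p := by
  haveI : NeZero p := ⟨hp.ne_zero⟩
  have hpoly : (X ^ p - C f).Monic := monic_X_pow_sub_C f hp.ne_zero
  have hirr : Irreducible (X ^ p - C f) := X_pow_sub_C_irreducible_of_prime hp hf
  have hmin : minpoly F H = X ^ p - C f :=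
    (minpoly.eq_of_irreducible_of_monic hirr (by simp [hH]) hpoly).symm
  have hint : IsIntegral F H := IsIntegral.of_finite F H
  have hE : Module.finrank F F⟮H⟯ = p := by
    rw [IntermediateField.adjoin.finrank hint, hmin, natDegree_X_pow_sub_C]
  have hGE : G ∈ F⟮H⟯ := by
    by_contra hno
    have hgE : ∀ b : F⟮H⟯, b ^ p ≠ algebraMap F F⟮H⟯ g := by
      intro b hb
      have hb' : (b : L) ^ p = G ^ p := by
        rw [hG, IsScalarTower.algebraMap_apply F F⟮H⟯ L g, ← hb]
        rfl
      have hb0 : (b : L) ≠ 0 := fun h0 => by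
        rw [h0, zero_pow hp.ne_zero, hG] at hb'
        exact hg0 ((algebraMap F L).injective (hb'.symm.trans (map_zero _).symm))
      obtain ⟨i, -, hi⟩ := (hζ.map_of_injective (algebraMap F L).injective).eq_pow_of_pow_eq_one
        (show (G / (b : L)) ^ p = 1 by rw [div_pow, hb', div_self (hb' ▸ pow_ne_zero p hb0)])
      refine hno ?_
      rw [show G = algebraMap F L ζ ^ i * b by rw [hi, div_mul_cancel₀ _ hb0]]
      exact mul_mem (pow_mem (IntermediateField.algebraMap_mem _ ζ) _) b.2
    have hirrE := X_pow_sub_C_irreducible_of_prime hp hgE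
    have hminE : minpoly F⟮H⟯ G = X ^ p - C (algebraMap F F⟮H⟯ g) :=
      (minpoly.eq_of_irreducible_of_monic hirrE (by
        simp [hG, ← IsScalarTower.algebraMap_apply F F⟮H⟯ L g])
        (monic_X_pow_sub_C _ hp.ne_zero)).symm
    have h1 : p ≤ Module.finrank F⟮H⟯ L := by
      have := minpoly.natDegree_le (A := F⟮H⟯) G
      rwa [hminE, natDegree_X_pow_sub_C] at this
    have h2 := Nat.mul_le_mul_left p h1
    have h3 := Module.finrank_mul_finrank F F⟮H⟯ L
    rw [hE] at h3
    omega
  set pb := IntermediateField.adjoin.powerBasis hint with hpb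
  have hgen : pb.gen = IntermediateField.AdjoinSimple.gen F H := rfl
  have hroot : aeval (algebraMap F F⟮H⟯ ζ * pb.gen) (minpoly F pb.gen) = 0 := by
    have hm : minpoly F pb.gen = X ^ p - C f :=
      (IntermediateField.minpoly_gen F H).trans hmin
    have hgf : pb.gen ^ p = algebraMap F F⟮H⟯ f := Subtype.ext (by
      rw [hgen, SubmonoidClass.coe_pow, IntermediateField.AdjoinSimple.coe_gen]; exact hH)
    rw [hm, map_sub, aeval_X_pow, aeval_C, mul_pow, hgf, ← map_pow, hζ.pow_eq_one, map_one,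
      one_mul, sub_self]
  set σ : F⟮H⟯ →ₐ[F] F⟮H⟯ := pb.lift _ hroot with hσ
  have hσgen : σ pb.gen = algebraMap F F⟮H⟯ ζ * pb.gen := pb.lift_gen _ hroot
  set G' : F⟮H⟯ := ⟨G, hGE⟩ with hG'
  have hG'p : G' ^ p = algebraMap F F⟮H⟯ g := Subtype.ext hG
  have hG0 : G' ≠ 0 := fun h0 => by
    rw [h0, zero_pow hp.ne_zero] at hG'p
    exact hg0 ((algebraMap F F⟮H⟯).injective (hG'p.symm.trans (map_zero _).symm))
  obtain ⟨i, hi, hi'⟩ := (hζ.map_of_injective (algebraMap F F⟮H⟯).injective).eq_pow_of_pow_eq_one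
    (show (σ G' / G') ^ p = 1 by
      rw [div_pow, ← map_pow σ, hG'p, AlgHom.commutes, ← hG'p, div_self (pow_ne_zero p hG0)])
  have hdim : pb.dim = p := by
    rw [← pb.finrank, hE]
  set a := pb.basis.repr G' with ha
  have hexp : G' = ∑ j : Fin pb.dim, a j • pb.gen ^ (j : ℕ) := by
    simp only [ha, ← pb.basis_eq_pow, pb.basis.sum_repr]
  have hcoef : ∀ j : Fin pb.dim, a j * ζ ^ (j : ℕ) = a j * ζ ^ i := by
    have h1 : σ G' = ζ ^ i • G' := by
      rw [Algebra.smul_def, map_pow, hi', div_mul_cancel₀ _ hG0]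
    have h2 : σ G' = ∑ j : Fin pb.dim, (a j * ζ ^ (j : ℕ)) • pb.basis j := by
      conv_lhs => rw [hexp]
      rw [map_sum]
      refine Finset.sum_congr rfl fun x _ => ?_
      rw [map_smul, map_pow σ, hσgen, mul_pow, ← map_pow, ← Algebra.smul_def, smul_smul,
        pb.basis_eq_pow]
    have h3 : ζ ^ i • G' = ∑ j : Fin pb.dim, (a j * ζ ^ i) • pb.basis j := by
      conv_lhs => rw [hexp]
      simp only [Finset.smul_sum, smul_smul, pb.basis_eq_pow, mul_comm (ζ ^ i)]
    intro j
    have h4 := congrArg pb.basis.repr (h2.symm.trans (h1.trans h3))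
    have h5 := DFunLike.congr_fun h4 j
    rwa [pb.basis.repr_sum_self, pb.basis.repr_sum_self] at h5
  refine ⟨i, a ⟨i, hdim ▸ hi⟩, ?_⟩
  have hzero : ∀ j : Fin pb.dim, j ≠ ⟨i, hdim ▸ hi⟩ → a j = 0 := by
    intro j hj
    by_contra hne
    exact hj (Fin.ext (hζ.pow_inj (hdim ▸ j.2) hi (mul_left_cancel₀ hne (hcoef j))))
  rw [Finset.sum_eq_single ⟨i, hdim ▸ hi⟩ (fun j _ hj => by rw [hzero j hj, zero_smul])
    (fun h => absurd (Finset.mem_univ _) h)] at hexp
  have h5 := congrArg Subtype.val hG'p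
  rw [hexp, Algebra.smul_def, mul_pow, ← pow_mul, mul_comm i p, pow_mul] at h5
  refine (algebraMap F L).injective ?_
  have h6 : ((pb.gen : F⟮H⟯) : L) = H := IntermediateField.AdjoinSimple.coe_gen F H
  simp only [MulMemClass.coe_mul, SubmonoidClass.coe_pow, h6, hH] at h5
  rw [map_mul, map_pow, map_pow, mul_comm]
  exact h5.symm

end Kummer

section NoCharacter

/-- An absolutely irreducible plane representation has no eigenvalue which is a character. -/
theorem false_of_eigen_character {k G : Type*} [Field k] [Group G]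
    (r : G →* Matrix (Fin 2) (Fin 2) k) (hspan : Submodule.span k (Set.range r) = ⊤)
    (ψ : G → k) (hψ1 : ψ 1 = 1) (hψ : ∀ g h, ψ (g * h) = ψ g * ψ h)
    (hquad : ∀ g, ψ g ^ 2 - (r g).trace * ψ g + (r g).det = 0) : False := by
  have hψ0 : ∀ g, ψ g ≠ 0 := fun g h0 => by
    have h := hψ g g⁻¹
    rw [mul_inv_cancel, hψ1, h0, zero_mul] at h
    exact one_ne_zero h
  have htr : ∀ g, (r g).trace = ψ g + (r g).det / ψ g := fun g => by
    have h := hquad g
    field_simp [hψ0 g]
    linear_combination -h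
  have hext : ∀ {V : Type _} [AddCommGroup V] [Module k V]
      (φ φ' : Matrix (Fin 2) (Fin 2) k →ₗ[k] V), (∀ g, φ (r g) = φ' (r g)) → φ = φ' := by
    intro V _ _ φ φ' h
    refine LinearMap.ext_on hspan ?_
    rintro _ ⟨g, rfl⟩
    exact h g
  have hscal : ∀ h, r h = ((r h).det / ψ h) • (1 : Matrix (Fin 2) (Fin 2) k) := by
    intro h
    set d := (r h).det / ψ h with hd
    set Z := r h - d • (1 : Matrix (Fin 2) (Fin 2) k) with hZ
    -- `tr (r g * Z) = ψ g * (ψ h - d)`
    have hT : ∀ g, (r g * Z).trace = ψ g * (ψ h - d) := by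
      intro g
      rw [hZ, mul_sub, mul_smul_comm, mul_one, Matrix.trace_sub, Matrix.trace_smul, ← map_mul,
        htr, htr g, map_mul, Matrix.det_mul, hψ, smul_eq_mul, hd]
      field_simp [hψ0 g, hψ0 h]
      ring
    have hstab : ∀ g, r g * Z = ψ g • Z := by
      intro g
      have hφ : ∀ Y : Matrix (Fin 2) (Fin 2) k, (Y * (r g * Z - ψ g • Z)).trace = 0 := by
        intro Y
        exact LinearMap.congr_fun (hext
          ((Matrix.traceLinearMap (Fin 2) k k).comp (LinearMap.mulRight k (r g * Z - ψ g • Z))) 0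
          fun g' => by
            show (r g' * (r g * Z - ψ g • Z)).trace = 0
            rw [mul_sub, mul_smul_comm, ← mul_assoc, ← map_mul, Matrix.trace_sub,
              Matrix.trace_smul, hT, hT, hψ, smul_eq_mul]
            ring) Y
      rw [← sub_eq_zero]
      ext i j
      have h := hφ (Matrix.single j i 1)
      rw [Matrix.trace_mul_comm, Matrix.trace_mul_single] at h
      simpa using h
    have hline : ∀ X : Matrix (Fin 2) (Fin 2) k, ∃ s : k, X * Z = s • Z := by
      intro X
      have hX : X ∈ Submodule.span k (Set.range r) := hspan ▸ Submodule.mem_top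
      induction hX using Submodule.span_induction with
      | mem x hx => obtain ⟨g, rfl⟩ := hx; exact ⟨ψ g, hstab g⟩
      | zero => exact ⟨0, by simp⟩
      | add x y _ _ hx hy =>
        obtain ⟨s, hs⟩ := hx
        obtain ⟨t, ht⟩ := hy
        exact ⟨s + t, by rw [add_mul, hs, ht, add_smul]⟩
      | smul a x _ hx =>
        obtain ⟨s, hs⟩ := hx
        exact ⟨a * s, by rw [smul_mul_assoc, hs, mul_smul]⟩
    have hnil : ∀ i j : Fin 2, i ≠ j → Matrix.single i j (1 : k) * Z = 0 := by
      intro i j hij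
      obtain ⟨s, hs⟩ := hline (Matrix.single i j 1)
      have h2 : (s * s) • Z = 0 := by
        rw [mul_smul, ← hs, ← mul_smul_comm, ← hs, ← mul_assoc,
          show Matrix.single i j (1 : k) * Matrix.single i j 1 = 0 by
            simp [Matrix.single_mul_single_of_ne, Ne.symm hij], zero_mul]
      rcases smul_eq_zero.mp h2 with h3 | h3
      · rw [hs, mul_self_eq_zero.mp h3, zero_smul]
      · rw [h3, mul_zero]
    have hZ0 : Z = 0 := by
      ext i j
      obtain ⟨i', hi'⟩ : ∃ i' : Fin 2, i' ≠ i := exists_ne i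
      have := congrFun (congrFun (hnil i' i hi') i') j
      simpa using this
    exact sub_eq_zero.mp hZ0
  have hle : Submodule.span k (Set.range r) ≤
      Submodule.span k {(1 : Matrix (Fin 2) (Fin 2) k)} := by
    rw [Submodule.span_le]
    rintro _ ⟨g, rfl⟩
    rw [hscal g]
    exact Submodule.smul_mem _ _ (Submodule.mem_span_singleton_self _)
  rw [hspan] at hle
  obtain ⟨c, hc⟩ := Submodule.mem_span_singleton.mp
    (hle (Submodule.mem_top (x := Matrix.single (0 : Fin 2) 1 (1 : k))))
  have := congrFun (congrFun hc 0) 1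
  simp at this

end NoCharacter

section Pullback

variable {p : ℕ} [Fact p.Prime]

/-- A Kummer class killed by the pullback has only multiples of itself as Galois conjugates. -/
theorem exists_smul_eq_of_inclF_pow {N N' : ℕ} [NeZero N] [NeZero N'] (h : N ∣ N')
    (hd : finrankAlong QBar (inclF h) < p * p) (f : JacTorsion.divGrp QBar (FB N) p)
    (hne : JacTorsion.toTorsion (Additive.ofMul f) ≠ 0)
    {c : QBar} {g : FB N'}
    (hfg : inclF h ((f : (FB N)ˣ) : FB N) = algebraMap QBar (FB N') c * g ^ p) (σ : GQ) :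
    ∃ i : ℕ, σ • (JacTorsion.toTorsion (Additive.ofMul f) : JZero N) =
      i • (JacTorsion.toTorsion (Additive.ofMul f) : JZero N) := by
  have hp : p.Prime := Fact.out
  haveI : NeZero p := ⟨hp.ne_zero⟩
  letI := algebraAlong (inclF h)
  haveI := isScalarTower_along (inclF h)
  haveI : Module.Finite (FB N) (FB N') := FF.finiteAlong (inclF h)
  obtain ⟨ζ₀, hζ₀⟩ := HasEnoughRootsOfUnity.exists_primitiveRoot QBar p
  obtain ⟨e, he⟩ := IsAlgClosed.exists_pow_nat_eq c hp.pos
  set F : FB N := ((f : (FB N)ˣ) : FB N) with hF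
  set f' := LowerQ.smulDiv (arithmeticGalois (modularFunctionFieldFull N) σ) f with hf'
  set H : FB N' := algebraMap QBar (FB N') e * g with hH
  have hHp : H ^ p = inclF h F := by rw [hH, mul_pow, ← map_pow, he, ← hfg]
  have hGp : galF N' σ H ^ p = inclF h (galF N σ F) := by
    rw [← map_pow, hHp, galF_inclF]
  obtain ⟨i, a, hia⟩ := exists_eq_pow_mul_of_finrank_lt hp
    (hζ₀.map_of_injective (algebraMap QBar (FB N)).injective) hd
    (fun b hb => hne (LowerQ.toTorsion_eq_zero_of_eq_pow (g := b) hb.symm))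
    ((map_ne_zero (galF N σ)).mpr (Units.ne_zero (f : (FB N)ˣ))) hHp hGp
  refine ⟨i, ?_⟩
  have h0 : JacTorsion.toTorsion (Additive.ofMul (f' * (f ^ i)⁻¹)) = 0 := by
    refine LowerQ.toTorsion_eq_zero_of_eq_pow (g := a) ?_
    push_cast
    rw [hf', LowerQ.coe_smulDiv_galois, ← hF, hia, mul_comm,
      inv_mul_cancel_left₀ (pow_ne_zero i (Units.ne_zero (f : (FB N)ˣ)))]
  have h1 := congrArg Subtype.val h0
  rw [ofMul_mul, ofMul_inv, map_add, map_neg, AddSubgroup.coe_add, AddSubgroup.coe_neg,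
    LowerQ.nsmul_toTorsion, hf', ← LowerQ.galois_smul_toTorsion, ZeroMemClass.coe_zero,
    add_neg_eq_zero] at h1
  exact h1

theorem finrankAlong_inclF_lt (hp2 : p ≠ 2) {M M₀ : ℕ} [NeZero M] [NeZero M₀] (hM4 : M = 4 * M₀)
    (h : p * M₀ ∣ p * M) : finrankAlong QBar (inclF h) < p * p := by
  have hp : p.Prime := Fact.out
  have h3 : 3 ≤ p := by have := hp.two_le; omega
  have hψ := finrankAlong_inclF h
  rw [show dedekindPsi (p * M) = dedekindPsi (4 * (p * M₀)) by rw [hM4]; ring_nf] at hψ
  have hpos : 0 < dedekindPsi (p * M₀) := Semistable.dedekindPsi_pos _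
  have hpp : 9 ≤ p * p := Nat.mul_le_mul h3 h3
  rcases dedekindPsi_four_mul (n := p * M₀) with e | e <;> rw [e, mul_comm] at hψ <;>
    have := Nat.eq_of_mul_eq_mul_right hpos hψ <;> omega

variable {W : WeierstrassCurve ℤ} (hΔ : W.Δ ≠ 0)
include hΔ

/-- No nonzero eigen class of an irreducible `E[p]` dies at level `4 p M₀`. -/
theorem eq_zero_of_inclF_pow (hirr : W.ModRepIsIrreducible p) (hp2 : p ≠ 2) {M M₀ : ℕ}
    [NeZero M] [NeZero M₀] (hM4 : M = 4 * M₀) (S : Finset ℕ) (a : ℕ → ZMod p)
    (hS : ∀ ℓ : ℕ, ℓ.Prime → ℓ ∉ S → ¬ ℓ ∣ p * M₀ * p ∧ W.IsGoodPrimeFor ℓ ∧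
      (W.apOfModel ℓ : ZMod p) = a ℓ)
    (h : p * M₀ ∣ p * M) (f : JacTorsion.divGrp QBar (FB (p * M₀)) p)
    (hf : (JacTorsion.toTorsion (Additive.ofMul f) : JZero (p * M₀)) ∈
      LowerQ.EigTors (p * M₀) p S a)
    {c : QBar} {g : FB (p * M)}
    (hfg : inclF h ((f : (FB (p * M₀))ˣ) : FB (p * M₀)) =
      algebraMap QBar (FB (p * M)) c * g ^ p) :
    (JacTorsion.toTorsion (Additive.ofMul f) : JZero (p * M₀)) = 0 := by
  classical
  have : NeZero p := ⟨(Fact.out : p.Prime).ne_zero⟩
  by_contra hne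
  set x : LowerQ.EigTors (p * M₀) p S a := ⟨_, hf⟩ with hx
  have hx0 : x ≠ 0 := fun h0 => hne (congrArg Subtype.val h0)
  choose i hi using exists_smul_eq_of_inclF_pow h (finrankAlong_inclF_lt hp2 hM4 h) f
    (fun h0 => hne (congrArg Subtype.val h0)) hfg
  set ψ : GQ → ZMod p := fun σ => (i σ : ZMod p) with hψ
  have hact : ∀ σ, eigAct S a σ x = ψ σ • x := by
    intro σ
    rw [hψ, Nat.cast_smul_eq_nsmul]
    exact Subtype.ext ((coe_eigAct S a σ x).trans (hi σ))
  have hcancel : ∀ u v : ZMod p, u • x = v • x → u = v := fun u v huv => by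
    by_contra huv'
    have : (u - v) • x = 0 := by rw [sub_smul, huv, sub_self]
    exact hx0 ((smul_eq_zero.mp this).resolve_left (sub_ne_zero.mpr huv'))
  set ρ := residualRep W p hΔ
  let b := Module.finBasisOfFinrankEq (ZMod p) ρ.V ρ.finrank_eq
  let r : GQ →* Matrix (Fin 2) (Fin 2) (ZMod p) :=
    (LinearMap.toMatrixAlgEquiv b).toMonoidHom.comp ρ.ρ
  refine false_of_eigen_character r
    (Deform.span_matrix_eq_top ρ (isAbsolutelyIrreducible_residualRep hΔ hp2 hirr) b) ψ
    (hcancel _ _ ?_) (fun σ τ => hcancel _ _ ?_) fun σ => ?_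
  · rw [← hact, map_one, one_smul]; rfl
  · rw [← hact, map_mul, Module.End.mul_apply, hact τ, map_smul, hact σ, smul_smul,
      mul_comm (ψ τ) (ψ σ)]
  · have hq := eigAct_quad S a hΔ (GaloisReps.congruenceProperty (p * M₀) p) hS σ x
    rw [LinearMap.trace_eq_matrix_trace _ b, ← LinearMap.det_toMatrix b, hact, map_smul, hact,
      smul_smul, smul_smul, ← sub_smul, ← add_smul] at hq
    have := (smul_eq_zero.mp hq).resolve_right hx0
    rw [← pow_two] at this
    exact this

end Pullback

end Fermat.Agent.Extra39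

end
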