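import Fermat.Agent.Extra39.NewClass
import Fermat.Agent.Extra39.PullKernel
import Fermat.Agent.RT.MazurP.Endgame.Main

/-!
# Kummer data and Galois relations of eigen classes of level `p M₀`
-/

set_option autoImplicit false
set_option synthInstance.maxHeartbeats 400000
set_option maxHeartbeats 1000000
set_option linter.unusedSectionVars false

noncomputable section

namespace Fermat.Agent.Extra39

open ModularCurve AlgebraicCurve Fermat.Agent.Semistable Fermat.Agent.Arith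
open Fermat.Agent.RT Fermat.Agent.RT.Mazur Fermat.Agent.RT.MazurP Fermat.Agent.EC.Rep

variable {A : ValuationSubring QBar} {p M M₀ : ℕ} [Fact p.Prime] [CharP (Res A) p] [NeZero M]
  [NeZero M₀] [FF.IsFunctionField (Res A) (KM A M)] {hpM : ¬ p ∣ M} {C : CoefField A p}
  {W : WeierstrassCurve ℤ}

/-- The quadratic relation of an inertia element with trace `χ + 1` on eigen torsion. -/
theorem quad_of_trace (hΔ0 : W.Δ ≠ 0) {N : ℕ} [NeZero N] {S : Finset ℕ} {a : ℕ → ZMod p}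
    (hS : ∀ ℓ : ℕ, ℓ.Prime → ℓ ∉ S → ¬ ℓ ∣ N * p ∧ W.IsGoodPrimeFor ℓ ∧
      (W.apOfModel ℓ : ZMod p) = a ℓ)
    {g : GQ} {t : ℤ}
    (ht : LinearMap.trace (ZMod p) _ ((residualRep W p hΔ0).ρ g) = (t : ZMod p))
    {x : JZero N} (hx : x ∈ LowerQ.EigTors N p S a) :
    g • g • x - t • (g • x) + ((cyclotomicHom p g : ZMod p).val : ℤ) • x = 0 := by
  have h := quad_of_mem_eigTors hΔ0 (GaloisReps.congruenceProperty N p) S a hS g hx
  have hp0 := (LowerQ.mem_eigTors.mp hx).1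
  have hpg : p • (g • x) = 0 := by
    exact (map_nsmul (DistribSMul.toAddMonoidHom (JZero N) g) p x).symm.trans (by rw [hp0, map_zero])
  rw [det_residualRep hΔ0 (card_rootsOfUnity_qbar p) g, ← cyclotomicHom_apply, ht,
    val_nsmul_eq hpg (t := (t : ZMod p)) (b := t) rfl, ← natCast_zsmul x] at h
  exact h

/-- The norms of a function equivalent to the pull back of a new eigen class are powers. -/
theorem normsArePowers_of_eq (hd : M₀ ∣ M) {S : Finset ℕ} {a : ℕ → ZMod p}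
    (hS : ∀ l, l.Prime → l ∉ S → ¬ l ∣ p * M)
    (hbot : LowerQ.EigTors M₀ p S a = ⊥) {f : JacTorsion.divGrp QBar (FB (p * M₀)) p}
    (hf : (JacTorsion.toTorsion (Additive.ofMul f) : JZero (p * M₀)) ∈
      LowerQ.EigTors (p * M₀) p S a) {F : FB (p * M)} {c : QBar} {h : FB (p * M)}
    (he : F = algebraMap QBar (FB (p * M)) c *
      inclF (mul_dvd_mul_left p hd) ((f : (FB (p * M₀))ˣ) : FB (p * M₀)) * h ^ p) :
    NormsArePowers hpM F := by
  rw [he]
  exact (normsArePowers_of_bot hd hS hbot f hf).scale c h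

/-- A relation `τ F * F ^ b = c h ^ p` of a representative gives `τ x + b x = 0`. -/
theorem smul_add_eq_zero_of_galF_mul_pow (hΔ0 : W.Δ ≠ 0) (hirr : W.ModRepIsIrreducible p)
    (hp2 : p ≠ 2) (hM4 : M = 4 * M₀) (hd : M₀ ∣ M) {S : Finset ℕ} {a : ℕ → ZMod p}
    (hS : ∀ ℓ : ℕ, ℓ.Prime → ℓ ∉ S → ¬ ℓ ∣ p * M₀ * p ∧ W.IsGoodPrimeFor ℓ ∧
      (W.apOfModel ℓ : ZMod p) = a ℓ)
    {f : JacTorsion.divGrp QBar (FB (p * M₀)) p}
    (hf : (JacTorsion.toTorsion (Additive.ofMul f) : JZero (p * M₀)) ∈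
      LowerQ.EigTors (p * M₀) p S a) {F h : FB (p * M)} {c : QBar} (hc : c ≠ 0) (hh : h ≠ 0)
    (he : F = algebraMap QBar (FB (p * M)) c *
      inclF (mul_dvd_mul_left p hd) ((f : (FB (p * M₀))ˣ) : FB (p * M₀)) * h ^ p)
    (τ : GQ) (b : ℕ) {c' : QBar} {h' : FB (p * M)}
    (hrel : galF (p * M) τ F * F ^ b = algebraMap QBar (FB (p * M)) c' * h' ^ p) :
    τ • (JacTorsion.toTorsion (Additive.ofMul f) : JZero (p * M₀)) +
      b • (JacTorsion.toTorsion (Additive.ofMul f) : JZero (p * M₀)) = 0 := by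
  have : NeZero p := ⟨(Fact.out : p.Prime).ne_zero⟩
  set fτ := LowerQ.smulDiv (arithmeticGalois (modularFunctionFieldFull (p * M₀)) τ) f with hfτ
  have hcl : (JacTorsion.toTorsion (Additive.ofMul (fτ * f ^ b)) : JZero (p * M₀)) =
      τ • (JacTorsion.toTorsion (Additive.ofMul f) : JZero (p * M₀)) +
        b • (JacTorsion.toTorsion (Additive.ofMul f) : JZero (p * M₀)) := by
    rw [LowerQ.add_toTorsion, ofMul_pow, map_nsmul, AddSubgroup.coe_nsmul, hfτ,
      ← LowerQ.galois_smul_toTorsion]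
  have hmem : (JacTorsion.toTorsion (Additive.ofMul (fτ * f ^ b)) : JZero (p * M₀)) ∈
      LowerQ.EigTors (p * M₀) p S a := by
    rw [hcl]
    exact add_mem (smul_mem_eigTors S a τ hf) (AddSubgroup.nsmul_mem _ hf b)
  set i := inclF (mul_dvd_mul_left p hd) with hi
  set H := galF (p * M) τ h * h ^ b with hH
  have hH0 : H ≠ 0 := mul_ne_zero ((_root_.map_ne_zero _).mpr hh) (pow_ne_zero b hh)
  have hc0 : τ c * c ^ b ≠ 0 := mul_ne_zero ((_root_.map_ne_zero _).mpr hc) (pow_ne_zero b hc)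
  have ec : galF (p * M) τ (algebraMap QBar (FB (p * M)) c) =
      algebraMap QBar (FB (p * M)) (τ c) := by
    refine Subtype.ext ((coe_arithmeticRingAut τ _).trans ?_)
    show coeffMap (τ : QBar →+* QBar) (algebraMap QBar LSer c) = algebraMap QBar LSer (τ c)
    rw [coeffMap_algebraMap]
    rfl
  rw [← hcl]
  refine eq_zero_of_inclF_pow hΔ0 hirr hp2 hM4 S a hS (mul_dvd_mul_left p hd) (fτ * f ^ b) hmem
    (c := c' / (τ c * c ^ b)) (g := h' / H) ?_
  rw [Subgroup.coe_mul, Units.val_mul, SubmonoidClass.coe_pow, Units.val_pow_eq_pow_val]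
  rw [hfτ, LowerQ.coe_smulDiv_galois, map_mul i, map_pow i, hi, ← galF_inclF, ← hi, div_pow,
    map_div₀, div_mul_div_comm,
    eq_div_iff (mul_ne_zero ((_root_.map_ne_zero _).mpr hc0) (pow_ne_zero p hH0)), ← hrel, he, hH]
  simp only [map_mul, map_pow, ec, mul_pow]
  ring

end Fermat.Agent.Extra39

end
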