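import Fermat.Agent.ModFun.AtkinLehner
import Fermat.Agent.RT.GammaH.Elliptic
import Fermat.Agent.Semistable.Basis
import Fermat.Agent.FF.Along
import Fermat.Prelude.Thm_ModularCurve_coeffMap_qExpand

/-!
# Elliptic points of order `3` are Eisenstein

If the image of a place of `X₀(N ℓ)` under `β` lies over `j = 0` and `3` does not divide the order
there, the place is an elliptic point of order `3`; the stabilisers of `τ` and `ℓ τ` then have the
same upper left entry, so both images are the same elliptic point of `X₀(N)`.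
-/

set_option autoImplicit false
set_option synthInstance.maxHeartbeats 200000
set_option linter.unusedSectionVars false
set_option linter.style.haveILetI false

noncomputable section

open UpperHalfPlane hiding I
open Function Filter Complex CongruenceSubgroup AlgebraicCurve ModularCurve
open scoped MatrixGroups Manifold Topology

namespace Fermat.Agent.Extra39

open Fermat.Agent.ModFun

/-! ### Scaling of meromorphic functions -/

section Scale

variable (l : ℕ) [NeZero l]

/-- `f ↦ f (l τ)` on holomorphic functions. -/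
def scaleHolE : HolH →ₐ[ℂ] HolH where
  toFun f := ⟨fun τ => (f : ℍ → ℂ) (scaleH l τ), mdifferentiable_comp_affine l 0 1 f.2⟩
  map_one' := rfl
  map_mul' _ _ := rfl
  map_zero' := rfl
  map_add' _ _ := rfl
  commutes' _ := rfl

theorem coe_scaleHolE (f : HolH) (τ : ℍ) :
    (scaleHolE l f : ℍ → ℂ) τ = (f : ℍ → ℂ) (scaleH l τ) := rfl

theorem scaleHolE_injective : Function.Injective (scaleHolE l) := fun f g h =>
  Subtype.ext (funext fun τ => by
    have h1 := congrArg (fun x : HolH => (x : ℍ → ℂ) (affine 1 0 l τ)) h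
    have e : scaleH l (affine 1 0 l τ) = τ := by
      refine UpperHalfPlane.ext ?_
      rw [coe_scaleH, coe_affine]
      have : (l : ℂ) ≠ 0 := by exact_mod_cast NeZero.ne l
      field_simp
      push_cast
      ring
    simpa [coe_scaleHolE, e] using h1)

/-- `x ↦ x (l τ)` on meromorphic functions. -/
def scaleMerE : MerH →ₐ[ℂ] MerH :=
  IsFractionRing.liftAlgHom (A := HolH)
    (g := (IsScalarTower.toAlgHom ℂ HolH MerH).comp (scaleHolE l))
    (show Function.Injective ((IsScalarTower.toAlgHom ℂ HolH MerH).comp (scaleHolE l)) from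
      fun _ _ h => scaleHolE_injective l (IsFractionRing.injective HolH MerH h))

theorem scaleMerE_algebraMap (f : HolH) :
    scaleMerE l (algebraMap HolH MerH f) = algebraMap HolH MerH (scaleHolE l f) := by
  rw [scaleMerE, IsFractionRing.liftAlgHom_apply]
  exact IsFractionRing.lift_algebraMap _ f

theorem ordHol_scaleHolE (f : HolH) (τ : ℍ) :
    ordHol τ (scaleHolE l f) = ordHol (scaleH l τ) f := by
  have hlC : (l : ℂ) ≠ 0 := by exact_mod_cast NeZero.ne l
  have h1 : ((scaleHolE l f : ℍ → ℂ) ∘ ofComplex) =ᶠ[𝓝 (τ : ℂ)]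
      ((f : ℍ → ℂ) ∘ ofComplex) ∘ fun z => (l : ℂ) * z := by
    filter_upwards [isOpen_upperHalfPlaneSet.mem_nhds τ.im_pos] with z hz
    have hpos : 0 < ((l : ℂ) * z).im := by
      rw [Complex.mul_im, Complex.natCast_re, Complex.natCast_im, zero_mul, add_zero]
      exact mul_pos (Nat.cast_pos.2 (Nat.pos_of_ne_zero (NeZero.ne l))) hz
    simp only [comp_apply, coe_scaleHolE, ofComplex_apply_of_im_pos hz,
      ofComplex_apply_of_im_pos hpos]
    exact congrArg (f : ℍ → ℂ) (UpperHalfPlane.ext (coe_scaleH l _))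
  have h2 : analyticOrderAt (((f : ℍ → ℂ) ∘ ofComplex) ∘ fun z => (l : ℂ) * z) (τ : ℂ) =
      analyticOrderAt ((f : ℍ → ℂ) ∘ ofComplex) ((scaleH l τ : ℍ) : ℂ) := by
    rw [analyticOrderAt_comp_of_deriv_ne_zero (analyticAt_const.mul analyticAt_id)
      (by
        have hd : deriv (fun z => (l : ℂ) * z) (τ : ℂ) = l := by simp
        exact hd.trans_ne hlC),
      coe_scaleH]
  rw [ordHol, ordHol, analyticOrderNatAt, analyticOrderNatAt, analyticOrderAt_congr h1, h2]

theorem valAt_scaleMerE (x : MerH) (τ : ℍ) :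
    valAt τ (scaleMerE l x) = valAt (scaleH l τ) x := by
  obtain ⟨a, b, -, rfl⟩ := IsFractionRing.div_surjective HolH x
  have key : ∀ f : HolH, valHol τ (scaleHolE l f) = valHol (scaleH l τ) f := by
    intro f
    rcases eq_or_ne f 0 with rfl | hf
    · simp
    · rw [valHol_apply hf, valHol_apply ((map_ne_zero_iff _ (scaleHolE_injective l)).2 hf),
        ordHol_scaleHolE]
  simp only [map_div₀, scaleMerE_algebraMap, valAt_algebraMap, key]

theorem scaleMerE_ne_zero {x : MerH} (hx : x ≠ 0) : scaleMerE l x ≠ 0 :=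
  (_root_.map_ne_zero _).2 hx

theorem ordMer_scaleMerE (x : MerH) (τ : ℍ) :
    ordMer τ (scaleMerE l x) = ordMer (scaleH l τ) x := by
  simp [ordMer, valAt_scaleMerE]

end Scale

/-! ### The fixed point of `ST` -/

theorem eq_rho_of_ST_smul {z : ℍ} (h : Gamma0.ST • z = z) : z = UpperHalfPlane.ρ := by
  have key : ∀ w : ℍ, Gamma0.ST • w = w → (w : ℂ) ^ 2 + w + 1 = 0 := fun w hw => by
    have h1 := congrArg (fun v : ℍ => (v : ℂ)) hw
    rw [coe_SL_smul] at h1
    simp [Gamma0.coe_ST] at h1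
    have hne : (w : ℂ) + 1 ≠ 0 := fun h0 => by
      have := congrArg Complex.im h0
      simp at this
      exact w.im_pos.ne' this
    field_simp at h1
    linear_combination -h1
  have h1 := key z h
  have h2 := key UpperHalfPlane.ρ Genus.ST_smul_ρ
  have h3 : ((z : ℂ) - (UpperHalfPlane.ρ : ℂ)) * ((z : ℂ) + (UpperHalfPlane.ρ : ℂ) + 1) = 0 := by
    linear_combination h1 - h2
  rcases mul_eq_zero.1 h3 with h4 | h4
  · exact UpperHalfPlane.ext (sub_eq_zero.1 h4)
  · have := congrArg Complex.im h4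
    simp at this
    have hz := z.im_pos
    have hr := UpperHalfPlane.ρ.im_pos
    linarith

/-! ### The complex statement -/

variable {N l : ℕ} [NeZero N] [NeZero l]

theorem lowerLeft_congr {x : SL(2, ℤ)} (hx : x⁻¹ * Gamma0.ST * x ∈ Gamma0 N) :
    (x 1 0 : ZMod N) = -((x⁻¹ * Gamma0.ST * x) 0 0 : ℤ) * x 0 0 := by
  have e : ((x * (x⁻¹ * Gamma0.ST * x)) 0 0) = (Gamma0.ST * x) 0 0 := by
    group
  have e1 := congrArg (Int.cast : ℤ → ZMod N) e
  have e2 : ((Gamma0.ST * x) 0 0 : ℤ) = -x 1 0 := by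
    simp [Matrix.mul_apply, Fin.sum_univ_two, Gamma0.coe_ST]
  rw [RT.GammaH.gamma0_mul_apply_upperLeft x _ hx, e2] at e1
  push_cast at e1
  linear_combination e1

/-- Points over `j = 0` unramified for both levels give the same point of level `N`. -/
theorem placeAt_scaleH_eq (h : SL(2, ℤ))
    (hmem : h⁻¹ * Gamma0.ST * h ∈ Gamma0 (N * l)) :
    placeAt N (scaleH l (h⁻¹ • UpperHalfPlane.ρ)) = placeAt N (h⁻¹ • UpperHalfPlane.ρ) := by
  set τ := h⁻¹ • UpperHalfPlane.ρ with hτ
  set g := h⁻¹ * Gamma0.ST * h with hg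
  have hgτ : g • τ = τ := by
    have e : Gamma0.ST • UpperHalfPlane.ρ = UpperHalfPlane.ρ := Genus.ST_smul_ρ
    rw [hg, hτ, mul_smul, mul_smul, smul_inv_smul, e]
  have hpos : 0 < g 1 0 := by
    have h1 := RT.GammaH.adj_ST_mul_pos (H := (h : Matrix (Fin 2) (Fin 2) ℤ))
      (by rw [h.det_coe]; exact one_ne_zero)
    rw [hg]
    simpa only [Matrix.SpecialLinearGroup.coe_mul, Matrix.SpecialLinearGroup.coe_inv] using h1
  have htr : g 0 0 + g 1 1 = 1 := by
    rw [← Matrix.trace_fin_two, hg, Matrix.SpecialLinearGroup.coe_mul, Matrix.trace_mul_comm,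
      ← Matrix.SpecialLinearGroup.coe_mul, mul_inv_cancel_left, Matrix.trace_fin_two]
    simp [Gamma0.coe_ST]
  obtain ⟨k, hk⟩ : ((N * l : ℕ) : ℤ) ∣ g 1 0 := by
    rwa [Gamma0_mem, ZMod.intCast_zmod_eq_zero_iff_dvd] at hmem
  push_cast at hk
  have hdet : g 0 0 * g 1 1 - g 0 1 * g 1 0 = 1 := by
    have := g.det_coe; rw [Matrix.det_fin_two] at this; exact this
  let δ : SL(2, ℤ) := ⟨!![g 0 0, (l : ℤ) * g 0 1; (N : ℤ) * k, g 1 1], by
    rw [Matrix.det_fin_two_of]; linear_combination hdet + g 0 1 * hk⟩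
  have hscale : scaleH l (g • τ) = δ • affine l 0 1 τ :=
    scaleH_smul_of_hermite (d := l) (g := g) (δ := δ) (a := l) (b := 0) (e := 1)
      (show _ = g 0 0 * (l : ℤ) by ring)
      (show _ = g 0 0 * 0 + (l : ℤ) * g 0 1 * _ by push_cast; ring)
      (show _ = (N : ℤ) * k * (l : ℤ) by linear_combination hk)
      (show _ = (N : ℤ) * k * 0 + g 1 1 * _ by push_cast; ring) τ
  rw [hgτ] at hscale
  have hδ10 : δ 1 0 = (N : ℤ) * k := rfl
  have hkpos : 0 < δ 1 0 := by
    rw [hδ10]
    have hl : (0 : ℤ) < l := by exact_mod_cast Nat.pos_of_ne_zero (NeZero.ne l)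
    have : 0 < ((N : ℤ) * k) * l := by linarith [hk ▸ hpos]
    exact pos_of_mul_pos_left this hl.le
  obtain ⟨h', hh'⟩ := RT.GammaH.exists_conj_ST (γ := δ) (show g 0 0 + g 1 1 = 1 from htr) hkpos
  have hfix : Gamma0.ST • (h' • scaleH l τ) = h' • scaleH l τ := by
    have h1 : (h'⁻¹ * Gamma0.ST * h') • scaleH l τ = scaleH l τ := by rw [← hh']; exact hscale.symm
    conv_rhs => rw [← h1]
    rw [mul_smul, mul_smul, smul_inv_smul]
  have hσ : scaleH l τ = (h'⁻¹ * h) • τ := by
    have hρ := eq_rho_of_ST_smul hfix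
    rw [mul_smul, hτ, smul_inv_smul, ← hτ, ← hρ, inv_smul_smul]
  have hgN : g ∈ Gamma0 N := by
    rw [Gamma0_mem, ZMod.intCast_zmod_eq_zero_iff_dvd, hk]
    exact ⟨l * k, by ring⟩
  have hδN : δ ∈ Gamma0 N := by
    rw [Gamma0_mem, ZMod.intCast_zmod_eq_zero_iff_dvd, hδ10]
    exact dvd_mul_right _ _
  have e1 := lowerLeft_congr (x := h) (hg ▸ hgN)
  have e2 := lowerLeft_congr (x := h') (hh' ▸ hδN)
  rw [← hh', show δ 0 0 = g 0 0 from rfl] at e2
  rw [← hg] at e1
  have hmem' : h'⁻¹ * h ∈ Gamma0 N := by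
    rw [Gamma0_mem]
    have e : ((h'⁻¹ * h) 1 0 : ℤ) = -h' 1 0 * h 0 0 + h' 0 0 * h 1 0 := by
      simp [Matrix.mul_apply, Fin.sum_univ_two, Matrix.adjugate_fin_two]
    rw [e]
    push_cast
    rw [e1, e2]
    ring
  rw [hσ, placeAt_smul hmem']

/-- A cusp is a pole of `j (d τ)`. -/
theorem ord_jd_placeCusp_neg {M d : ℕ} [NeZero M] [NeZero d] (hd : d ∣ M) (c : Coset M) :
    (placeCusp M c).ord (toFC M (jd hd)) < 0 := by
  induction c using QuotientGroup.induction_on with
  | H g =>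
  obtain ⟨δ, a, b, e, _, _, hae, -, hscale⟩ := exists_scaleH_smul d g⁻¹
  obtain ⟨k, hk⟩ : e ∣ M := (Dvd.intro_left a hae).trans hd
  haveI : NeZero k := ⟨fun h0 => NeZero.ne M (by rw [hk, h0, mul_zero])⟩
  have hexp : cuspEmb M (g : Coset M) (toFC M (jd hd)) =
      qExpand ℂ k (qExpand ℂ a (twist (affineRoot b e) (jqModC ℂ))) := by
    rw [cuspEmb_toFC, laurentExp_width (h := e) k (by rw [hk, mul_comm]) (compAffine a b e (jC 1)) _
      ?_, laurentExp_compAffine, laurentExp_jC]
    funext τ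
    rw [tr_mk, jd_apply, hscale, jH_smul]
    rfl
  have hcoeff : (cuspEmb M (g : Coset M) (toFC M (jd hd))).coeff ((k : ℤ) * ((a : ℤ) * -1)) ≠ 0 := by
    rw [hexp, qExpand_coeff_mul, qExpand_coeff_mul, coeff_twist]
    have h1 : (jqModC ℂ).coeff (-1) = 1 := by
      simpa using ModularCurve.coeff_jqModC_pow_self ℂ 1
    rw [h1, mul_one]
    exact Units.ne_zero _
  have hne : toFC M (jd hd) ≠ 0 := fun h0 => hcoeff (by rw [h0, map_zero, HahnSeries.coeff_zero])
  obtain ⟨m, hm, -, hord⟩ := exists_order_eq_mul (N := M) (g : Coset M)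
  have h2 := HahnSeries.order_le_of_coeff_ne_zero hcoeff
  rw [hord _ hne] at h2
  have hka : (0 : ℤ) < k * a := by
    have := Nat.pos_of_ne_zero (NeZero.ne k)
    have := Nat.pos_of_ne_zero (NeZero.ne a)
    positivity
  by_contra hcon
  push Not at hcon
  have := mul_nonneg hm.le hcon
  linarith

theorem toMerH_tr_one {M : ℕ} [NeZero M] (a : Hol M) :
    toMerH M (tr M ((1 : SL(2, ℤ)) : Coset M) a) =
      algebraMap HolH MerH ⟨(a : ℍ → ℂ), a.2.1⟩ := by
  rw [toMerH_apply]
  exact congrArg _ (Subtype.ext (funext (tr_one a)))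

theorem emb_one_toFC_jd {M d : ℕ} [NeZero M] [NeZero d] (hd : d ∣ M) :
    emb M ((1 : SL(2, ℤ)) : Coset M) (toFC M (jd hd)) =
      algebraMap HolH MerH ⟨(jdC d : ℍ → ℂ), (jdC d).2.1⟩ := by
  rw [emb_toFC, toMerH_tr_one]
  rfl

/-- The order of `j (l τ)` at a point is that of `j` at `l τ`. -/
theorem ordMer_jd_scale (τ : ℍ) (hl : l ∣ N * l) :
    ordMer τ (emb (N * l) ((1 : SL(2, ℤ)) : Coset (N * l)) (toFC (N * l) (jd hl))) =
      ordHol (scaleH l τ) (jSubHol 0) := by
  have e : (⟨(jdC l : ℍ → ℂ), (jdC l).2.1⟩ : HolH) = scaleHolE l (jSubHol 0) :=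
    Subtype.ext (funext fun z => by simp [jdC_apply, coe_scaleHolE, jSubHol])
  rw [emb_one_toFC_jd, e, ← scaleMerE_algebraMap, ordMer_scaleMerE,
    ordMer_algebraMap (jSubHol_ne_zero 0)]

open scoped Classical in
/-- Over `j (l τ) = 0` either `3` divides the order or the two images agree. -/
theorem exists_placeAt_or_three_dvd (v : Place ℂ (FC (N * l))) (hl : l ∣ N * l)
    (hpos : 0 < v.ord (toFC (N * l) (jd hl))) :
    (∃ τ, v = placeAt (N * l) τ ∧ placeAt N (scaleH l τ) = placeAt N τ) ∨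
      (3 : ℤ) ∣ v.ord (toFC (N * l) (jd hl)) := by
  rcases exists_eq_placeAt_or_placeCusp v with ⟨τ, rfl⟩ | ⟨c, rfl⟩
  swap
  · exact absurd hpos (ord_jd_placeCusp_neg hl c).not_gt
  obtain ⟨m, hm, hmul⟩ := exists_ordMer_eq_mul (N := N * l) τ
  have hne : toFC (N * l) (jd hl) ≠ 0 := fun h0 => by
    rw [h0, Place.ord_zero] at hpos; exact lt_irrefl _ hpos
  have h1 := hmul _ hne
  rw [ordMer_jd_scale] at h1
  have hz : jH (scaleH l τ) = 0 := by
    have h2 : 0 < ordHol (scaleH l τ) (jSubHol 0) := by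
      have := mul_pos hm hpos
      omega
    simpa [jSubHol] using (ordHol_pos_iff (jSubHol_ne_zero 0) _).1 h2
  have h3 : ordHol (scaleH l τ) (jSubHol 0) = 3 := by
    rw [← hz, ordHol_jSubHol_jH, if_pos hz]
  rw [h3] at h1
  by_cases h3e : (3 : ℤ) ∣ (placeAt (N * l) τ).ord (toFC (N * l) (jd hl))
  · exact Or.inr h3e
  refine Or.inl ⟨τ, rfl, ?_⟩
  set e := (placeAt (N * l) τ).ord (toFC (N * l) (jd hl))
  have he1 : e = 1 := by
    have hle : e ≤ 3 := by push_cast at h1; nlinarith
    interval_cases e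
    · rfl
    · omega
    · exact absurd (dvd_refl _) h3e
  have hm3 : m = 3 := by rw [he1, mul_one] at h1; exact_mod_cast h1.symm
  -- `τ` is elliptic at level `N l`
  set v₀ := jF (N * l) - algebraMap ℂ (FC (N * l)) (jH τ) with hv₀
  have hpos' := ord_jF_sub_placeAt_pos (N := N * l) τ
  have hne' : v₀ ≠ 0 := fun h0 => by
    rw [← hv₀, h0, Place.ord_zero] at hpos'; exact lt_irrefl _ hpos'
  have h4 := hmul _ hne'
  rw [hv₀, map_sub, emb_jF, AlgHom.commutes, toMerH_jC_sub,
    ordMer_algebraMap (jSubHol_ne_zero _), ordHol_jSubHol_jH, hm3] at h4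
  have hjτ : jH τ = 0 := by
    by_contra hne0
    rw [if_neg hne0] at h4
    split_ifs at h4 <;> push_cast at h4 <;> omega
  have hord1 : (placeAt (N * l) τ).ord (jF (N * l) - algebraMap ℂ (FC (N * l)) (jH τ)) = 1 := by
    rw [if_pos hjτ] at h4
    push_cast at h4
    omega
  obtain ⟨g, rfl⟩ := Poincare.exists_smul_eq_of_jH_eq (τ₀ := UpperHalfPlane.ρ) (τ₁ := τ)
    (by rw [genusJ_eq, hjτ]; exact Genus.jH_ρ)
  obtain ⟨h, rfl⟩ : ∃ h : SL(2, ℤ), g = h⁻¹ := ⟨g⁻¹, (inv_inv g).symm⟩
  obtain ⟨s, hs, -, hinj, hper⟩ := places_over_point (N := N * l) UpperHalfPlane.ρ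
  have hfix : s • ((h : SL(2, ℤ)) : Coset (N * l)) = (h : Coset (N * l)) := by
    have h5 := hper (h : Coset (N * l))
    rw [placeAt_inv_out_smul, ← jH_smul h⁻¹ UpperHalfPlane.ρ, hord1] at h5
    exact Function.minimalPeriod_eq_one_iff_isFixedPt.1 (by exact_mod_cast h5.symm)
  obtain ⟨k, hk⟩ := hinj (h : Coset (N * l)) ((Gamma0.ST * h : SL(2, ℤ)) : Coset (N * l)) (by
    rw [placeAt_inv_out_smul, placeAt_inv_out_smul, mul_inv_rev, mul_smul]
    congr 2
    rw [eq_comm, inv_smul_eq_iff, eq_comm]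
    exact Genus.ST_smul_ρ)
  have hstab : s ^ k • ((h : SL(2, ℤ)) : Coset (N * l)) = (h : Coset (N * l)) :=
    (MulAction.stabilizer SL(2, ℤ) _).zpow_mem (MulAction.mem_stabilizer_iff.2 hfix) k
  have heq : ((Gamma0.ST * h : SL(2, ℤ)) : Coset (N * l)) = (h : Coset (N * l)) := by
    have h6 := hk.trans hstab.symm
    exact smul_left_cancel _ h6
  refine placeAt_scaleH_eq h ?_
  have h7 := QuotientGroup.eq.1 heq.symm
  rwa [← mul_assoc] at h7

/-! ### The statement over `ℚ̄` -/

theorem exists_place_over_bar' {M : ℕ} [NeZero M]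
    (P : Place (AlgebraicClosure ℚ) (modularFunctionFieldBar M)) :
    ∃ v : Place ℂ (FC M), ∀ x, v.ord (toFCHom iotaC M x) = P.ord x := by
  haveI : Module.Finite (AlgebraicClosure ℚ) P.ResidueField := FF.finite_residueField P
  obtain ⟨w, hw⟩ := JacTorsion.exists_place_over
    (JacTorsion.cScalarExt iotaC (modularFunctionFieldBar M)) P
    (JacTorsion.residueConst_of_finite P)
  have key : ∀ (E : IntermediateField ℂ (LaurentSeries ℂ)) (hE : E = FC M) (w : Place ℂ E)
      (e : modularFunctionFieldBar M → E),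
      (∀ x, (e x : LaurentSeries ℂ) = coeffMap iotaC (x : LaurentSeries (AlgebraicClosure ℚ))) →
      ∃ v : Place ℂ (FC M), ∀ x, v.ord (toFCHom iotaC M x) = w.ord (e x) := by
    rintro E rfl w e he
    exact ⟨w, fun x => by rw [show toFCHom iotaC M x = e x from Subtype.ext (he x).symm]⟩
  obtain ⟨v, hv⟩ := key _ cExt_bar w (JacTorsion.cEmb iotaC _) fun x => JacTorsion.coe_cEmb _ _ x
  exact ⟨v, fun x => (hv x).trans (by rw [← hw, JacTorsion.cScalarExt_emb])⟩

variable (N l)

theorem toFCHom_alpha (x : modularFunctionFieldBar N) :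
    emb (N * l) ((1 : SL(2, ℤ)) : Coset (N * l))
        (toFCHom iotaC (N * l) (heckeAlphaBar (AlgebraicClosure ℚ) N l x)) =
      emb N ((1 : SL(2, ℤ)) : Coset N) (toFCHom iotaC N x) := by
  refine DFunLike.congr_fun (ringHom_ext_level
    (((emb (N * l) ((1 : SL(2, ℤ)) : Coset (N * l))).toRingHom.comp (toFCHom iotaC (N * l))).comp
      (heckeAlphaBar (AlgebraicClosure ℚ) N l).toRingHom)
    ((emb N ((1 : SL(2, ℤ)) : Coset N)).toRingHom.comp (toFCHom iotaC N))
    (fun a => ?_) fun y hy => ?_) x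
  · show emb (N * l) _ (toFCHom iotaC (N * l) (heckeAlphaBar (AlgebraicClosure ℚ) N l (algebraMap _ _ a))) =
      emb N _ (toFCHom iotaC N (algebraMap _ _ a))
    rw [AlgHom.commutes, toFCHom_algebraMap, toFCHom_algebraMap, AlgHom.commutes, AlgHom.commutes]
  · obtain ⟨d, hd, hdN, hyd⟩ := hy
    show emb (N * l) _ (toFCHom iotaC (N * l) (heckeAlphaBar (AlgebraicClosure ℚ) N l y)) =
      emb N _ (toFCHom iotaC N y)
    rw [show toFCHom iotaC N y = toFC N (jd hdN) from Subtype.ext (by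
        rw [coe_toFCHom, coe_toFC_jd, hyd, coeffMap_qExpand, coeffMap_jqModC]),
      show toFCHom iotaC (N * l) (heckeAlphaBar (AlgebraicClosure ℚ) N l y) =
          toFC (N * l) (jd (hdN.trans (dvd_mul_right N l))) from Subtype.ext (by
        rw [coe_toFCHom, coe_toFC_jd, coe_heckeAlphaBar, hyd, coeffMap_qExpand, coeffMap_jqModC]),
      emb_one_toFC_jd, emb_one_toFC_jd]

theorem toFCHom_beta (x : modularFunctionFieldBar N) :
    emb (N * l) ((1 : SL(2, ℤ)) : Coset (N * l))
        (toFCHom iotaC (N * l) (heckeBetaBar (AlgebraicClosure ℚ) N l x)) =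
      scaleMerE l (emb N ((1 : SL(2, ℤ)) : Coset N) (toFCHom iotaC N x)) := by
  refine DFunLike.congr_fun (ringHom_ext_level
    (((emb (N * l) ((1 : SL(2, ℤ)) : Coset (N * l))).toRingHom.comp (toFCHom iotaC (N * l))).comp
      (heckeBetaBar (AlgebraicClosure ℚ) N l).toRingHom)
    ((scaleMerE l).toRingHom.comp
      ((emb N ((1 : SL(2, ℤ)) : Coset N)).toRingHom.comp (toFCHom iotaC N)))
    (fun a => ?_) fun y hy => ?_) x
  · show emb (N * l) _ (toFCHom iotaC (N * l) (heckeBetaBar (AlgebraicClosure ℚ) N l (algebraMap _ _ a))) =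
      scaleMerE l (emb N _ (toFCHom iotaC N (algebraMap _ _ a)))
    rw [AlgHom.commutes, toFCHom_algebraMap, toFCHom_algebraMap, AlgHom.commutes, AlgHom.commutes,
      AlgHom.commutes]
  · obtain ⟨d, hd, hdN, hyd⟩ := hy
    show emb (N * l) _ (toFCHom iotaC (N * l) (heckeBetaBar (AlgebraicClosure ℚ) N l y)) =
      scaleMerE l (emb N _ (toFCHom iotaC N y))
    rw [show toFCHom iotaC N y = toFC N (jd hdN) from Subtype.ext (by
        rw [coe_toFCHom, coe_toFC_jd, hyd, coeffMap_qExpand, coeffMap_jqModC]),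
      show toFCHom iotaC (N * l) (heckeBetaBar (AlgebraicClosure ℚ) N l y) =
          toFC (N * l) (jd (d := d * l) (mul_dvd_mul_right hdN l)) from Subtype.ext (by
        rw [coe_toFCHom, coe_toFC_jd, coe_heckeBetaBar, hyd, qExpand_qExpand, coeffMap_qExpand,
          coeffMap_jqModC]
        simp only [mul_comm l d]),
      emb_one_toFC_jd, emb_one_toFC_jd, scaleMerE_algebraMap]
    refine congrArg _ (Subtype.ext (funext fun τ => ?_))
    rw [coe_scaleHolE]
    show (jdC (d * l) : ℍ → ℂ) τ = (jdC d : ℍ → ℂ) (scaleH l τ)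
    rw [jdC_apply, jdC_apply, scaleH_mul]

theorem restrictAlong_toValuationSubring {K F F' : Type*} [Field K] [Field F] [Field F']
    [Algebra K F] [Algebra K F'] (φ : F →ₐ[K] F') (hφ : φ.toRingHom.IsIntegral) (w : Place K F')
    (x : F) : x ∈ (w.restrictAlong φ hφ).toValuationSubring ↔ φ x ∈ w.toValuationSubring := by
  letI := algebraAlong φ
  haveI := isScalarTower_along φ
  haveI := isIntegral_along φ hφ
  show x ∈ (w.restrict F).toValuationSubring ↔ _
  rw [Place.restrict_toValuationSubring, ValuationSubring.mem_comap]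
  rfl

variable {N l}

/-- **Elliptic points of order three are Eisenstein**: above a point over `j = 0` under `β`, either
`3` divides the order of `j ∘ β` or both images coincide. -/
theorem restrictAlong_eq_or_three_dvd
    (hα : HeckeAlphaBarIntegral (AlgebraicClosure ℚ) N l)
    (hβ : HeckeBetaBarIntegral (AlgebraicClosure ℚ) N l)
    (w : Place (AlgebraicClosure ℚ) (modularFunctionFieldBar (N * l)))
    (hw : 0 < w.ord (heckeBetaBar (AlgebraicClosure ℚ) N l (Semistable.jM N))) :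
    w.restrictAlong (heckeAlphaBar (AlgebraicClosure ℚ) N l) hα =
        w.restrictAlong (heckeBetaBar (AlgebraicClosure ℚ) N l) hβ ∨
      (3 : ℤ) ∣ w.ord (heckeBetaBar (AlgebraicClosure ℚ) N l (Semistable.jM N)) := by
  obtain ⟨v, hv⟩ := exists_place_over_bar' w
  have hl : l ∣ N * l := dvd_mul_left l N
  have hj : toFCHom iotaC (N * l) (heckeBetaBar (AlgebraicClosure ℚ) N l (Semistable.jM N)) =
      toFC (N * l) (jd hl) := Subtype.ext (by
    rw [coe_toFCHom, coe_toFC_jd, coe_heckeBetaBar, Semistable.coe_jM, coeffMap_qExpand,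
      coeffMap_jqModC])
  have h3 := exists_placeAt_or_three_dvd v hl (by rw [← hj, hv]; exact hw)
  rw [← hj, hv] at h3
  refine h3.imp_left ?_
  rintro ⟨τ, rfl, hτ⟩
  have hmem : ∀ y, y ∈ w.toValuationSubring ↔
      toFCHom iotaC (N * l) y ∈ (placeAt (N * l) τ).toValuationSubring := fun y => by
    rcases eq_or_ne y 0 with rfl | hy
    · simp
    · rw [FF.mem_iff_ord w hy, FF.mem_iff_ord _ ((_root_.map_ne_zero _).2 hy), hv]
  apply Place.ext
  ext x
  refine (restrictAlong_toValuationSubring _ hα w x).trans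
    (Iff.trans ?_ (restrictAlong_toValuationSubring _ hβ w x).symm)
  rw [hmem, hmem,
    mem_placeAt_iff, mem_placeAt_iff, toFCHom_alpha, toFCHom_beta, valAt_scaleMerE,
    ← mem_placeAt_iff, ← mem_placeAt_iff, hτ]

/-- The same, for a point below with `j` of order one. -/
theorem restrictAlong_eq_or_three_dvd_of_ord_eq_one
    [FF.IsFunctionField (AlgebraicClosure ℚ) (modularFunctionFieldBar N)]
    [FF.IsFunctionField (AlgebraicClosure ℚ) (modularFunctionFieldBar (N * l))]
    (hα : HeckeAlphaBarIntegral (AlgebraicClosure ℚ) N l)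
    (hβ : HeckeBetaBarIntegral (AlgebraicClosure ℚ) N l)
    (w : Place (AlgebraicClosure ℚ) (modularFunctionFieldBar (N * l)))
    (h1 : (w.restrictAlong (heckeBetaBar (AlgebraicClosure ℚ) N l) hβ).ord
      (Semistable.jM N) = 1) :
    w.restrictAlong (heckeAlphaBar (AlgebraicClosure ℚ) N l) hα =
        w.restrictAlong (heckeBetaBar (AlgebraicClosure ℚ) N l) hβ ∨
      (3 : ℤ) ∣ w.ord (heckeBetaBar (AlgebraicClosure ℚ) N l (Semistable.jM N)) := by
  refine restrictAlong_eq_or_three_dvd hα hβ w ?_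
  have hram : 0 < w.ramificationIndexAlong (heckeBetaBar (AlgebraicClosure ℚ) N l) := by
    letI := algebraAlong (heckeBetaBar (AlgebraicClosure ℚ) N l)
    haveI := isScalarTower_along (heckeBetaBar (AlgebraicClosure ℚ) N l)
    haveI := isIntegral_along (heckeBetaBar (AlgebraicClosure ℚ) N l) hβ
    haveI : Module.Finite (modularFunctionFieldBar N) (modularFunctionFieldBar (N * l)) :=
      FF.finiteAlong _
    exact w.ramificationIndex_pos
  rw [Place.ord_restrictAlong _ hβ, h1, mul_one]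
  exact_mod_cast hram

end Fermat.Agent.Extra39
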