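import Fermat.Agent.RT.MazurP.Endgame.Normalise
import Fermat.Agent.RT.MazurP.Endgame.Torsion
import Fermat.Agent.RT.MazurP.Torsion
import Fermat.Agent.Semistable.LocalTheory

/-!
# Pieces of the endgame of Mazur's principle

Eigen torsion of an irreducible `E[p]` has no stable line; an inertia element normalising the
coefficient field moves a class into one with trivial reductions; a quadratic relation without
eigenvalue `1` makes `τ - 1` surjective.
-/

set_option autoImplicit false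
set_option synthInstance.maxHeartbeats 400000
set_option maxHeartbeats 1000000
set_option linter.unusedSectionVars false

noncomputable section

namespace Fermat.Agent.Extra39

open ModularCurve AlgebraicCurve Fermat.Agent.Semistable Fermat.Agent.Arith
open Fermat.Agent.RT Fermat.Agent.RT.Mazur Fermat.Agent.RT.MazurP Fermat.Agent.EC.Rep

section Stable

variable {Γ G : Type*} [Group Γ] [AddCommGroup G] [DistribMulAction Γ G] {p : ℕ} [Fact p.Prime]

/-- If `1` is no root of the quadratic relation then `τ - 1` is onto. -/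
theorem exists_smul_sub_eq (U : AddSubgroup G) (hst : ∀ g : Γ, ∀ x ∈ U, g • x ∈ U)
    (hp : ∀ x ∈ U, p • x = 0) {τ : Γ} {t d : ℤ}
    (hq : ∀ x ∈ U, τ • τ • x - t • (τ • x) + d • x = 0) (hne : ((1 - t + d : ℤ) : ZMod p) ≠ 0)
    {x : G} (hx : x ∈ U) : ∃ y ∈ U, τ • y - y = x := by
  obtain ⟨m, hm⟩ := ZMod.intCast_surjective ((-1 + (t : ZMod p) - (d : ZMod p))⁻¹)
  refine ⟨m • (τ • x + x - t • x),
    U.zsmul_mem (U.sub_mem (U.add_mem (hst τ x hx) hx) (U.zsmul_mem hx t)) m, ?_⟩
  have e : τ • (τ • x + x - t • x) - (τ • x + x - t • x) = (-1 + t - d) • x := by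
    have h := hq x hx
    rw [← sub_eq_zero, ← h, smul_sub, smul_add, smul_zsmul_comm' τ t x, sub_zsmul, add_zsmul,
      neg_zsmul, one_zsmul]
    abel
  have hne' : (-1 + (t : ZMod p) - (d : ZMod p)) ≠ 0 := fun h =>
    hne (by push_cast; linear_combination -h)
  rw [smul_zsmul_comm' τ m, ← zsmul_sub, e, smul_smul]
  exact (zsmul_eq_of_cast_eq (hp x hx) (b := 1)
    (by push_cast; rw [hm, inv_mul_cancel₀ hne'])).trans (one_zsmul x)

end Stable

section Line

variable {p : ℕ} [Fact p.Prime] {W : WeierstrassCurve ℤ}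

/-- Eigen torsion of an irreducible residual representation contains no stable line. -/
theorem exists_smul_ne_zsmul (hΔ0 : W.Δ ≠ 0) (hirr : W.ModRepIsIrreducible p) (hp2 : p ≠ 2)
    {N : ℕ} [NeZero N] (hES : GaloisReps.CongruenceProperty N p) (S : Finset ℕ) (a : ℕ → ZMod p)
    (hS : ∀ ℓ : ℕ, ℓ.Prime → ℓ ∉ S → ¬ ℓ ∣ N * p ∧ W.IsGoodPrimeFor ℓ ∧
      (W.apOfModel ℓ : ZMod p) = a ℓ)
    {x : JZero N} (hx : x ∈ LowerQ.EigTors N p S a) (hx0 : x ≠ 0) :
    ∃ g : GQ, ∀ n : ℤ, g • x ≠ n • x := by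
  classical
  by_contra hall
  push Not at hall
  choose n hn using hall
  set ρ := residualRep W p hΔ0
  let b := Module.finBasisOfFinrankEq (ZMod p) ρ.V ρ.finrank_eq
  let r : GQ →* Matrix (Fin 2) (Fin 2) (ZMod p) :=
    (LinearMap.toMatrixAlgEquiv b).toMonoidHom.comp ρ.ρ
  have hspan : Submodule.span (ZMod p) (Set.range r) = ⊤ :=
    Deform.span_matrix_eq_top ρ (isAbsolutelyIrreducible_residualRep hΔ0 hp2 hirr) b
  set v : LowerQ.EigTors N p S a := ⟨x, hx⟩ with hv
  set L : Submodule (ZMod p) (LowerQ.EigTors N p S a) := Submodule.span (ZMod p) {v} with hL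
  have hLg : ∀ g, ∀ w ∈ L, eigAct S a g w = (n g : ZMod p) • w := by
    intro g w hw
    obtain ⟨c, rfl⟩ := Submodule.mem_span_singleton.mp hw
    have e : eigAct S a g v = (n g : ZMod p) • v := Subtype.ext (by
      rw [coe_eigAct, Int.cast_smul_eq_zsmul]; exact hn g)
    rw [map_smul, e, smul_comm]
  have hL0 : L ≠ ⊥ := by
    rw [hL, Ne, Submodule.span_singleton_eq_bot]
    exact fun h => hx0 (congrArg Subtype.val h)
  obtain ⟨U, hle, -, -, -, hscal⟩ := exists_submodule_kernel (eigAct S a) r hspan L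
    (fun g w hw => by rw [hLg g w hw]; exact L.smul_mem _ hw) hL0 (fun g w _ => by
      have h := eigAct_quad S a hΔ0 hES hS g w
      rwa [LinearMap.trace_eq_matrix_trace _ b, ← LinearMap.det_toMatrix b] at h)
  obtain ⟨σ, hσ⟩ : ∃ σ, ∀ c : ZMod p, r σ ≠ c • 1 := by
    by_contra h
    push Not at h
    have hle' : Submodule.span (ZMod p) (Set.range r) ≤
        Submodule.span (ZMod p) {(1 : Matrix (Fin 2) (Fin 2) (ZMod p))} := by
      refine Submodule.span_le.mpr ?_
      rintro _ ⟨g, rfl⟩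
      obtain ⟨c, hc⟩ := h g
      exact Submodule.mem_span_singleton.mpr ⟨c, hc.symm⟩
    rw [hspan] at hle'
    obtain ⟨c, hc⟩ := Submodule.mem_span_singleton.mp
      (hle' (Submodule.mem_top (x := Matrix.single (0 : Fin 2) (1 : Fin 2) (1 : ZMod p))))
    have h01 := congrFun (congrFun hc 0) 1
    simp [Matrix.single] at h01
  obtain ⟨w, hw, hwne⟩ := hscal σ hσ (n σ : ZMod p)
  exact hwne (hLg σ w (hle hw))

end Line

section Div

variable {A : ValuationSubring QBar} {p M : ℕ} [Fact p.Prime] [NeZero M] {hpM : ¬ p ∣ M}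
  [CharP (Res A) p] [FF.IsFunctionField (Res A) (KM A M)] {C : CoefField A p}

/-- The quotient of a Kummer function by an inertia conjugate normalises to trivial reductions. -/
theorem Kum.exists_normalised_div (K : Kum hpM C) (hA : A.LiesOverPrime p) (hM : (M : Res A) ≠ 0)
    (V : VUnit A hpM) (hV : V.Simple) {τ : GQ} (hτ : τ ∈ A.inertiaSubgroupIn ℚ)
    (hnorm : ∀ h ∈ C.H, τ⁻¹ * h * τ ∈ C.H) :
    ∃ K' : Kum hpM C, (∀ s, K'.fb s = 1) ∧ K'.v = 0 ∧
      ∃ (c : QBar) (h : FB (p * M)), c ≠ 0 ∧ h ≠ 0 ∧ (∀ σ ∈ C.H, galF (p * M) σ h = h) ∧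
        K'.f = algebraMap QBar (FB (p * M)) c * (galF (p * M) τ K.f / K.f) * h ^ p := by
  have hp : p.Prime := Fact.out
  set f' : FB (p * M) := galF (p * M) τ K.f / K.f with hf'
  have hgal0 : galF (p * M) τ K.f ≠ 0 := (_root_.map_ne_zero _).mpr K.f_ne
  have hf'0 : f' ≠ 0 := div_ne_zero hgal0 K.f_ne
  have hdvd : ∀ v : Place QBar (FB (p * M)), (p : ℤ) ∣ v.ord f' := fun v => by
    have h1 : ∀ w, w.ord K.f = ((p : ℕ) : ℤ) * K.D w := fun w => (K.D_mul w).symm
    rw [hf', FF.ord_div v hgal0 K.f_ne, ord_galF τ h1 v, h1 v]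
    exact dvd_sub (dvd_mul_right _ _) (dvd_mul_right _ _)
  have hfix : ∀ σ ∈ C.H, galF (p * M) σ f' = f' := fun σ hσ => by
    rw [hf', map_div₀, K.fix σ hσ]
    congr 1
    conv_rhs => rw [← K.fix _ (hnorm σ hσ)]
    apply Subtype.ext
    simp only [coe_arithmeticRingAut, coeffMap_coeffMap]
    congr 2
    ext z
    simp [AlgEquiv.mul_apply]
  obtain ⟨K₁, hK₁⟩ := Kum.exists_of (hpM := hpM) (C := C) hA hM hf'0 hdvd hfix
  -- the reductions of the quotient are constants and its orders vanish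
  have hu : A.valuation (C.π / τ C.π) = 1 := by
    rw [map_div₀, valuation_inertia hτ,
      div_self ((Valuation.ne_zero_iff _).mpr C.π_ne_zero)]
  have key : ∀ s, K₁.v s = 0 ∧ dlog (K₁.fb s : LaurentSeries (Res A)) = 0 := by
    intro s
    have hFne : (K.fb s : LaurentSeries (Res A)) ≠ 0 := fun h => K.fb_ne s (Subtype.ext h)
    have hL := ((K.redTo s).coeffMap hτ).mul ((K.redTo s).inv hFne)
    rw [mul_inv_cancel₀ hFne] at hL
    have hk : A.valuation ((C.π / τ C.π) ^ (-K.v s)) = 1 := by rw [map_zpow₀, hu, one_zpow]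
    obtain ⟨hkA, hkr⟩ := residue_unit_ne_zero hk
    have hX := (RedTo.const hkA).mul hL
    rw [mul_one] at hX
    have e : algebraMap QBar LSer ((C.π / τ C.π) ^ (-K.v s)) *
        (coeffMap (τ : QBar →+* QBar) (algebraMap QBar LSer (C.π ^ (-K.v s)) * iota2 M p hpM s K.f) *
          (algebraMap QBar LSer (C.π ^ (-K.v s)) * iota2 M p hpM s K.f)⁻¹) =
        iota2 M p hpM s K₁.f := by
      have hπ : τ C.π ≠ 0 := (_root_.map_ne_zero _).mpr C.π_ne_zero
      have hπs : algebraMap QBar LSer (C.π ^ (-K.v s)) ≠ 0 :=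
        (_root_.map_ne_zero _).mpr (zpow_ne_zero _ C.π_ne_zero)
      have hτs : algebraMap QBar LSer (τ (C.π ^ (-K.v s))) ≠ 0 :=
        (_root_.map_ne_zero _).mpr ((_root_.map_ne_zero _).mpr (zpow_ne_zero _ C.π_ne_zero))
      rw [map_mul, coeffMap_algebraMap, ← iota2_galF, RingHom.coe_coe, hK₁, hf', map_div₀,
        div_zpow, map_div₀, ← map_zpow₀ τ]
      field_simp
    rw [e] at hX
    have hne : algebraMap (Res A) (LaurentSeries (Res A)) (IsLocalRing.residue A ⟨_, hkA⟩) ≠ 0 :=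
      (_root_.map_ne_zero _).mpr hkr
    have hg1 : IsGUnit A (algebraMap QBar LSer 1 * iota2 M p hpM s K₁.f) := by
      rw [map_one, one_mul]; exact hX.isGUnit hne
    have hFne₁ : (K₁.fb s : LaurentSeries (Res A)) ≠ 0 := fun h => K₁.fb_ne s (Subtype.ext h)
    have hval := valuation_eq_of_isGUnit ((K₁.redTo s).isGUnit hFne₁) hg1
    rw [map_one, map_zpow₀, ← zpow_zero (A.valuation C.π)] at hval
    have hv : K₁.v s = 0 := by
      have := zpow_right_injective₀
        (zero_lt_iff.mpr ((Valuation.ne_zero_iff _).mpr C.π_ne_zero)) C.π_nonunit.ne hval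
      omega
    refine ⟨hv, ?_⟩
    have e1 := (K₁.redTo s).eq hX (by rw [hv, neg_zero, zpow_zero, map_one, one_mul])
    rw [e1]
    rw [algebraMap_laurentSeries_eq_single]
    exact dlog_C _
  obtain ⟨K', h1, h2, c, h, hc, hh, hhfix, he⟩ := K₁.exists_normalised hA hM V hV
    (by simp only [Kum.δ, (key 1).1, (key 0).1, sub_zero, dvd_zero]) fun s => (key s).2
  exact ⟨K', h1, h2, c, h, hc, hh, hhfix, by rw [he, hK₁, hf']⟩

end Div

end Fermat.Agent.Extra39

end
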