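import Fermat.Agent.RT.LowerQ.EigenTorsion
import Fermat.Agent.RT.Mazur.Rational
import Fermat.Agent.Mazur.Eisenstein.HeckeCommute

/-!
# Systems of eigenvalues on quotients of `J₀(N)`

An endomorphism of `J₀(N)` commuting with Galois is determined by its matrix on the torsion.
Hence, if an additive map from `J₀(N)` transports `T_ℓ` to maps multiplying a nonzero `p`-torsion
value `c` by `a ℓ`, then the system `a` occurs in `J₀(N)[p]`.
-/

set_option autoImplicit false
set_option synthInstance.maxHeartbeats 400000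
set_option maxHeartbeats 1000000
set_option linter.unusedSectionVars false

noncomputable section

namespace Fermat.Agent.Extra39

open AlgebraicCurve ModularCurve CongruenceSubgroup
open Fermat.Agent.MordellWeil (x0Coords co_x0Coords)
open Arith (QBar GQ)
open scoped Matrix

variable (N : ℕ) [NeZero N]

theorem galois_mem_levelAny (σ : GQ) {m : ℕ} {f : Genus.Fbar N}
    (hf : f ∈ (x0Coords N).V m) :
    arithmeticGalois (modularFunctionFieldFull N) σ • f ∈ (x0Coords N).V m := by
  classical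
  set g := arithmeticGalois (modularFunctionFieldFull N) σ
  rcases eq_or_ne f 0 with rfl | h0
  · rw [smul_zero]; exact zero_mem _
  have hg : g⁻¹ • Mazur.Eisenstein.placeInf N = Mazur.Eisenstein.placeInf N := by
    rw [inv_smul_eq_iff]; exact (RT.Mazur.galois_smul_placeInf σ).symm
  refine MordellWeil.mem_L_of_le fun w => ?_
  have h1 := MordellWeil.neg_le_ord
    (D := Finsupp.single (Mazur.Eisenstein.placeInf N) (m : ℤ)) hf h0 (g⁻¹ • w)
  have h2 := SemilinearAut.ord_smul g (g⁻¹ • w) f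
  rw [smul_inv_smul] at h2
  rw [h2]
  have hs : Finsupp.single (Mazur.Eisenstein.placeInf N) (m : ℤ) (g⁻¹ • w) =
      Finsupp.single (Mazur.Eisenstein.placeInf N) (m : ℤ) w := by
    rw [Finsupp.single_apply, Finsupp.single_apply]
    refine if_congr ⟨fun h => ?_, fun h => by rw [← h, hg]⟩ rfl rfl
    exact MulAction.injective g⁻¹ (hg.trans h)
  rw [hs] at h1
  exact h1

/-- The Galois action on `X₀(N)`, any level. -/
def x0GalActAny : (x0Coords N).GalAct where
  act σ := arithmeticGalois (modularFunctionFieldFull N) σ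
  base σ := baseAut_arithmeticGalois (modularFunctionFieldFull N) σ
  fix_pt σ := RT.Mazur.galois_smul_placeInf σ
  co_act σ m f hf := by
    funext i
    rw [co_x0Coords N m (galois_mem_levelAny N σ hf), co_x0Coords N m hf]
    rfl

/-- An endomorphism commuting with Galois and killing the torsion is zero. -/
theorem eq_zero_of_torsion (D : JZero N →+ JZero N) (hgal : ∀ (σ : GQ) x, σ • D x = D (σ • x))
    (htor : ∀ m : ℕ, 0 < m → ∀ x : JZero N, m • x = 0 → D x = 0) : D = 0 := by
  refine AddMonoidHom.ext fun x => ?_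
  obtain ⟨L, hL, hfix⟩ := (x0GalActAny N).exists_field_fix x
  let S : AddSubgroup (JZero N) :=
    { carrier := {y | ∀ σ : GQ, (∀ q ∈ L, σ q = q) → σ • y = y}
      add_mem' := fun ha hb σ hσ => by rw [smul_add, ha σ hσ, hb σ hσ]
      zero_mem' := fun σ _ => smul_zero σ
      neg_mem' := fun ha σ hσ => by rw [smul_neg, ha σ hσ] }
  refine Mazur.Eisenstein.eq_zero_of_divisible (x0GalActAny N) L S (fun y hy σ hσ => hy σ hσ)
    fun m hm => ?_
  obtain ⟨z, hz⟩ := MordellWeil.jZero_exists_nsmul_eq N m hm x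
  refine ⟨D z, fun σ hσ => ?_, by rw [← map_nsmul, hz]⟩
  have hzero : m • (σ • z - z) = 0 := by
    rw [nsmul_sub, show m • σ • z = σ • (m • z) from
      (map_nsmul (DistribSMul.toAddMonoidHom (JZero N) σ) m z).symm, hz]
    exact sub_eq_zero.mpr (hfix σ hσ)
  rw [hgal, ← sub_eq_zero, ← map_sub]
  exact htor m hm _ hzero

/-- Coordinates of the `m`-torsion. -/
def torsCoord (m : ℕ) [NeZero m] :
    Pic0.torsion QBar (modularFunctionFieldBar N) m ≃+ (Fin (2 * Gamma0.genus N) → ZMod m) :=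
  ((JacTorsion.torsionEquiv N m).trans (GaloisReps.atkinEquiv N (ZMod m))).trans
    (AddEquiv.ofBijective
      ((GaloisReps.coord N (ZMod m)).comp (Gamma0.ellParHoms (Gamma0 N) (ZMod m)).subtype)
      (GaloisReps.coord_bijective (ZMod m)))

theorem map_mem_torsion (T : JZero N →+ JZero N) {m : ℕ} {x : JZero N}
    (hx : x ∈ Pic0.torsion QBar (modularFunctionFieldBar N) m) :
    T x ∈ Pic0.torsion QBar (modularFunctionFieldBar N) m :=
  Pic0.mem_torsion.mpr (by rw [← map_zsmul, Pic0.mem_torsion.mp hx, map_zero])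

/-- `T` commutes with Galois and acts on all torsion by the matrix of `t`. -/
structure ActsBy (T : JZero N →+ JZero N) (t : GaloisReps.FullHecke N) : Prop where
  gal : ∀ (σ : GQ) x, σ • T x = T (σ • x)
  tors : ∀ (m : ℕ) [NeZero m] (x : Pic0.torsion QBar (modularFunctionFieldBar N) m),
    torsCoord N m ⟨T x, map_mem_torsion N T x.2⟩ =
      ((GaloisReps.latticeMat N t).map (Int.castRingHom (ZMod m))) *ᵥ torsCoord N m x

variable {N}

theorem actsBy_hecke {l : ℕ} (hl : l.Prime) :
    ActsBy N (heckeOperatorBar N ⟨l, hl⟩) (HeckeDuality.heckeOp N 2 l hl) := by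
  refine ⟨fun σ x => GaloisReps.galois_heckeOperatorBar N ⟨l, hl⟩ σ x, fun m _ x => ?_⟩
  rw [GaloisReps.latticeMat_heckeOp]
  show GaloisReps.coord N (ZMod m) (((JacTorsion.torsionEquiv N m).trans
      (GaloisReps.atkinEquiv N (ZMod m))) _).1 = _
  refine Eq.trans (congrArg (GaloisReps.coord N (ZMod m)) ?_)
    (GaloisReps.coord_homOp l hl
      ((JacTorsion.torsionEquiv N m).trans (GaloisReps.atkinEquiv N (ZMod m)) x).2)
  exact GaloisReps.atkinHom_torsionEquiv_hecke l hl x _ rfl

namespace ActsBy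

variable {T T' : JZero N →+ JZero N} {t t' : GaloisReps.FullHecke N}

theorem id : ActsBy N (AddMonoidHom.id _) 1 := by
  refine ⟨fun σ x => rfl, fun m _ x => ?_⟩
  rw [map_one, Matrix.map_one _ (map_zero _) (map_one _), Matrix.one_mulVec]
  rfl

theorem comp (h : ActsBy N T t) (h' : ActsBy N T' t') : ActsBy N (T.comp T') (t * t') := by
  refine ⟨fun σ x => by
    rw [AddMonoidHom.comp_apply, AddMonoidHom.comp_apply, h.gal, h'.gal], fun m _ x => ?_⟩
  have e : torsCoord N m ⟨(T.comp T') x, map_mem_torsion N _ x.2⟩ =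
      torsCoord N m ⟨T (⟨T' x, map_mem_torsion N T' x.2⟩ :
        Pic0.torsion QBar (modularFunctionFieldBar N) m), map_mem_torsion N T
          (map_mem_torsion N T' x.2)⟩ := rfl
  rw [e, h.tors m, h'.tors m, map_mul, Matrix.map_mul, Matrix.mulVec_mulVec]

theorem add (h : ActsBy N T t) (h' : ActsBy N T' t') : ActsBy N (T + T') (t + t') := by
  refine ⟨fun σ x => by
    rw [AddMonoidHom.add_apply, AddMonoidHom.add_apply, smul_add, h.gal, h'.gal], fun m _ x => ?_⟩
  have e : (⟨(T + T') x, map_mem_torsion N _ x.2⟩ :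
      Pic0.torsion QBar (modularFunctionFieldBar N) m) =
      ⟨T x, map_mem_torsion N T x.2⟩ + ⟨T' x, map_mem_torsion N T' x.2⟩ := rfl
  rw [e, map_add, h.tors m, h'.tors m, map_add, Matrix.map_add _ (map_add _), Matrix.add_mulVec]

theorem neg (h : ActsBy N T t) : ActsBy N (-T) (-t) := by
  refine ⟨fun σ x => by
    rw [AddMonoidHom.neg_apply, AddMonoidHom.neg_apply, smul_neg, h.gal], fun m _ x => ?_⟩
  have e : (⟨(-T) x, map_mem_torsion N _ x.2⟩ :
      Pic0.torsion QBar (modularFunctionFieldBar N) m) = -⟨T x, map_mem_torsion N T x.2⟩ := rfl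
  rw [e, map_neg, h.tors m, map_neg, ← Matrix.neg_mulVec]
  congr 1
  ext i j
  simp

/-- The element determines the endomorphism. -/
theorem unique (h : ActsBy N T t) (h' : ActsBy N T' t) : T = T' := by
  refine sub_eq_zero.mp (eq_zero_of_torsion N (T - T') (fun σ x => ?_) fun m hm x hx => ?_)
  · rw [AddMonoidHom.sub_apply, AddMonoidHom.sub_apply, smul_sub, h.gal, h'.gal]
  · have : NeZero m := ⟨hm.ne'⟩
    let x' : Pic0.torsion QBar (modularFunctionFieldBar N) m :=
      ⟨x, Pic0.mem_torsion.mpr (by rw [natCast_zsmul]; exact hx)⟩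
    have e := (torsCoord N m).injective ((h.tors m x').trans (h'.tors m x').symm)
    exact sub_eq_zero.mpr (congrArg Subtype.val e)

end ActsBy

section Eigen

variable {p : ℕ} [Fact p.Prime] {Y : Type*} [AddCommGroup Y] (red : JZero N →+ Y) (c : Y)

/-- `T` multiplies the value `c` of `red` by `n`. -/
def Scales (T : JZero N →+ JZero N) (n : ℤ) : Prop :=
  ∀ (k : ℤ) (x : JZero N), red x = k • c → red (T x) = (n * k) • c

/-- **A system of eigenvalues on a value of an additive map occurs in the `p`-torsion.** -/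
theorem eigTors_ne_bot_of_scales {x₀ : JZero N} (hx₀ : red x₀ = c) (hpc : p • c = 0) (hc : c ≠ 0)
    (S : Finset ℕ) (a : ℕ → ℤ)
    (h : ∀ (l : ℕ) (hl : l.Prime), l ∉ S → Scales red c (heckeOperatorBar N ⟨l, hl⟩) (a l)) :
    RT.LowerQ.EigTors N p S (fun l => (a l : ZMod p)) ≠ ⊥ := by
  classical
  have hp : p.Prime := Fact.out
  let P : GaloisReps.FullHecke N → ℤ → Prop := fun t n => ∃ T, ActsBy N T t ∧ Scales red c T n
  have hP1 : P 1 1 := ⟨_, ActsBy.id, fun k x hx => by rw [one_mul]; exact hx⟩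
  have hPmul : ∀ {t t' n n'}, P t n → P t' n' → P (t * t') (n * n') := by
    rintro t t' n n' ⟨T, hT, hn⟩ ⟨T', hT', hn'⟩
    exact ⟨_, hT.comp hT', fun k x hx => by
      rw [AddMonoidHom.comp_apply, hn _ _ (hn' k x hx), mul_assoc]⟩
  have hPadd : ∀ {t t' n n'}, P t n → P t' n' → P (t + t') (n + n') := by
    rintro t t' n n' ⟨T, hT, hn⟩ ⟨T', hT', hn'⟩
    exact ⟨_, hT.add hT', fun k x hx => by
      rw [AddMonoidHom.add_apply, map_add, hn k x hx, hn' k x hx, add_mul, add_zsmul]⟩
  have hPneg : ∀ {t n}, P t n → P (-t) (-n) := by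
    rintro t n ⟨T, hT, hn⟩
    exact ⟨_, hT.neg, fun k x hx => by
      rw [AddMonoidHom.neg_apply, map_neg, hn k x hx, neg_mul, neg_zsmul]⟩
  have hP0 : P 0 0 := by simpa using hPadd hP1 (hPneg hP1)
  let B : Subring (GaloisReps.FullHecke N) :=
    { carrier := {t | ∃ n, P t n}
      one_mem' := ⟨1, hP1⟩
      mul_mem' := fun ⟨_, h₁⟩ ⟨_, h₂⟩ => ⟨_, hPmul h₁ h₂⟩
      zero_mem' := ⟨0, hP0⟩
      add_mem' := fun ⟨_, h₁⟩ ⟨_, h₂⟩ => ⟨_, hPadd h₁ h₂⟩
      neg_mem' := fun ⟨_, h₁⟩ => ⟨_, hPneg h₁⟩ }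
  have huniq : ∀ {t : GaloisReps.FullHecke N} {n n' : ℤ}, P t n → P t n' →
      (n : ZMod p) = (n' : ZMod p) := by
    rintro t n n' ⟨T, hT, hn⟩ ⟨T', hT', hn'⟩
    obtain rfl := hT.unique hT'
    have h1 := hn 1 x₀ (by rw [one_zsmul]; exact hx₀)
    rw [hn' 1 x₀ (by rw [one_zsmul]; exact hx₀), mul_one, mul_one, ← sub_eq_zero, ← sub_smul] at h1
    rw [ZMod.intCast_eq_intCast_iff_dvd_sub]
    by_contra hnd
    obtain ⟨u, v, huv⟩ := ((Nat.prime_iff_prime_int.mp hp).coprime_iff_not_dvd.mpr hnd)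
    refine hc ?_
    rw [← one_zsmul c, ← huv, add_zsmul, mul_zsmul, mul_zsmul, natCast_zsmul, hpc, h1, smul_zero,
      smul_zero, add_zero]
  choose n hn using fun t : B => t.2
  let χ : B →+* ZMod p :=
    { toFun := fun t => (n t : ZMod p)
      map_one' := (huniq (hn 1) hP1).trans Int.cast_one
      map_mul' := fun t t' => (huniq (hn (t * t')) (hPmul (hn t) (hn t'))).trans (Int.cast_mul _ _)
      map_zero' := (huniq (hn 0) hP0).trans Int.cast_zero
      map_add' := fun t t' =>
        (huniq (hn (t + t')) (hPadd (hn t) (hn t'))).trans (Int.cast_add _ _) }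
  have : Module.Finite ℤ (GaloisReps.FullHecke N) := IntegralStructure.heckeAlgebra_finite N 2 ∅
  have : Module.Finite ℤ B := Module.Finite.of_injective B.subtype.toIntAlgHom.toLinearMap
    Subtype.val_injective
  have : NeZero (p ^ 1) := ⟨pow_ne_zero 1 hp.ne_zero⟩
  obtain ⟨v, hv0, hv⟩ := RT.LowerQ.exists_vec_of_character (n := p ^ 1)
    ((GaloisReps.latticeMat N).comp B.subtype)
    (GaloisReps.latticeMat_injective.comp Subtype.val_injective) χ
    (by rw [pow_one]; exact ZMod.natCast_self p)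
  let E := GaloisReps.torsionIso N p (GaloisReps.conjProperty N)
  obtain ⟨x, rfl⟩ := (E.psi 1).surjective v
  refine fun hbot => hv0 ?_
  suffices hmem : (x : JZero N) ∈ RT.LowerQ.EigTors N p S (fun l => (a l : ZMod p)) by
    rw [hbot, AddSubgroup.mem_bot] at hmem
    rw [show x = 0 from Subtype.ext hmem, map_zero]
  refine RT.LowerQ.mem_eigTors.mpr ⟨?_, fun l hl hlS => ?_⟩
  · have := Pic0.mem_torsion.mp x.2
    rwa [natCast_zsmul, pow_one] at this
  have hgen : P (HeckeDuality.heckeOp N 2 l hl) (a l) :=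
    ⟨_, actsBy_hecke hl, h l hl hlS⟩
  let t : B := ⟨_, a l, hgen⟩
  have ht : χ (t - (((a l : ZMod p).val : ℕ) : B)) = 0 := by
    rw [map_sub, map_natCast, sub_eq_zero, ZMod.natCast_zmod_val]
    exact huniq (hn t) hgen
  have h' := hv _ ht
  rw [RingHom.comp_apply, map_sub, map_natCast, map_sub, map_natCast, map_sub, map_natCast,
    RingHom.mapMatrix_apply, show (B.subtype t : GaloisReps.FullHecke N) =
      HeckeDuality.heckeOp N 2 l hl from rfl, GaloisReps.latticeMat_heckeOp, Matrix.sub_mulVec,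
    sub_eq_zero, ← E.mat_heckeTors, E.mat_mulVec, Matrix.natCast_mulVec, Nat.cast_smul_eq_nsmul,
    ← map_nsmul] at h'
  exact congrArg Subtype.val ((E.psi 1).injective h')

end Eigen

end Fermat.Agent.Extra39

end
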