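import Fermat.Agent.Extra39.Main
import Fermat.Agent.RT.LowerQ.EigenTorsion
import Fermat.Agent.RT.LowerQ.Curve
import Fermat.Agent.RT.MazurP.Endgame.Level

/-!
# Lowering the level at an odd prime `p` where `E[p]` is finite
-/

set_option autoImplicit false
set_option synthInstance.maxHeartbeats 400000
set_option maxHeartbeats 1000000

noncomputable section

namespace Fermat.Agent.Extra39

open Fermat.Agent.RT Fermat.Agent.RT.MazurP CongruenceSubgroup

variable {p : ℕ} [Fact p.Prime] {W : WeierstrassCurve ℤ}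

/-- **Level lowering at `p`** in terms of residual modularity. -/
theorem isResiduallyModular_lowerAtP (hp2 : p ≠ 2) (hΔ0 : W.Δ ≠ 0)
    (hsemi : (p : ℤ) ∣ W.Δ → ¬ (p : ℤ) ∣ W.c₄)
    (hv : (p : ℤ) ∣ W.Δ → p ∣ padicValInt p W.Δ) (hirr : W.ModRepIsIrreducible p)
    {M₀ : ℕ} [NeZero M₀] (hpM₀ : ¬ p ∣ M₀) (h : W.IsResiduallyModularOfLevel p (p * M₀)) :
    W.IsResiduallyModularOfLevel p M₀ := by
  classical
  obtain ⟨g, hg, φ, hφ⟩ :=
    LowerQ.isCongruentLevel_of_isResiduallyModular (k := ZMod p) hΔ0 h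
  have hc : IsCongruentLevel (insert 2 (LowerQ.curveSet W p (p * M₀)))
      (fun l => (W.apOfModel l : ZMod p)) (p * M₀) :=
    ⟨g, hg, φ, fun ℓ hℓ hℓS => hφ ℓ hℓ fun hm => hℓS (Finset.mem_insert_of_mem hm)⟩
  exact LowerQ.isResiduallyModular_of_isCongruentLevel (k := ZMod p) hΔ0
    (LowerQ.isCongruentLevel_of_eigTors_ne_bot
      (eigTors_ne_bot_lower hp2 hΔ0 hsemi hv hirr hpM₀ _ (mem_curveSet_two hΔ0)
        (LowerQ.eigTors_ne_bot_of_isCongruentLevel hc)))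

/-- The level divided by `p`. -/
theorem isResiduallyModular_div (hp2 : p ≠ 2) (hΔ0 : W.Δ ≠ 0)
    (hsemi : (p : ℤ) ∣ W.Δ → ¬ (p : ℤ) ∣ W.c₄)
    (hv : (p : ℤ) ∣ W.Δ → p ∣ padicValInt p W.Δ) (hirr : W.ModRepIsIrreducible p)
    {M : ℕ} (hM : 0 < M) (hpM : p ∣ M) (hp2M : ¬ p ^ 2 ∣ M)
    (h : W.IsResiduallyModularOfLevel p M) : W.IsResiduallyModularOfLevel p (M / p) := by
  have hp : p.Prime := Fact.out
  obtain ⟨M₀, rfl⟩ := hpM
  have : NeZero M₀ := ⟨fun h0 => by simp [h0] at hM⟩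
  rw [Nat.mul_div_cancel_left _ hp.pos]
  exact isResiduallyModular_lowerAtP hp2 hΔ0 hsemi hv hirr
    (fun h0 => hp2M (by rw [pow_two]; exact mul_dvd_mul_left p h0)) h

end Fermat.Agent.Extra39

end
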