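import Fermat.Agent.RT.MazurP.LocalE
import Fermat.Agent.EC.AtP.Inertia

/-!
# A basis of `E[p]` adapted to a good ordinary place

A torsion point `R` in the kernel of reduction on which inertia acts by the cyclotomic character,
completed by a point which inertia moves by multiples of `R`.
-/

set_option autoImplicit false
set_option synthInstance.maxHeartbeats 400000

open scoped WeierstrassCurve.Affine Pointwise
open WeierstrassCurve WeierstrassCurve.Affine Fermat.Agent.Arith

noncomputable section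

namespace Fermat.Agent.Extra39

open Fermat.Agent.EC.Reduction Fermat.Agent.EC.Rep Fermat.Agent.RT.MazurP
open Fermat.Agent.EC.AtP (PointQBar)

variable (A : ValuationSubring (AlgebraicClosure ℚ)) (W : WeierstrassCurve ℤ) (p : ℕ)
  [Fact p.Prime]

/-- A basis of `E[p]` in which inertia is `(χ, *; 0, 1)`. -/
structure LineFrame where
  R : PointQBar W
  S : PointQBar W
  hR : (p : ℤ) • R = 0
  hS : (p : ℤ) • S = 0
  R_ne : R ≠ 0
  span : ∀ x : PointQBar W, (p : ℤ) • x = 0 → ∃ a b : ℤ, x = a • R + b • S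
  smul_R : ∀ τ ∈ A.inertiaSubgroupIn ℚ, τ • R = (cyclotomicHom p τ : ZMod p).val • R
  smul_S : ∀ τ ∈ A.inertiaSubgroupIn ℚ, ∃ b : ℤ, τ • S = S + b • R

variable {A W p}

namespace LineFrame

/-- The basis at a multiplicative place. -/
def ofFrame (F : Frame A W p) : LineFrame A W p :=
  ⟨F.R, F.S, F.hR, F.hS, F.R_ne, F.span, F.smul_R, F.smul_S⟩

variable (F : LineFrame A W p)

theorem smul_R_of_mem {τ : GQ} (hτ : τ ∈ tameKer A p) : τ • F.R = F.R := by
  rw [mem_tameKer] at hτ
  rw [F.smul_R τ hτ.1, hτ.2, Units.val_one, ZMod.val_one, one_smul]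

theorem mem_wildKer_of {τ : GQ} (hτ : τ ∈ tameKer A p) (hS : τ • F.S = F.S) :
    τ ∈ wildKer A W p := by
  refine ⟨hτ, fun x hx => ?_⟩
  obtain ⟨a, b, rfl⟩ := F.span x hx
  rw [smul_add_point, smul_zsmul_point, smul_zsmul_point, F.smul_R_of_mem hτ, hS]

theorem pow_smul_S {τ : GQ} (hτ : τ ∈ tameKer A p) {b : ℤ} (hb : τ • F.S = F.S + b • F.R)
    (n : ℕ) : τ ^ n • F.S = F.S + ((n : ℤ) * b) • F.R := by
  induction n with
  | zero => simp
  | succ n ih =>
    rw [pow_succ', mul_smul, ih, smul_add_point, hb, smul_zsmul_point, F.smul_R_of_mem hτ, add_assoc,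
      ← add_zsmul]
    push_cast
    ring_nf

end LineFrame

variable (hA : A.LiesOverPrime p) (hp2 : p ≠ 2) (hΔ0 : W.Δ ≠ 0) (hgood : W.IsGoodPrimeFor p)

include hA hgood in
/-- At a good place inertia moves every point into the kernel of reduction. -/
theorem smul_sub_inE1_good {τ : GQ} (hτ : τ ∈ A.inertiaSubgroupIn ℚ) (P : PointQBar W) :
    InE1 A (τ • P - P) := by
  have : (W.map (Int.castRingHom ℚ)).IsElliptic := ⟨isUnit_iff_ne_zero.mpr (by
    rw [map_Δ]; exact Int.cast_ne_zero.mpr (show W.Δ ≠ 0 from fun h => hgood (h.symm ▸ dvd_zero _)))⟩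
  exact EC.AtP.smul_sub_inE1 hτ (inE0_of_good hA Fact.out hgood P)

include hA hp2 hΔ0 hgood

/-- At a good ordinary place over the odd `p` there is an adapted basis with `R` in and `S` outside
the kernel of reduction, and inertia acts with trace `χ + 1`. -/
theorem exists_lineFrame_reduction (hord : ¬ ∀ P : PointQBar W, p • P = 0 → InE1 A P) :
    (∃ F : LineFrame A W p, InE1 A F.R ∧ ¬ InE1 A F.S) ∧ ∀ τ ∈ A.inertiaSubgroupIn ℚ,
      LinearMap.trace (ZMod p) (residualRep W p hΔ0).V ((residualRep W p hΔ0).ρ τ) =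
        (cyclotomicHom p τ : ZMod p) + 1 := by
  classical
  have hp : p.Prime := Fact.out
  set E₁ := (reducesTo_int W A).E1
  simp only [not_forall] at hord
  obtain ⟨S, hS, hS1⟩ := hord
  have hStor : (p : ℤ) • S = 0 := by rw [natCast_zsmul]; exact hS
  have htor : ∀ (τ : GQ) (x : PointQBar W), (p : ℤ) • x = 0 → (p : ℤ) • (τ • x - x) = 0 :=
    fun τ x hx => by rw [zsmul_sub, ← smul_zsmul_point, hx, smul_zero_point, sub_zero]
  obtain ⟨R, hRtor, hR1, hR0⟩ : ∃ R : PointQBar W, (p : ℤ) • R = 0 ∧ InE1 A R ∧ R ≠ 0 := by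
    by_contra hcon
    simp only [not_exists, not_and, not_not] at hcon
    have : Fact (2 < p) := ⟨lt_of_le_of_ne hp.two_le hp2.symm⟩
    obtain ⟨τ, hτ, hcyc⟩ := exists_mem_inertia_cyclotomicHom_eq hA (-1 : (ZMod p)ˣ)
    have h1 : (residualRep W p hΔ0).ρ τ = 1 := LinearMap.ext fun x => Subtype.ext
      (sub_eq_zero.mp (hcon _ (htor τ x.1 ((Submodule.mem_torsionBy_iff _ _).mp x.2))
        (smul_sub_inE1_good hA hgood hτ x.1)))
    have h2 := det_residualRep hΔ0 (card_rootsOfUnity_qbar p) τ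
    rw [h1, map_one, ← cyclotomicHom_apply, hcyc, Units.val_neg, Units.val_one] at h2
    exact ZMod.neg_one_ne_one h2.symm
  let r : (residualRep W p hΔ0).V := ⟨R, (Submodule.mem_torsionBy_iff _ _).mpr hRtor⟩
  let s : (residualRep W p hΔ0).V := ⟨S, (Submodule.mem_torsionBy_iff _ _).mpr hStor⟩
  have hr : r ≠ 0 := fun e => hR0 (congrArg Subtype.val e)
  have hs : s ∉ (ZMod p) ∙ r := by
    intro hmem
    obtain ⟨a, ha⟩ := Submodule.mem_span_singleton.mp hmem
    obtain ⟨a, rfl⟩ := ZMod.intCast_surjective a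
    rw [Int.cast_smul_eq_zsmul] at ha
    refine hS1 ?_
    rw [← (show a • R = S from congrArg Subtype.val ha)]
    exact zsmul_mem (show R ∈ E₁ from hR1) a
  have hb : LinearIndependent (ZMod p) ![r, s] := by
    rw [linearIndependent_fin2]
    refine ⟨fun e => hs (by simp at e; rw [e]; exact zero_mem _), fun a e => ?_⟩
    simp at e
    rcases eq_or_ne a 0 with rfl | ha
    · exact hr (by simpa using e.symm)
    · exact hs (Submodule.mem_span_singleton.mpr ⟨a⁻¹, by rw [← e, inv_smul_smul₀ ha]⟩)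
  let b := basisOfLinearIndependentOfCardEqFinrank hb
    (by rw [Fintype.card_fin, (residualRep W p hΔ0).finrank_eq])
  have hb0 : b 0 = r := by simp [b]
  have hb1 : b 1 = s := by simp [b]
  have hspan : ∀ x : PointQBar W, (p : ℤ) • x = 0 → ∃ a c : ℤ, x = a • R + c • S := by
    intro x hx
    let v : (residualRep W p hΔ0).V := ⟨x, (Submodule.mem_torsionBy_iff _ _).mpr hx⟩
    obtain ⟨a₀, ha₀⟩ := ZMod.intCast_surjective (b.repr v 0)
    obtain ⟨a₁, ha₁⟩ := ZMod.intCast_surjective (b.repr v 1)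
    have e := b.sum_repr v
    rw [Fin.sum_univ_two, hb0, hb1, ← ha₀, ← ha₁, Int.cast_smul_eq_zsmul,
      Int.cast_smul_eq_zsmul] at e
    exact ⟨a₀, a₁, (congrArg Subtype.val e).symm⟩
  have hgen : ∀ x : PointQBar W, (p : ℤ) • x = 0 → InE1 A x → ∃ a : ℤ, a • R = x := by
    intro x hx hx1
    obtain ⟨a, c, rfl⟩ := hspan x hx
    by_cases hc : (c : ZMod p) = 0
    · exact ⟨a, by rw [zsmul_congr hStor (b := 0) (by rw [hc, Int.cast_zero]), zero_zsmul,
        add_zero]⟩
    refine absurd ?_ hS1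
    have hcS : c • S ∈ E₁ := by
      simpa using sub_mem (show a • R + c • S ∈ E₁ from hx1) (zsmul_mem (show R ∈ E₁ from hR1) a)
    have e : (((c : ZMod p)⁻¹).val : ℤ) • c • S = S := by
      rw [smul_smul, zsmul_congr hStor (b := 1) (by
        push_cast; rw [ZMod.natCast_val, ZMod.cast_id, inv_mul_cancel₀ hc]), one_zsmul]
    exact (reducesTo_int W A).mem_E1.mp (e ▸ zsmul_mem hcS _)
  have hmain : ∀ τ ∈ A.inertiaSubgroupIn ℚ, ∃ a c : ℤ, τ • R = a • R ∧
      τ • S = S + c • R ∧ ((a : ZMod p) = (cyclotomicHom p τ : ZMod p)) ∧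
      LinearMap.trace (ZMod p) (residualRep W p hΔ0).V ((residualRep W p hΔ0).ρ τ) =
        (a : ZMod p) + 1 := by
    intro τ hτ
    obtain ⟨a, ha⟩ := hgen (τ • R) (by rw [← smul_zsmul_point, hRtor, smul_zero_point]) (by
      have := add_mem (show τ • R - R ∈ E₁ from smul_sub_inE1_good hA hgood hτ R)
        (show R ∈ E₁ from hR1)
      rwa [sub_add_cancel] at this)
    obtain ⟨c, hc⟩ := hgen (τ • S - S) (htor τ S hStor) (smul_sub_inE1_good hA hgood hτ S)
    have e0 : (residualRep W p hΔ0).ρ τ r = (a : ZMod p) • r := by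
      rw [Int.cast_smul_eq_zsmul]; exact Subtype.ext ha.symm
    have e1 : (residualRep W p hΔ0).ρ τ s = (c : ZMod p) • r + s := by
      rw [Int.cast_smul_eq_zsmul]
      exact Subtype.ext (show τ • S = c • R + S by rw [hc, sub_add_cancel])
    have e0' : (residualRep W p hΔ0).ρ τ (b 0) = (a : ZMod p) • b 0 := by rw [hb0]; exact e0
    have e1' : (residualRep W p hΔ0).ρ τ (b 1) = (c : ZMod p) • b 0 + b 1 := by
      rw [hb0, hb1]; exact e1
    have hd : LinearMap.det ((residualRep W p hΔ0).ρ τ) = (a : ZMod p) := by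
      rw [← LinearMap.det_toMatrix b, Matrix.det_fin_two]
      simp [LinearMap.toMatrix_apply, e0', e1']
    refine ⟨a, c, ha.symm, by rw [hc]; abel, ?_, ?_⟩
    · rw [← hd, det_residualRep hΔ0 (card_rootsOfUnity_qbar p), cyclotomicHom_apply]
    · rw [LinearMap.trace_eq_matrix_trace _ b, Matrix.trace_fin_two]
      simp [LinearMap.toMatrix_apply, e0', e1']
  refine ⟨⟨{ R := R, S := S, hR := hRtor, hS := hStor, R_ne := hR0, span := hspan,
             smul_R := fun τ hτ => ?_, smul_S := fun τ hτ => ?_ }, hR1, hS1⟩, fun τ hτ => ?_⟩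
  · obtain ⟨a, c, ha, -, hχ, -⟩ := hmain τ hτ
    rw [ha, ← natCast_zsmul]
    exact zsmul_congr hRtor (by rw [hχ]; simp)
  · obtain ⟨a, c, -, hc, -⟩ := hmain τ hτ
    exact ⟨c, hc⟩
  · obtain ⟨a, c, -, -, hχ, ht⟩ := hmain τ hτ
    rw [ht, hχ]

/-- At a good ordinary place over the odd `p` inertia acts on `E[p]` as `(χ, *; 0, 1)`. -/
theorem exists_lineFrame_good (hord : ¬ ∀ P : PointQBar W, p • P = 0 → InE1 A P) :
    Nonempty (LineFrame A W p) ∧ ∀ τ ∈ A.inertiaSubgroupIn ℚ,
      LinearMap.trace (ZMod p) (residualRep W p hΔ0).V ((residualRep W p hΔ0).ρ τ) =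
        (cyclotomicHom p τ : ZMod p) + 1 := by
  obtain ⟨⟨F, -⟩, h⟩ := exists_lineFrame_reduction hA hp2 hΔ0 hgood hord
  exact ⟨⟨F⟩, h⟩

end Fermat.Agent.Extra39

end
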