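import Fermat.Agent.Extra39.LocalFrame

/-!
# Inertia on `E[p]` at a good place over `p`

At an ordinary place, either inertia fixing the `p`-th roots of unity fixes `E[p]`, or the field cut
out by `wildKer` is wild with lower jump one: the coordinate `x` of a point outside the kernel of
reduction is moved exactly to order `ζ - 1`. At a supersingular place no line is stable under
inertia.
-/

set_option autoImplicit false
set_option synthInstance.maxHeartbeats 400000

open scoped WeierstrassCurve.Affine Pointwise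
open WeierstrassCurve WeierstrassCurve.Affine Fermat.Agent.Arith

noncomputable section

namespace Fermat.Agent.Extra39

open Fermat.Agent.EC.Reduction Fermat.Agent.EC.Rep Fermat.Agent.RT.MazurP
open Fermat.Agent.EC.AtP (PointQBar)

variable {A : ValuationSubring (AlgebraicClosure ℚ)} {W : WeierstrassCurve ℤ} {p : ℕ}
  [Fact p.Prime]

/-- The parameter of the torsion point in the kernel of reduction has the order of `ζ - 1`. -/
theorem valuation_sCoord_lineFrame (hA : A.LiesOverPrime p) (hp2 : p ≠ 2) (T : TowerData A p)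
    (hT : T.H₁ = tameKer A p) (F : LineFrame A W p) (hR1 : InE1 A F.R)
    (hg : (cyclotomicHom p T.τ₀ : ZMod p) = (T.g : ZMod p)) :
    A.valuation (sCoord F.R) = A.valuation (T.ζ - 1) := by
  classical
  have hp : p.Prime := Fact.out
  have : CharP (IsLocalRing.ResidueField A) p := residueField_charP hA hp
  obtain ⟨hP1, hP1p, hP1res⟩ := zeta_sub_one hA hp T.hζ
  have hred := reducesTo_int W A
  set s := sCoord F.R with hsdef
  set π₁ := T.ζ - 1 with hπ₁
  have hs0 : s ≠ 0 := hred.sCoord_ne_zero hR1 F.R_ne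
  have hslt : A.valuation s < 1 := A.mem_nonunits_iff.mp (hred.sCoord_mem hR1)
  obtain ⟨k, hk⟩ := (TowerData.tame hA hp T).discrete s hs0 fun τ hτ => by
    rw [hsdef, ← sCoord_smul, F.smul_R_of_mem (hT ▸ hτ)]
  change A.valuation s = A.valuation π₁ ^ k at hk
  have hP0 : 0 < A.valuation π₁ := zero_lt_iff.mpr ((Valuation.ne_zero_iff _).mpr
    (sub_ne_zero.mpr (T.hζ.ne_one hp.one_lt)))
  have hk1 : 0 < k := by
    by_contra hle
    rw [hk] at hslt
    exact absurd (one_le_zpow_of_nonpos₀ hP0 hP1.le (not_lt.mp hle)) (not_le.mpr hslt)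
  obtain ⟨k, rfl⟩ := Int.eq_ofNat_of_zero_le hk1.le
  rw [zpow_natCast] at hk
  have hk2 : 2 * k ≤ p - 1 := by
    by_contra hlt
    refine F.R_ne (hred.eq_zero_of_odd_nsmul (hp.odd_of_ne_two hp2) hR1 ?_
      (by rw [← natCast_zsmul]; exact F.hR))
    rw [← hP1p, ← hsdef, hk, ← pow_mul, mul_comm]
    exact pow_lt_pow_right_of_lt_one₀ hP0 hP1 (not_le.mp hlt)
  have hgR : T.τ₀ • F.R = T.g • F.R := by
    rw [F.smul_R _ T.τ₀_mem, hg, ← natCast_zsmul, ← natCast_zsmul _ T.g]
    exact zsmul_congr F.hR (by simp)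
  obtain ⟨hq, hqr⟩ := res_sCoord_nsmul_div hred hR1 F.R_ne T.g
  rw [← hgR, sCoord_smul] at hq hqr
  set w := s / π₁ ^ k with hw
  have hπk : π₁ ^ k ≠ 0 := pow_ne_zero _ (sub_ne_zero.mpr (T.hζ.ne_one hp.one_lt))
  obtain ⟨hwA, hwr⟩ := res_ne_zero_of_valuation_eq_one (A := A) (x := w) (by
    rw [hw, map_div₀, map_pow, hk, div_self (pow_ne_zero _ hP0.ne')])
  obtain ⟨hτw, hτwr⟩ := res_inertia_map T.τ₀_mem hwA
  obtain ⟨hζA, hζr⟩ := hP1res T.g
  have e : T.τ₀ s / s * w = ((T.ζ ^ T.g - 1) / π₁) ^ k * T.τ₀ w := by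
    have hτk : T.τ₀ (π₁ ^ k) ≠ 0 := (map_ne_zero _).mpr hπk
    have e1 : T.τ₀ π₁ = T.ζ ^ T.g - 1 := by rw [hπ₁, map_sub, map_one, T.τ₀_ζ]
    rw [hw, map_div₀, map_pow, e1, div_pow, div_mul_div_cancel₀' (by rw [← e1, ← map_pow]; exact hτk)]
    field_simp
  have e' := congrArg (res A) e
  rw [res_mul hq hwA, hqr, res_mul (pow_mem hζA k) hτw, res_pow hζA, hζr, hτwr] at e'
  have h1 : (T.g : ZMod p) ^ k = (T.g : ZMod p) :=
    (ZMod.castHom (dvd_refl p) (IsLocalRing.ResidueField A)).injective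
      (by rw [map_pow, map_natCast]; exact (mul_right_cancel₀ hwr e').symm)
  obtain ⟨i, rfl⟩ : ∃ i, k = i + 1 := ⟨k - 1, by omega⟩
  rw [pow_succ] at h1
  rcases Nat.eq_zero_or_pos i with rfl | hi
  · rw [hk, zero_add, pow_one]
  · have := Nat.le_of_dvd hi (T.primitive i ((mul_eq_right₀ T.g_ne).mp h1))
    omega

variable (hA : A.LiesOverPrime p) (hp2 : p ≠ 2) (hΔ0 : W.Δ ≠ 0) (hgood : W.IsGoodPrimeFor p)
include hA hp2 hΔ0 hgood

/-- At a good ordinary place, if some element of `tameKer` moves `E[p]`, the field of `wildKer` is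
wild with lower jump one. -/
theorem wildKer_eq_tameKer_or_exists_wild_good
    (hord : ¬ ∀ P : PointQBar W, p • P = 0 → InE1 A P) :
    wildKer A W p = tameKer A p ∨
      ∃ Wd : Wild A p, Wd.C.H = wildKer A W p ∧ Wd.C₁.H = tameKer A p ∧
        (∃ x : PointQBar W, (p : ℤ) • x = 0 ∧ Wd.σ • x ≠ x) ∧
        ∀ h ∈ tameKer A p, ∃ i : ℕ, (Wd.σ ^ i)⁻¹ * h ∈ wildKer A W p := by
  classical
  have hp : p.Prime := Fact.out
  obtain ⟨⟨F, hR1, hS1⟩, -⟩ := exists_lineFrame_reduction hA hp2 hΔ0 hgood hord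
  by_cases hall : ∀ τ ∈ tameKer A p, τ • F.S = F.S
  · exact Or.inl (le_antisymm wildKer_le fun τ hτ => F.mem_wildKer_of hτ (hall τ hτ))
  right
  simp only [not_forall] at hall
  obtain ⟨τ, hτ, hτS⟩ := hall
  obtain ⟨b, hb⟩ := F.smul_S τ (mem_tameKer.mp hτ).1
  have hb0 : (b : ZMod p) ≠ 0 := fun h => hτS (by
    rw [hb, zsmul_congr F.hR (b := 0) (by rw [h, Int.cast_zero]), zero_zsmul, add_zero])
  set σ := τ ^ ((b : ZMod p)⁻¹).val with hσdef
  have hσ : σ ∈ tameKer A p := pow_mem hτ _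
  have hσS : σ • F.S = F.S + F.R := by
    rw [hσdef, F.pow_smul_S hτ hb, zsmul_congr F.hR (b := 1) (by
      push_cast; rw [ZMod.natCast_val, ZMod.cast_id, inv_mul_cancel₀ hb0]), one_zsmul]
  have hσn : ∀ n : ℕ, σ ^ n • F.S = F.S + (n : ℤ) • F.R := fun n => by
    rw [F.pow_smul_S hσ (b := 1) (by rw [one_zsmul]; exact hσS), mul_one]
  have hgen₁ : ∀ h ∈ tameKer A p, ∃ i : ℕ, (σ ^ i)⁻¹ * h ∈ wildKer A W p := by
    intro h hh
    obtain ⟨c, hc⟩ := F.smul_S h (mem_tameKer.mp hh).1
    refine ⟨(c : ZMod p).val, F.mem_wildKer_of (mul_mem (inv_mem (pow_mem hσ _)) hh) ?_⟩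
    rw [mul_smul, inv_smul_eq_iff, hσn, hc]
    exact congrArg (F.S + ·) (zsmul_congr F.hR (by push_cast; rw [ZMod.natCast_val, ZMod.cast_id]))
  obtain ⟨τ₀, hτ₀, hprim, hpow, hgen⟩ := exists_tame_generator hA
  have : NeZero (p : QBar) := ⟨Nat.cast_ne_zero.mpr hp.ne_zero⟩
  obtain ⟨ζ, hζ⟩ := HasEnoughRootsOfUnity.exists_primitiveRoot QBar p
  set g := (cyclotomicHom p τ₀ : ZMod p).val with hgdef
  have hgcast : (cyclotomicHom p τ₀ : ZMod p) = (g : ZMod p) := by
    rw [hgdef, ZMod.natCast_val, ZMod.cast_id]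
  let T : TowerData A p :=
    { Hk := wildKer A W p
      H₁ := tameKer A p
      σ := σ
      τ₀ := τ₀
      g := g
      ζ := ζ
      le := wildKer_le
      le_inertia := fun h hh => (mem_tameKer.mp hh).1
      σ_mem := hσ
      τ₀_mem := hτ₀
      normal := fun h hh => conj_mem_wildKer (mem_tameKer.mp hσ).1 hh
      normal_τ₀ := fun h hh => conj_mem_wildKer hτ₀ hh
      normal₁ := fun h hh => conj_mem_tameKer hτ₀ hh
      gen₁ := hgen₁
      pow_σ := F.mem_wildKer_of (pow_mem hσ _) (by rw [hσn, F.hR, add_zero])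
      gen := hgen
      pow_τ₀ := hpow
      primitive := fun j hj => hprim j (by rw [hgcast]; exact hj)
      g_ne := hgcast ▸ Units.ne_zero _
      conj := by
        have hconj : τ₀ * σ * τ₀⁻¹ ∈ tameKer A p := by
          simpa using conj_mem_tameKer (inv_mem hτ₀) hσ
        refine F.mem_wildKer_of (mul_mem (inv_mem (pow_mem hσ _)) hconj) ?_
        obtain ⟨c, hc⟩ := F.smul_S _ (inv_mem hτ₀)
        have e : σ • τ₀⁻¹ • F.S = τ₀⁻¹ • F.S + F.R := by
          rw [hc, smul_add_point, hσS, smul_zsmul_point, F.smul_R_of_mem hσ]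
          abel
        rw [mul_smul, inv_smul_eq_iff, hσn, mul_smul, mul_smul, e, smul_add_point, smul_inv_smul,
          F.smul_R τ₀ hτ₀, ← hgdef, natCast_zsmul]
      hζ := hζ
      ζ_fixed := fun h hh => by
        rw [apply_root_eq_pow_cyclotomicHom (p := p) h hζ.pow_eq_one, (mem_tameKer.mp hh).2,
          Units.val_one, ZMod.val_one, pow_one]
      τ₀_ζ := apply_root_eq_pow_cyclotomicHom τ₀ hζ.pow_eq_one }
  -- the coordinate of `S`
  have hred := reducesTo_int W A
  have hR2 : ∀ P : PointQBar W, σ • F.S = P → P - F.S = F.R := fun P h => by rw [← h, hσS]; abel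
  obtain ⟨z, hzA, hzH, hzσ⟩ : ∃ z ∈ A, (∀ h ∈ wildKer A W p, h z = z) ∧
      A.valuation (σ z - z) = A.valuation (sCoord F.R) := by
    generalize hSdef : F.S = P at hS1
    match P with
    | .zero => exact absurd trivial hS1
    | .some x y hxy =>
      have hxA : x ∈ A := not_not.mp fun h => hS1 ((inE1_some hxy).mpr h)
      have hyA : y ∈ A := hred.y_mem hxy.1 hxA
      have hσI := (mem_tameKer.mp hσ).1
      obtain ⟨h', eσ⟩ := EC.Reduction.smul_some (σ := σ) hxy
      set D := y - Affine.negY ((W.map (Int.castRingHom ℚ))⁄(AlgebraicClosure ℚ)).toAffine x y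
        with hDdef
      have hnA : Affine.negY ((W.map (Int.castRingHom ℚ))⁄(AlgebraicClosure ℚ)).toAffine x y ∈ A :=
        hred.y_mem ((nonsingular_neg x y).mpr hxy).1 hxA
      have hD : A.valuation D = 1 := by
        refine le_antisymm ((A.valuation_le_one_iff _).mpr (sub_mem hyA hnA)) (not_lt.mp fun h => ?_)
        have hres : res A y = res A
            (Affine.negY ((W.map (Int.castRingHom ℚ))⁄(AlgebraicClosure ℚ)).toAffine x y) := by
          rw [← sub_eq_zero, ← res_sub hyA hnA, res_eq_zero_iff (sub_mem hyA hnA)]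
          exact A.mem_nonunits_iff.mpr h
        have hE0 := fun Q => inE0_of_good hA hp hgood (W := W) Q
        have h2 : InE1 A (F.S - -F.S) := by
          refine hred.sub_mem_E1 (hE0 _) (hE0 _) ?_
          rw [hSdef, Point.neg_some,
            redFun_some _ hxA (((inE0_some hxy).mp (hE0 _)).resolve_left (not_not_intro hxA)),
            redFun_some _ hxA (((inE0_some ((nonsingular_neg x y).mpr hxy)).mp
              (hE0 _)).resolve_left (not_not_intro hxA))]
          simp only [hres]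
        rw [sub_neg_eq_add, ← two_nsmul] at h2
        obtain ⟨j, hj⟩ := hp.odd_of_ne_two hp2
        have e : F.S = (j + 1) • (2 : ℕ) • F.S := by
          rw [← mul_smul, show (j + 1) * 2 = p + 1 by omega, add_smul, one_smul,
            ← natCast_zsmul, F.hS, zero_add]
        refine hS1 (hSdef ▸ ?_)
        rw [e]
        exact nsmul_mem (show (2 : ℕ) • F.S ∈ hred.E1 from h2) _
      have hdiff : A.valuation (σ x - x) < 1 := valuation_inertia_sub_lt hσI hxA
      have hne : σ x ≠ x := by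
        intro hx
        rcases Y_eq_of_X_eq h'.left hxy.left hx with hy | hy
        · refine F.R_ne ((hR2 _ (show σ • F.S = F.S by
            rw [hSdef, eσ]; exact some_eq_some _ _ hx hy)).symm.trans (sub_self _))
        · have hneg : σ • F.S = -F.S := by
            rw [hSdef, eσ, Point.neg_some]; exact some_eq_some _ _ hx hy
          have h2 : (2 : ℕ) • F.S ∈ hred.E1 := by
            rw [show (2 : ℕ) • F.S = -F.R by rw [← hR2 _ hneg, two_nsmul]; abel]
            exact neg_mem (show F.R ∈ hred.E1 from hR1)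
          obtain ⟨j, hj⟩ := hp.odd_of_ne_two hp2
          have e : F.S = (j + 1) • (2 : ℕ) • F.S := by
            rw [← mul_smul, show (j + 1) * 2 = p + 1 by omega, add_smul, one_smul,
              ← natCast_zsmul, F.hS, zero_add]
          refine hS1 (hSdef ▸ ?_)
          rw [e]
          exact nsmul_mem h2 _
      have hnum : A.valuation (σ y -
          Affine.negY ((W.map (Int.castRingHom ℚ))⁄(AlgebraicClosure ℚ)).toAffine x y) = 1 := by
        rw [show σ y - Affine.negY _ x y = D + (σ y - y) by rw [hDdef]; ring,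
          A.valuation.map_add_eq_of_lt_left (hD.symm ▸ valuation_inertia_sub_lt hσI hyA), hD]
      have hd0 : 0 < A.valuation (σ x - x) :=
        zero_lt_iff.mpr ((Valuation.ne_zero_iff _).mpr (sub_ne_zero.mpr hne))
      obtain ⟨-, hs⟩ := sCoord_add_of_steep (h₁ := h') (h₂ := (nonsingular_neg x y).mpr hxy) hred
        (res_inertia_map hσI hxA).1 hxA (res_inertia_map hσI hyA).1 hne
        (by rw [map_div₀, hnum]; exact (one_lt_div₀ hd0).mpr hdiff)
      refine ⟨x, hxA, fun h hh => ?_, ?_⟩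
      · obtain ⟨h'', eh⟩ := EC.Reduction.smul_some (σ := h) hxy
        have e := (mem_wildKer.mp hh).2 F.S F.hS
        rw [hSdef, eh] at e
        exact ((Point.some.injEq ..).mp e).1
      · rw [← hR2 _ (show σ • F.S = _ by rw [hSdef, eσ]), hSdef,
          sub_eq_add_neg (Point.some (σ x) (σ y) h'), Point.neg_some, hs, map_div₀, hnum, inv_div,
          div_one]
  obtain ⟨Wd, hC, hC₁, hσW⟩ := TowerData.exists_wild hA hp T hzA hzH
    (hzσ.trans (valuation_sCoord_lineFrame hA hp2 T rfl F hR1 hgcast))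
  exact ⟨Wd, hC, hC₁, ⟨F.S, F.hS, fun e => F.R_ne (by
    rw [hσW] at e; rw [← hR2 _ e, sub_self])⟩, fun h hh => by rw [hσW]; exact hgen₁ h hh⟩

/-- At a supersingular place no line of `E[p]` is stable under inertia. -/
theorem exists_inertia_smul_ne (hall : ∀ P : PointQBar W, p • P = 0 → InE1 A P)
    (P : PointQBar W) (hP : (p : ℤ) • P = 0) (hP0 : P ≠ 0) :
    ∃ τ ∈ A.inertiaSubgroupIn ℚ, ∀ a : ℤ, τ • P ≠ a • P := by
  classical
  have hp : p.Prime := Fact.out
  have : (W.map (Int.castRingHom ℚ)).IsElliptic :=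
    ⟨isUnit_iff_ne_zero.mpr (by rw [map_Δ]; exact Int.cast_ne_zero.mpr hΔ0)⟩
  by_contra hcon
  simp only [not_exists, not_and, not_forall, not_not] at hcon
  set X : PointQBar W → QBar := fun Q => match Q with
    | .zero => 1
    | .some x _ _ => x with hX
  have hXσ : ∀ (τ : GQ) (Q : PointQBar W), τ (X Q) = X (τ • Q) := by
    intro τ Q
    match Q with
    | .zero => exact map_one τ
    | .some x y h => rfl
  set d := (p ^ 2 - 1) / 2 with hd
  have hne : ∀ c : (ZMod p)ˣ, ((c : ZMod p).val : ℤ) • P ≠ 0 := fun c h => hP0 (by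
    have e := zsmul_congr hP (a := ((((c⁻¹ : (ZMod p)ˣ) : ZMod p).val : ℤ) * (c : ZMod p).val))
      (b := 1) (by push_cast; simp only [ZMod.natCast_val, ZMod.cast_id]; exact inv_mul_cancel₀ c.ne_zero)
    rwa [mul_zsmul, h, zsmul_zero, one_zsmul, eq_comm] at e)
  set e := ∏ c : (ZMod p)ˣ, X (((c : ZMod p).val : ℤ) • P) with he
  have hval : ∀ c : (ZMod p)ˣ,
      A.valuation (X (((c : ZMod p).val : ℤ) • P) ^ d * (p : QBar)) = 1 := by
    intro c
    have hQp : p • (((c : ZMod p).val : ℤ) • P) = 0 := by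
      rw [← natCast_zsmul, smul_comm, hP, zsmul_zero]
    have h0 := hne c
    generalize ((c : ZMod p).val : ℤ) • P = Q at h0 hQp ⊢
    match Q with
    | .zero => exact absurd rfl h0
    | .some x y h =>
      exact EC.AtP.valuation_pow_mul_of_forall_inE1 W hA hp hp2 (fun h => hgood h.2) hall h hQp
  have he0 : e ≠ 0 := Finset.prod_ne_zero_iff.mpr fun c _ hc => by
    have := hval c
    rw [hc, zero_pow (by
      have := hp.two_le
      have : 2 * 2 ≤ p ^ 2 := by rw [pow_two]; exact Nat.mul_le_mul this this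
      omega), zero_mul, map_zero] at this
    exact zero_ne_one this
  obtain ⟨k, hk⟩ := exists_zpow_of_inertiaFixed hA hp he0 fun τ hτ => by
    obtain ⟨a, ha⟩ := hcon τ hτ
    have ha0 : (a : ZMod p) ≠ 0 := fun h => hP0 (by
      rw [← inv_smul_smul τ P, ha, zsmul_congr hP (b := 0) (by rw [h, Int.cast_zero]), zero_zsmul,
        smul_zero_point])
    rw [he, map_prod]
    refine Fintype.prod_equiv (Equiv.mulLeft (Units.mk0 (a : ZMod p) ha0)) _ _ fun c => ?_
    rw [hXσ, smul_zsmul_point, ha, smul_smul, Equiv.coe_mulLeft, Units.val_mul, Units.val_mk0]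
    exact congrArg X (zsmul_congr hP (by
      push_cast; simp only [ZMod.natCast_val, ZMod.cast_id]; ring))
  have hpv : 0 < A.valuation (p : QBar) :=
    zero_lt_iff.mpr ((Valuation.ne_zero_iff _).mpr (Nat.cast_ne_zero.mpr hp.ne_zero))
  have h1 : A.valuation (e ^ d * (p : QBar) ^ (p - 1)) = 1 := by
    rw [he, ← Finset.prod_pow, ← ZMod.card_units p, ← Finset.card_univ, ← Finset.prod_const,
      ← Finset.prod_mul_distrib, map_prod]
    exact Finset.prod_eq_one fun c _ => hval c
  rw [map_mul, map_pow, map_pow, hk, ← zpow_natCast, ← zpow_mul, ← zpow_natCast,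
    ← zpow_add₀ hpv.ne', ← zpow_zero (A.valuation (p : QBar))] at h1
  have h2 := zpow_right_injective₀ hpv (A.mem_nonunits_iff.mp hA).ne h1
  obtain ⟨j, hj⟩ := hp.odd_of_ne_two hp2
  have hd' : d = 2 * j * (j + 1) := by
    rw [hd, hj]
    exact Nat.div_eq_of_eq_mul_left two_pos (Nat.sub_eq_of_eq_add (by ring))
  have hdvd : (d : ℤ) ∣ ((p - 1 : ℕ) : ℤ) := ⟨-k, by linear_combination h2⟩
  have hle := Nat.le_of_dvd (by have := hp.two_le; omega) (Int.natCast_dvd_natCast.mp hdvd)
  rw [hd', hj] at hle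
  have : 1 ≤ j := by have := hp.two_le; omega
  have : 2 * j * 2 ≤ 2 * j * (j + 1) := Nat.mul_le_mul_left _ (by omega)
  omega

/-- At a supersingular place no line of the residual representation is stable under inertia. -/
theorem exists_inertia_notMem_span (hall : ∀ P : PointQBar W, p • P = 0 → InE1 A P)
    (v : (residualRep W p hΔ0).V) (hv : v ≠ 0) :
    ∃ τ ∈ A.inertiaSubgroupIn ℚ, (residualRep W p hΔ0).ρ τ v ∉ (ZMod p) ∙ v := by
  obtain ⟨τ, hτ, h⟩ := exists_inertia_smul_ne hA hp2 hΔ0 hgood hall v.1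
    ((Submodule.mem_torsionBy_iff _ _).mp v.2) fun e => hv (Subtype.ext e)
  refine ⟨τ, hτ, fun hmem => ?_⟩
  obtain ⟨a, ha⟩ := Submodule.mem_span_singleton.mp hmem
  obtain ⟨a, rfl⟩ := ZMod.intCast_surjective a
  rw [Int.cast_smul_eq_zsmul] at ha
  exact h a (congrArg Subtype.val ha).symm

end Fermat.Agent.Extra39

end
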