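import Fermat.Agent.Extra39.LocalFrame
import Fermat.Agent.RT.MazurP.Endgame.Local

/-!
# The coefficient field of degree `p` and scalars, from an adapted basis

The consequences of a basis of `E[p]` in which inertia is `(χ, *; 0, 1)` used in Mazur's principle,
whatever the reduction type at the place.
-/

set_option autoImplicit false
set_option synthInstance.maxHeartbeats 400000
set_option maxHeartbeats 1000000

open scoped WeierstrassCurve.Affine Pointwise
open WeierstrassCurve WeierstrassCurve.Affine Fermat.Agent.Arith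

noncomputable section

namespace Fermat.Agent.Extra39

open ModularCurve AlgebraicCurve Fermat.Agent.Semistable Fermat.Agent.RT.Mazur
open Fermat.Agent.EC.Rep Fermat.Agent.RT.MazurP
open Fermat.Agent.EC.AtP (PointQBar)

variable {A : ValuationSubring (AlgebraicClosure ℚ)} {W : WeierstrassCurve ℤ} {p : ℕ}
  [Fact p.Prime]

/-- The coefficient field of degree `p`: the wild field cut down by a tame generator. -/
theorem exists_oddField_line (hA : A.LiesOverPrime p) (F : LineFrame A W p)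
    (Wd : Wild A p) (hH : Wd.C.H = wildKer A W p) (hH₁ : Wd.C₁.H = tameKer A p)
    (hgen : ∀ h ∈ tameKer A p, ∃ i : ℕ, (Wd.σ ^ i)⁻¹ * h ∈ wildKer A W p) :
    ∃ (C' : CoefField A p) (τ : GQ), C'.e = p ∧ τ ∈ A.inertiaSubgroupIn ℚ ∧ Wd.C.H ≤ C'.H ∧
      τ ∈ C'.H ∧ (∀ j : ℕ, ((cyclotomicHom p τ : ZMod p)) ^ j = 1 → p - 1 ∣ j) ∧
      (∀ h ∈ C'.H, ∃ i : ℕ, (τ ^ i)⁻¹ * h ∈ Wd.C.H) := by
  classical
  have hp : p.Prime := Fact.out
  have hp2 := hp.two_le
  have hpow : ∀ h ∈ tameKer A p, h ^ p ∈ wildKer A W p := fun h hh => by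
    obtain ⟨b, hb⟩ := F.smul_S h (mem_tameKer.mp hh).1
    refine F.mem_wildKer_of (pow_mem hh p) ?_
    rw [F.pow_smul_S hh hb, mul_comm, mul_zsmul, F.hR, zsmul_zero, add_zero]
  obtain ⟨τ₀, hτ₀, hprim, hpow₀, hgen₀⟩ := exists_tame_generator (p := p) hA
  set τ := τ₀ ^ p with hτdef
  have hτ : τ ∈ A.inertiaSubgroupIn ℚ := pow_mem hτ₀ p
  have hχ : cyclotomicHom p τ = cyclotomicHom p τ₀ := by
    have h1 : p = p - 1 + 1 := (Nat.sub_add_cancel hp.one_le).symm
    rw [hτdef, map_pow]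
    conv_lhs => arg 2; rw [h1]
    rw [pow_succ, ZMod.units_pow_card_sub_one_eq_one, one_mul]
  have hτpow : τ ^ (p - 1) ∈ wildKer A W p := by
    rw [hτdef, ← pow_mul, mul_comm, pow_mul]
    exact hpow _ hpow₀
  set H' := oddGroup hτ hτpow
  have hle : Wd.C.H ≤ H' := fun h hh => ⟨0, by simpa [← hH] using hh⟩
  have hτH' : τ ∈ H' := ⟨1, by simp [one_mem]⟩
  have hH'I : H' ≤ A.inertiaSubgroupIn ℚ := fun h ⟨i, hi⟩ => by
    have := mul_mem (pow_mem hτ i) (mem_wildKer.mp hi).1.1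
    rwa [mul_inv_cancel_left] at this
  -- the cosets
  let S : Finset (GQ ⧸ H') := (Finset.range p).image fun i => QuotientGroup.mk (Wd.σ ^ i)
  have hσ : Wd.σ ∈ tameKer A p := hH₁ ▸ Wd.σ_mem
  have hS : ∀ q, q ∈ S ↔ ∃ h ∈ A.inertiaSubgroupIn ℚ, (QuotientGroup.mk h : GQ ⧸ H') = q := by
    intro q
    constructor
    · intro hq
      obtain ⟨i, -, rfl⟩ := Finset.mem_image.mp hq
      exact ⟨_, pow_mem Wd.σ_mem_inertia i, rfl⟩
    · rintro ⟨h, hh, rfl⟩
      obtain ⟨i, hi⟩ := hgen₀ h hh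
      have ht : h * (τ ^ i)⁻¹ ∈ tameKer A p := by
        rw [mem_tameKer] at hi ⊢
        refine ⟨mul_mem hh (inv_mem (pow_mem hτ i)), ?_⟩
        rw [map_mul, map_inv, map_pow, hχ, mul_comm]
        simpa only [map_mul, map_inv, map_pow] using hi.2
      obtain ⟨j, hj⟩ := hgen _ ht
      refine Finset.mem_image.mpr ⟨j % p, Finset.mem_range.mpr (Nat.mod_lt _ hp.pos),
        QuotientGroup.eq.mpr ?_⟩
      have e : (Wd.σ ^ (j % p))⁻¹ * h =
          (Wd.σ ^ p) ^ (j / p) * ((Wd.σ ^ j)⁻¹ * (h * (τ ^ i)⁻¹)) * τ ^ i := by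
        rw [← mul_assoc ((Wd.σ ^ p) ^ (j / p)),
          show (Wd.σ ^ p) ^ (j / p) * (Wd.σ ^ j)⁻¹ = (Wd.σ ^ (j % p))⁻¹ by
            nth_rw 2 [← Nat.mod_add_div j p]
            rw [pow_add, pow_mul, mul_inv_rev, mul_inv_cancel_left]]
        group
      rw [e]
      exact mul_mem (hle (hH ▸ mul_mem (pow_mem (hpow _ hσ) _) hj)) (pow_mem hτH' i)
  set c := S.card with hc
  have hcp : c ≤ p := Finset.card_image_le.trans (Finset.card_range p).le
  have hc0 : 0 < c := Finset.card_pos.mpr ⟨_, (hS _).mpr ⟨1, one_mem _, rfl⟩⟩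
  set v := A.valuation
  have hπ0 : v Wd.C.π ≠ 0 := (Valuation.ne_zero_iff _).mpr Wd.C.π_ne_zero
  have hπlt : v Wd.C.π < 1 := A.mem_nonunits_iff.mp Wd.C.π_nonunit
  have hinj : Function.Injective fun n : ℤ => v Wd.C.π ^ n :=
    zpow_right_injective₀ (zero_lt_iff.mpr hπ0) hπlt.ne
  have key : ∀ x : QBar, x ≠ 0 → (∀ h ∈ H', h x = x) →
      ∃ n k : ℤ, v x = v Wd.C.π ^ n ∧ n * c = k * (p * (p - 1) : ℕ) := by
    intro x hx0 hx
    obtain ⟨n, hn⟩ := Wd.C.discrete x hx0 fun h hh => hx h (hle hh)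
    obtain ⟨k, hk⟩ := exists_zpow_card_cosets hA H' S hS hx0 hx
    refine ⟨n, k, hn, hinj ?_⟩
    show v Wd.C.π ^ (n * c) = v Wd.C.π ^ (k * ((p * (p - 1) : ℕ) : ℤ))
    rw [zpow_mul, zpow_natCast, ← hn, hk, Wd.C.val_p, Wd.e_eq, ← zpow_natCast, ← zpow_mul,
      mul_comm]
  -- the uniformiser
  have hτπ := fixed_prod_pow (H := Wd.C.H) (g := τ) (n := p - 1)
    (fun h hh => hH ▸ conj_mem_wildKer hτ (hH ▸ hh)) (hH ▸ hτpow) Wd.C.π_fixed
  set π' := ∏ i ∈ Finset.range (p - 1), (τ ^ i) Wd.C.π with hπ'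
  have hπ'fix : ∀ h ∈ H', h π' = π' := fun h ⟨i, hi⟩ => by
    have h1 : ∀ j : ℕ, (τ ^ j) π' = π' := fun j => by
      induction j with
      | zero => simp
      | succ j ih => rw [pow_succ, AlgEquiv.mul_apply, hτπ.2, ih]
    rw [show h = τ ^ i * ((τ ^ i)⁻¹ * h) by group, AlgEquiv.mul_apply, hτπ.1 _ (hH ▸ hi), h1]
  have hπ'0 : π' ≠ 0 := Finset.prod_ne_zero_iff.mpr fun i _ =>
    (map_ne_zero _).mpr Wd.C.π_ne_zero
  have hvπ' : v π' = v Wd.C.π ^ (p - 1) := by
    rw [hπ', map_prod, Finset.prod_congr rfl fun i _ => valuation_inertia (pow_mem hτ i) _,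
      Finset.prod_const, Finset.card_range]
  have hceq : c = p := by
    obtain ⟨n, k, hn, hnk⟩ := key π' hπ'0 hπ'fix
    rw [hvπ', ← zpow_natCast] at hn
    obtain rfl := hinj hn.symm
    have h1 : (c : ℤ) = k * p := by
      have : ((p - 1 : ℕ) : ℤ) ≠ 0 := by omega
      push_cast at hnk
      refine mul_left_cancel₀ this ?_
      linear_combination hnk
    have : p ∣ c := Int.natCast_dvd_natCast.mp ⟨k, by rw [h1, mul_comm]⟩
    exact le_antisymm hcp (Nat.le_of_dvd hc0 this)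
  refine ⟨{ H := H', le_inertia := hH'I, π := π', π_ne_zero := hπ'0,
            π_nonunit := A.mem_nonunits_iff.mpr ?_, π_fixed := hπ'fix, e := p, e_pos := hp.pos,
            val_p := ?_, discrete := fun x hx0 hx => ?_ },
    τ, rfl, hτ, hle, hτH', fun j hj => hprim j (by rwa [hχ] at hj), fun h hh => ?_⟩
  · show v π' < 1
    rw [hvπ']
    exact pow_lt_one₀ zero_le hπlt (by omega)
  · show v (p : QBar) = v π' ^ p
    rw [hvπ', ← pow_mul, mul_comm, ← Wd.e_eq]
    exact Wd.C.val_p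
  · obtain ⟨n, k, hn, hnk⟩ := key x hx0 hx
    refine ⟨k, ?_⟩
    have hnk' : n = k * ((p - 1 : ℕ) : ℤ) := by
      rw [hceq] at hnk
      push_cast at hnk
      refine mul_right_cancel₀ (Int.natCast_ne_zero.mpr hp.ne_zero) ?_
      linear_combination hnk
    show v x = v π' ^ k
    rw [hn, hnk', hvπ', ← zpow_natCast, ← zpow_mul, mul_comm]
  · obtain ⟨i, hi⟩ := hh
    exact ⟨i, hH ▸ hi⟩

variable (hΔ0 : W.Δ ≠ 0) (F : LineFrame A W p)
  (htr : ∀ τ ∈ A.inertiaSubgroupIn ℚ,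
    LinearMap.trace (ZMod p) (residualRep W p hΔ0).V ((residualRep W p hΔ0).ρ τ) =
      (cyclotomicHom p τ : ZMod p) + 1)
include F htr

/-- Inertia elements act by scalars only when the cyclotomic value is one. -/
theorem cyclotomic_eq_one_of_scalar_line {g : GQ} (hg : g ∈ A.inertiaSubgroupIn ℚ) {z : ZMod p}
    (h : (residualRep W p hΔ0).ρ g = z • 1) :
    (cyclotomicHom p g : ZMod p) = 1 ∧ z = 1 := by
  set χ := (cyclotomicHom p g : ZMod p)
  have hz : z = χ := by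
    have e : z.val • F.R = χ.val • F.R := by
      rw [← smul_point_of_scalar hΔ0 h F.hR, F.smul_R g hg]
    by_contra hne
    refine F.R_ne (eq_zero_of_zsmul_eq_zero (p := p) (a := (z.val : ℤ) - χ.val)
      (by rw [← natCast_zsmul]; exact F.hR) ?_ ?_)
    · push_cast
      rw [ZMod.natCast_zmod_val, ZMod.natCast_zmod_val]
      exact sub_ne_zero.mpr hne
    · rw [sub_eq_add_neg, add_zsmul, neg_zsmul, natCast_zsmul, natCast_zsmul, e, add_neg_cancel]
  have ht := htr g hg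
  rw [h, map_smul, LinearMap.trace_one, (residualRep W p hΔ0).finrank_eq, smul_eq_mul, hz] at ht
  have hχ : χ = 1 := by push_cast at ht; linear_combination ht
  exact ⟨hχ, hz.trans hχ⟩

/-- An element of `tameKer` moving a torsion point is not a scalar. -/
theorem not_scalar_of_moved_line {g : GQ} (hg : g ∈ A.inertiaSubgroupIn ℚ) {x : PointQBar W}
    (hx : (p : ℤ) • x = 0) (hne : g • x ≠ x) (z : ZMod p) :
    (residualRep W p hΔ0).ρ g ≠ z • 1 := by
  intro h
  have hz := (cyclotomic_eq_one_of_scalar_line hΔ0 F htr hg h).2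
  rw [hz, one_smul] at h
  exact hne (congrArg Subtype.val
    (LinearMap.congr_fun h ⟨x, (Submodule.mem_torsionBy_iff _ _).mpr hx⟩))

omit htr in
/-- Conjugation by `τ` raises `σ` to the cyclotomic value of `τ` on `E[p]`. -/
theorem residualRep_conj_eq_one_line {σ τ : GQ} (hσ : σ ∈ tameKer A p)
    (hτ : τ ∈ A.inertiaSubgroupIn ℚ) :
    (residualRep W p hΔ0).ρ ((σ ^ (cyclotomicHom p τ : ZMod p).val * τ)⁻¹ * (τ * σ)) = 1 := by
  set c := (cyclotomicHom p τ : ZMod p).val with hc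
  refine residualRep_eq_one_of_forall hΔ0 fun x hx => ?_
  obtain ⟨b, hb⟩ := F.smul_S σ (mem_tameKer.mp hσ).1
  obtain ⟨t, ht⟩ := F.smul_S τ hτ
  have hσR := F.smul_R_of_mem hσ
  have hτR : τ • F.R = c • F.R := F.smul_R τ hτ
  have hσcR : σ ^ c • F.R = F.R := F.smul_R_of_mem (pow_mem hσ c)
  obtain ⟨a₁, a₂, rfl⟩ := F.span x hx
  rw [mul_smul, inv_smul_eq_iff, mul_smul, mul_smul]
  simp only [smul_add_point, smul_zsmul_point, hσR, hb, hτR, smul_nsmul_point, hσcR, ht,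
    F.pow_smul_S hσ hb]
  rw [← natCast_zsmul F.R c]
  simp only [zsmul_add, smul_smul]
  rw [mul_comm b (c : ℤ)]
  abel

end Fermat.Agent.Extra39

end
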