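import Fermat.Agent.Extra39.RedDegeneracy
import Fermat.Agent.RT.MazurP.Level
import Fermat.Agent.RT.MazurP.Regular

/-!
# Ramification of `j` in characteristic three, and descent of divisible orders

At a level `M` divisible by four and prime to three, over a field of characteristic three, the
order of `j` divides `M` at the cusps, is six above `0` and `j - t` is unramified elsewhere.
Hence orders divisible by `p` descend from level `4 M₀` to level `M₀`, except at places over
`j = 0` where the order of `j` is prime to `p = 3`.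
-/

set_option autoImplicit false
set_option synthInstance.maxHeartbeats 400000
set_option maxHeartbeats 1000000
set_option linter.unusedSectionVars false
set_option linter.style.haveILetI false

noncomputable section

namespace Fermat.Agent.Extra39

open ModularCurve AlgebraicCurve Polynomial
open Fermat.Agent.Semistable Fermat.Agent.Arith
open Fermat.Agent.RT.Mazur Fermat.Agent.RT.MazurP
open scoped IntermediateField

variable {A : ValuationSubring QBar} {p M : ℕ} [Fact p.Prime] [NeZero M] [CharP (Res A) p]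
  [FF.IsFunctionField (Res A) (KM A M)]

/-- At a cusp the order of `j` divides the level. -/
theorem ord_jK_dvd_of_neg (hM : (M : Res A) ≠ 0) (w : Place (Res A) (KM A M))
    (hw : w.ord (jK A M) < 0) : w.ord (jK A M) ∣ (M : ℤ) := by
  have := residueField_isAlgClosed A
  have : FiniteDimensional (Res A)⟮RedTorsion.jF (K := Res A) (N := M) (F := KM A M) rfl⟯
      (KM A M) :=
    RedTorsion.finiteDimensional_jF (F := KM A M) rfl hM
  have : Algebra.IsSeparable (Res A)⟮RedTorsion.jF (K := Res A) (N := M) (F := KM A M) rfl⟯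
      (KM A M) :=
    RedTorsion.isSeparable_jF (F := KM A M) rfl hM
  obtain ⟨V, π, hgood⟩ := RedTorsion.exists_goodRed (N := M) (A := A) hM
  set d := RedTorsion.cuspFamily (F := KM A M) rfl hgood with hd
  have hcard : Fintype.card (ModFun.Coset M) = Module.finrank (Res A)⟮jK A M⟯ (KM A M) := by
    rw [← Nat.card_eq_fintype_card]
    exact (RedTorsion.finrank_jF (K := Res A) (N := M) (F := KM A M) rfl hM).symm
  obtain ⟨i, rfl⟩ := d.exists_pole_eq hcard w hw
  set n := (d.pole i).ord (jK A M) with hn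
  obtain ⟨t, ht0, ht⟩ := FF.exists_uniformizer (v := d.pole i)
  refine dvd_of_mul_left_eq (-(d.σ i t).order) ?_
  have hx0 : jK A M ≠ 0 := fun h => by rw [hn, h, Place.ord_zero] at hw; omega
  have hs : ∀ y : KM A M, y ≠ 0 → d.σ i y ≠ 0 := fun y hy => (map_ne_zero (d.σ i)).mpr hy
  set u := jK A M / t ^ n with hu
  have hu0 : u ≠ 0 := div_ne_zero hx0 (zpow_ne_zero _ ht0)
  have hun : (d.pole i).ord u = 0 := by
    rw [hu, FF.ord_div _ hx0 (zpow_ne_zero _ ht0), Place.ord_zpow, ht, mul_one, ← hn, sub_self]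
  have ho : (d.σ i u).order = 0 := by
    have h1 := (RedTorsion.mem_orderNonneg_iff (hs u hu0)).mp
      ((d.mem_pole_iff i u).mp ((FF.mem_iff_ord _ hu0).mpr hun.ge))
    have h2 := (RedTorsion.mem_orderNonneg_iff (hs _ (inv_ne_zero hu0))).mp
      ((d.mem_pole_iff i u⁻¹).mp ((FF.mem_iff_ord _ (inv_ne_zero hu0)).mpr (by
        rw [Place.ord_inv, hun]; omega)))
    rw [map_inv₀, RedTorsion.order_inv' (hs u hu0)] at h2
    omega
  have hxu : jK A M = u * t ^ n := by rw [hu, div_mul_cancel₀ _ (zpow_ne_zero _ ht0)]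
  have e : (d.σ i (jK A M)).order = -(M : ℤ) := by
    rw [show d.σ i (jK A M) = qExpand (Res A) M d.xq from d.sigma_x i,
      RedTorsion.CuspFamily.order_qExpand d.xq_ne_zero, d.xq_order, mul_neg_one]
  rw [hxu, map_mul, map_zpow₀, HahnSeries.order_mul (hs u hu0) (zpow_ne_zero _ (hs t ht0)), ho,
    zero_add, RedTorsion.order_zpow' (hs t ht0)] at e
  linarith

/-- In characteristic three `E₄ = 1`, so `j = 1 / Δ`. -/
theorem jqModC_eq_deltaInvSer (K : Type*) [Field K] [CharP K 3] :
    jqModC K = Igusa.deltaInvSer K := by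
  have h : ModularCurve.eisenstein4.map (Int.castRingHom K) = 1 := by
    ext n
    rw [PowerSeries.coeff_map, ModularCurve.eisenstein4, PowerSeries.coeff_mk, PowerSeries.coeff_one]
    split_ifs with hn
    · simp
    · have h240 : (240 : K) = 0 := by
        have := (CharP.cast_eq_zero_iff K 3 240).mpr (by norm_num)
        exact_mod_cast this
      simp [map_mul, h240]
  rw [jqModC, Igusa.deltaInvSer, jNum, map_mul, map_pow, h, one_pow, one_mul]

theorem rhoSer_three (K : Type*) [Field K] [CharP K 3] : rhoSer 3 K = jqModC K ^ 2 := by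
  have : Fact (Nat.Prime 3) := ⟨Nat.prime_three⟩
  rw [rhoSer, jqModC_eq_deltaInvSer]
  have h : qExpand K 3 (Igusa.deltaInvSer K) = Igusa.deltaInvSer K ^ 3 := by
    rw [EichlerShimura.pow_eq_qExpand_frobenius 3, Igusa.coeffMap_deltaInvSer]
  rw [h, pow_succ' _ 2, ← mul_assoc, Igusa.deltaSer_mul_inv, one_mul]

/-- A vertical unit with known reduction. -/
theorem exists_vUnit_rhoSer (hA : A.LiesOverPrime p) (hpM : ¬ p ∣ M) :
    ∃ V : VUnit A hpM, (V.ub : LaurentSeries (Res A)) = rhoSer p (Res A) := by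
  have hp : p.Prime := Fact.out
  set U := unitU p M hpM with hU
  have h0 : iota2 M p hpM 0 U ∈ locS A := intS_le_locS (unitU_mem_intS p M hpM A)
  have hred : redL A ⟨_, h0⟩ = rhoSer p (Res A) := redL_unitU p M hpM A
  obtain ⟨hinv, hinvr⟩ := inv_mem_locS h0 (by rw [hred]; exact (order_rhoSer (Res A) p).1)
  have hw1 : algebraMap QBar LSer ((p : QBar) ^ 12)⁻¹ * iota2 M p hpM 1 U =
      (iota2 M p hpM 0 U)⁻¹ := by
    have hw : wEquiv p M hpM U = algebraMap QBar (FB (p * M)) ((p : QBar) ^ 12) * U⁻¹ := by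
      rw [← wEquiv_unitU_mul p M hpM, mul_inv_cancel_right₀ (unitU_ne_zero p M hpM)]
    rw [iota2_one, hw]
    rw [MulMemClass.coe_mul, IntermediateField.coe_algebraMap_apply, ← mul_assoc, ← map_mul,
      inv_mul_cancel₀ (pow_ne_zero _ (Nat.cast_ne_zero.mpr hp.ne_zero)),
      map_one, one_mul]
    rfl
  obtain ⟨P, hdeg, hP0, hP⟩ := exists_poly_rhoSer (A := A) (p := p) hA
  set ub : KM A M := aeval (jK A M) P with hub
  have hubc : (ub : LaurentSeries (Res A)) = rhoSer p (Res A) := by
    rw [← hP, hub]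
    exact (aeval_algHom_apply (KM A M).val (jK A M) P).symm
  refine ⟨⟨U, unitU_ne_zero p M hpM, fun σ => Subtype.ext ?_, (isIntegral_unitU hpM).1,
    (isIntegral_unitU hpM).2, ub, fun h => (order_rhoSer (Res A) p).1 (by
      rw [← hubc, h]; rfl), h0, by rw [hred, hubc], by rw [hw1]; exact hinv, ?_, ?_, ?_⟩, hubc⟩
  · rw [coe_arithmeticRingAut]; exact coeffMap_unitU p M hpM _
  · rw [redL_congr _ hinv hw1, hinvr, hred, hubc]
  · intro Q hQ
    exact FF.ord_nonneg Q (FF.aeval_mem_valuationSubring Q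
      ((FF.mem_ordGe_zero Q).mp (FF.mem_ordGe_of_le Q hQ)) P)
  · intro Q hQ
    rw [hub, (RedTorsion.ord_aeval_of_pole Q hQ P hP0).2, hdeg, Nat.cast_sub hp.one_le]
    push_cast
    ring

/-- Above `j = 0` the order of `j` is six. -/
theorem ord_jK_eq_six (hp3 : p = 3) (hA : A.LiesOverPrime p) (hM : (M : Res A) ≠ 0) (h4 : 4 ∣ M)
    (w : Place (Res A) (KM A M)) (hw : 0 < w.ord (jK A M)) : w.ord (jK A M) = 6 := by
  subst hp3
  have hpM : ¬ 3 ∣ M := fun h => hM ((CharP.cast_eq_zero_iff (Res A) 3 M).mpr h)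
  obtain ⟨V, hV⟩ := exists_vUnit_rhoSer hA hpM
  have e : V.ub = jK A M ^ 2 := Subtype.ext (by
    rw [hV, rhoSer_three, SubmonoidClass.coe_pow, coe_jK])
  rcases (VUnit.simple hA hM h4 V).val w with h | h <;>
    rw [VUnit.oW, if_pos hw.le, e, FF.ord_pow w] at h <;> omega

/-- Derivatives of functions regular at a finite place with `j ≠ 0` are regular. -/
theorem dd_mem_ordGe_three (hp3 : p = 3) (hA : A.LiesOverPrime p) (hM : (M : Res A) ≠ 0)
    (h4 : 4 ∣ M) {v : Place (Res A) (KM A M)} (hv : v.ord (jK A M) = 0) {w : KM A M} (hw : w ≠ 0)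
    (hvw : 0 ≤ v.ord w) :
    dd (K := Res A) (jK A M) w ∈ FF.ordGe v 0 := by
  subst hp3
  have := residueField_isAlgClosed A
  have : FiniteDimensional (Res A)⟮jK A M⟯ (KM A M) :=
    RedTorsion.finiteDimensional_jF (F := KM A M) rfl hM
  have : Algebra.IsSeparable (Res A)⟮jK A M⟯ (KM A M) :=
    RedTorsion.isSeparable_jF (F := KM A M) rfl hM
  set J := jK A M with hJdef
  have hJ : Transcendental (Res A) J := jK_transcendental A M
  have hJ0 : J ≠ 0 := fun h => hJ (h ▸ isAlgebraic_zero)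
  have h1728 : (1728 : Res A) = 0 := by
    have := (CharP.cast_eq_zero_iff (Res A) 3 1728).mpr (by norm_num)
    exact_mod_cast this
  obtain ⟨n₁, hn₁⟩ := exists_dd_pow_three_mem (N := M) 3 hA hM
    (goodM_of_dvd (A := A) (Or.inl rfl) h4 hM)
  -- the bound for elements of `L (n ∞)`
  have key : ∀ n, n₁ ≤ n → ∀ r ∈ Semistable.Hk A M n,
      dd (K := Res A) J r ∈ FF.ordGe v 0 := by
    intro n hn r hr
    rcases eq_or_ne (dd (K := Res A) J r) 0 with h0 | h0
    · rw [h0]; exact zero_mem _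
    refine FF.mem_ordGe_of_le v ?_
    have hJJ : jK A M = J := rfl
    have hmem := RedTorsion.mem_polesSpace.mp (hn₁ n hn r hr) v
    rw [h1728, map_zero, sub_zero] at hmem
    have h := FF.le_ord_of_mem_ordGe v (mul_ne_zero (pow_ne_zero 3 h0)
      (pow_ne_zero 2 (mul_ne_zero hJ0 hJ0))) hmem
    rw [v.ord_mul (pow_ne_zero 3 h0) (pow_ne_zero 2 (mul_ne_zero hJ0 hJ0)), FF.ord_pow,
      FF.ord_pow, v.ord_mul hJ0 hJ0, FF.poles_apply, hJJ,
      max_eq_left (show -v.ord J ≤ (0 : ℤ) by omega), mul_zero, hv] at h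
    omega
  -- `w` as a quotient
  obtain ⟨c, hc⟩ := FF.exists_ell_eq (K := Res A) (F := KM A M)
  set P := FF.poles (Res A) J with hPdef
  set E := FF.poles (Res A) w with hEdef
  have hdegP : 0 < Divisor.degree P := by
    rw [hPdef, FF.degree_poles hJ]; exact_mod_cast Module.finrank_pos
  obtain ⟨n, hn, hdeg⟩ : ∃ n : ℕ, n₁ ≤ n ∧
      c + 1 ≤ Divisor.degree (n • P - E) := by
    refine ⟨n₁ + (c + 1 + Divisor.degree E).toNat, Nat.le_add_right _ _, ?_⟩
    rw [map_sub, map_nsmul, nsmul_eq_mul]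
    have h1 : c + 1 + Divisor.degree E ≤ ((n₁ + (c + 1 + Divisor.degree E).toNat : ℕ) : ℤ) := by
      push_cast; omega
    have h2 := mul_le_mul_of_nonneg_left (show (1 : ℤ) ≤ Divisor.degree P by omega)
      (Int.natCast_nonneg (n₁ + (c + 1 + Divisor.degree E).toNat))
    linarith
  set D := n • P - E with hDdef
  obtain ⟨b, hb, hbv⟩ :
      ∃ b ∈ riemannRochSpace D, b ∉ riemannRochSpace (D - Finsupp.single v 1) := by
    by_contra hall
    push Not at hall
    have hle : riemannRochSpace D ≤ riemannRochSpace (D - Finsupp.single v 1) := hall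
    have h1 := hc D (by omega)
    have hd' : Divisor.degree (D - Finsupp.single v 1) = Divisor.degree D - 1 := by
      rw [map_sub, Divisor.degree_single, FF.deg_eq_one v]; simp
    have h2 := hc (D - Finsupp.single v 1) (by omega)
    have h3 := Submodule.finrank_mono hle
    unfold FF.ell at h1 h2
    omega
  have hDv : D v = 0 := by
    rw [hDdef, Finsupp.sub_apply, RedTorsion.nsmul_poles_apply, hEdef, FF.poles_apply,
      FF.poles_apply, max_eq_left (show -v.ord J ≤ (0 : ℤ) by omega),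
      max_eq_left (show -v.ord w ≤ (0 : ℤ) by omega)]
    simp
  have hb0 : b ≠ 0 := fun h => hbv (h ▸ zero_mem _)
  have hbord : v.ord b = 0 := by
    have h1 := FF.le_ord_of_mem_ordGe v hb0 (FF.mem_riemannRochSpace'.mp hb v)
    rw [hDv, neg_zero] at h1
    refine le_antisymm ?_ h1
    by_contra hlt
    refine hbv (FF.mem_riemannRochSpace'.mpr fun u => ?_)
    rcases eq_or_ne u v with rfl | huv
    · refine FF.mem_ordGe_of_le u ?_
      rw [Finsupp.sub_apply, Finsupp.single_eq_same, hDv]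
      omega
    · rw [Finsupp.sub_apply, Finsupp.single_eq_of_ne huv, sub_zero]
      exact FF.mem_riemannRochSpace'.mp hb u
  have hbn : b ∈ Semistable.Hk A M n := by
    refine FF.mem_riemannRochSpace'.mpr fun u => ?_
    refine FF.ordGe_anti u ?_ (FF.mem_riemannRochSpace'.mp hb u)
    rw [hDdef, Finsupp.sub_apply, hEdef, FF.poles_apply,
      show FF.poles (Res A) (jK A M) = P from rfl]
    have := le_max_left (0 : ℤ) (-u.ord w)
    omega
  have han : w * b ∈ Semistable.Hk A M n := by
    refine FF.mem_riemannRochSpace'.mpr fun u => ?_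
    refine FF.ordGe_anti u ?_ (FF.mul_mem_ordGe u (FF.mem_ordGe_of_le u (le_refl (u.ord w)))
      (FF.mem_riemannRochSpace'.mp hb u))
    rw [hDdef, Finsupp.sub_apply, hEdef, FF.poles_apply,
      show FF.poles (Res A) (jK A M) = P from rfl]
    have := le_max_right (0 : ℤ) (-u.ord w)
    omega
  have ew : w = w * b / b := by field_simp
  rw [ew, dd_div hJ]
  have hzero : ∀ {y : KM A M}, 0 ≤ v.ord y → y ∈ FF.ordGe v 0 :=
    fun h => FF.mem_ordGe_of_le v h
  have hbi : b⁻¹ ^ 2 ∈ FF.ordGe v 0 :=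
    hzero (by rw [FF.ord_pow, v.ord_inv, hbord]; simp)
  have := FF.mul_mem_ordGe v hbi (sub_mem
    (FF.mul_mem_ordGe v (hzero hbord.ge) (key n hn _ han))
    (FF.mul_mem_ordGe v (hzero (y := w * b) (by rw [v.ord_mul hw hb0, hbord, add_zero]; exact hvw))
      (key n hn _ hbn)))
  simpa using this

/-- At a finite place with `j ≠ 0` the function `j - t` is unramified. -/
theorem ord_jK_sub_eq_one (hp3 : p = 3) (hA : A.LiesOverPrime p) (hM : (M : Res A) ≠ 0)
    (h4 : 4 ∣ M) {w : Place (Res A) (KM A M)} (hw : w.ord (jK A M) = 0) {t : Res A}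
    (ht : 0 < w.ord (jK A M - algebraMap (Res A) (KM A M) t)) :
    w.ord (jK A M - algebraMap (Res A) (KM A M) t) = 1 := by
  have := residueField_isAlgClosed A
  have : FiniteDimensional (Res A)⟮jK A M⟯ (KM A M) :=
    RedTorsion.finiteDimensional_jF (F := KM A M) rfl hM
  have : Algebra.IsSeparable (Res A)⟮jK A M⟯ (KM A M) :=
    RedTorsion.isSeparable_jF (F := KM A M) rfl hM
  have hJ : Transcendental (Res A) (jK A M) := jK_transcendental A M
  set X := jK A M - algebraMap (Res A) (KM A M) t with hX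
  have hX0 : X ≠ 0 := fun h => by rw [h, Place.ord_zero] at ht; omega
  by_contra hne
  obtain ⟨π, hπ0, hπ⟩ := FF.exists_uniformizer (v := w)
  set b := X / π with hb
  have hb0 : b ≠ 0 := div_ne_zero hX0 hπ0
  have hbord : 1 ≤ w.ord b := by rw [hb, FF.ord_div w hX0 hπ0, hπ]; omega
  have h1 : dd (K := Res A) (jK A M) X = 1 := by
    have e := dd_add hJ X (algebraMap (Res A) (KM A M) t)
    rw [hX, sub_add_cancel, dd_self hJ, dd_algebraMap hJ, add_zero] at e
    exact e.symm
  rw [show X = π * b by rw [hb, mul_div_cancel₀ _ hπ0], dd_mul hJ] at h1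
  have hmem : (1 : KM A M) ∈ FF.ordGe w 1 := by
    rw [← h1]
    refine add_mem ?_ ?_
    · simpa using FF.mul_mem_ordGe w (FF.mem_ordGe_of_le w hπ.ge)
        (dd_mem_ordGe_three hp3 hA hM h4 hw hb0 (by omega))
    · simpa using FF.mul_mem_ordGe w (FF.mem_ordGe_of_le w hbord)
        (dd_mem_ordGe_three hp3 hA hM h4 hw hπ0 (by omega))
  have := FF.le_ord_of_mem_ordGe w one_ne_zero hmem
  rw [Place.ord_one] at this
  omega

/-- **Orders divisible by `p` descend from level `4 M₀` to level `M₀`**, except at places over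
`j = 0` where the order of `j` is prime to `p = 3`. -/
theorem dvd_ord_or_elliptic {M₀ : ℕ} [NeZero M₀] [FF.IsFunctionField (Res A) (KM A M₀)]
    (hA : A.LiesOverPrime p) (hp2 : p ≠ 2) (hM : (M : Res A) ≠ 0) (hM4 : M = 4 * M₀)
    {z : KM A M₀} (hzM : (z : LaurentSeries (Res A)) ∈ KM A M)
    (hord : ∀ P : Place (Res A) (KM A M), (p : ℤ) ∣ P.ord ⟨(z : LaurentSeries (Res A)), hzM⟩)
    (v : Place (Res A) (KM A M₀)) :
    (p : ℤ) ∣ v.ord z ∨ (p = 3 ∧ 0 < v.ord (jK A M₀) ∧ ¬ (3 : ℤ) ∣ v.ord (jK A M₀)) := by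
  classical
  have := residueField_isAlgClosed A
  have hp : p.Prime := Fact.out
  have hM₀ : (M₀ : Res A) ≠ 0 := fun h => hM (by rw [hM4, Nat.cast_mul, h, mul_zero])
  have h4 : 4 ∣ M := ⟨M₀, hM4⟩
  have hle : KM A M₀ ≤ KM A M := full_degeneracyC_le (Res A) ⟨4, by rw [hM4, mul_comm]⟩
  set φ : KM A M₀ →ₐ[Res A] KM A M := IntermediateField.inclusion hle with hφ
  have hφz : φ z = ⟨(z : LaurentSeries (Res A)), hzM⟩ :=
    Subtype.ext (IntermediateField.coe_inclusion hle z)
  have hφj : φ (jK A M₀) = jK A M :=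
    Subtype.ext ((IntermediateField.coe_inclusion hle _).trans (by rw [coe_jK, coe_jK]))
  have hpZ : Prime (p : ℤ) := Nat.prime_iff_prime_int.mp hp
  letI := algebraAlong φ
  haveI := isScalarTower_along φ
  haveI : Module.Finite (KM A M₀) (KM A M) := FF.finiteAlong φ
  rcases eq_or_ne p 3 with hp3 | hp3
  swap
  · have hp5 : 5 ≤ p := by
      have h2 := hp.two_le
      by_contra hlt
      interval_cases p <;> first | omega | norm_num at hp
    left
    have hdeg : Module.finrank (KM A M₀) (KM A M) = 4 ∨ Module.finrank (KM A M₀) (KM A M) = 6 := by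
      have e :=
        (FF.finite_and_finrank_adjoin_algebraMap (F' := KM A M) (jK_transcendental A M₀)).2
      rw [show algebraMap (KM A M₀) (KM A M) (jK A M₀) = jK A M from hφj] at e
      have f1 : Module.finrank (Res A)⟮jK A M⟯ (KM A M) = dedekindPsi M :=
        (RedTorsion.finrank_jF (F := KM A M) rfl hM).trans (ModFun.natCard_coset M)
      have f0 : Module.finrank (Res A)⟮jK A M₀⟯ (KM A M₀) = dedekindPsi M₀ :=
        (RedTorsion.finrank_jF (F := KM A M₀) rfl hM₀).trans (ModFun.natCard_coset M₀)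
      rw [f1, f0] at e
      have hpos : 0 < dedekindPsi M₀ := Semistable.dedekindPsi_pos _
      have hψ : dedekindPsi M = dedekindPsi (4 * M₀) := congrArg dedekindPsi hM4
      rcases dedekindPsi_four_mul (n := M₀) with e' | e' <;>
        rw [hψ, e', mul_comm (dedekindPsi M₀)] at e
      · exact Or.inl (Nat.eq_of_mul_eq_mul_right hpos e.symm)
      · exact Or.inr (Nat.eq_of_mul_eq_mul_right hpos e.symm)
    by_contra hv
    have hall : ∀ w ∈ v.fiber (KM A M),
        (p : ℤ) ∣ (w.ramificationIndex (KM A M₀) : ℤ) * (w.inertiaDeg (KM A M₀) : ℤ) := by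
      intro w hw
      have h := hord w
      rw [← hφz, show φ z = algebraMap (KM A M₀) (KM A M) z from rfl,
        w.ord_restrict (F := KM A M₀), Place.mem_fiber.mp hw] at h
      exact ((hpZ.dvd_mul.mp h).resolve_right hv).mul_right _
    have h := Finset.dvd_sum hall
    rw [FF.sum_ramification_inertia] at h
    exact not_dvd_of_four_or_six hp5 hdeg (by exact_mod_cast h)
  obtain ⟨w, hw⟩ := FF.exists_restrictAlong_eq φ (FF.isIntegralAlong φ) v
  set e : ℤ := ((w.ramificationIndexAlong φ : ℕ) : ℤ) with he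
  have hem : ∀ y, w.ord (φ y) = e * v.ord y := fun y => by
    rw [Place.ord_restrictAlong φ (FF.isIntegralAlong φ), hw]
  have hepos : 0 < e := by
    rw [he]; exact_mod_cast (w.ramificationIndex_pos (F := KM A M₀))
  have hJ : w.ord (jK A M) = e * v.ord (jK A M₀) := by rw [← hem, hφj]
  have hpe : ¬ (3 : ℤ) ∣ e → (p : ℤ) ∣ v.ord z := fun h => by
    have h' := hord w
    rw [← hφz, hem, hp3] at h'
    rw [hp3]
    exact (((Nat.prime_iff_prime_int.mp Nat.prime_three : Prime ((3 : ℕ) : ℤ))).dvd_mul.mp h').resolve_left h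
  rcases lt_trichotomy (v.ord (jK A M₀)) 0 with hlt | heq | hgt
  · refine Or.inl (hpe fun h3 => ?_)
    have hdvd := ord_jK_dvd_of_neg hM w (by rw [hJ]; exact mul_neg_of_pos_of_neg hepos hlt)
    rw [hJ] at hdvd
    have h3M : (3 : ℤ) ∣ (M : ℤ) := (h3.mul_right _).trans hdvd
    exact hM ((CharP.cast_eq_zero_iff (Res A) p M).mpr (by rw [hp3]; exact_mod_cast h3M))
  · refine Or.inl (hpe fun h3 => ?_)
    obtain ⟨t, ht⟩ := RedTorsion.exists_sub_mem_ordGe_one v
      (FF.mem_ordGe_of_le v heq.ge : jK A M₀ ∈ FF.ordGe v 0)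
    have ha := FF.le_ord_of_mem_ordGe v (jK_sub_ne_zero t) ht
    have hwj : w.ord (jK A M - algebraMap (Res A) (KM A M) t) =
        e * v.ord (jK A M₀ - algebraMap (Res A) (KM A M₀) t) := by
      rw [← hem, map_sub, hφj, AlgHom.commutes]
    have h1 := ord_jK_sub_eq_one hp3 hA hM h4 (by rw [hJ, heq, mul_zero])
      (t := t) (by rw [hwj]; exact mul_pos hepos ha)
    rw [hwj] at h1
    have h6 := Int.le_of_dvd one_pos (h3.trans (Dvd.intro _ h1))
    omega
  · by_cases h3 : (3 : ℤ) ∣ v.ord (jK A M₀)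
    · refine Or.inl (hpe fun h3e => ?_)
      have h6 := ord_jK_eq_six hp3 hA hM h4 w (by rw [hJ]; exact mul_pos hepos hgt)
      rw [hJ] at h6
      have := Int.le_of_dvd (by norm_num) (h6 ▸ mul_dvd_mul h3e h3)
      omega
    · exact Or.inr ⟨hp3, hgt, h3⟩

end Fermat.Agent.Extra39

end
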