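import Fermat.Agent.Extra39.RedDiv
import Fermat.Agent.Extra39.Ram3
import Fermat.Agent.Extra39.EllEisenstein
import Fermat.Agent.RT.MazurP.Endgame.Normalise
import Fermat.Agent.ModFun.HeckeRoots
import Fermat.Agent.EichlerShimura.RamBounds

/-!
# A nonzero logarithmic derivative gives the system at level `M₀`

If some reduction of an eigen Kummer function of level `4 p M₀` coming from level `p M₀` has
nonzero logarithmic derivative and divisible orders, then the system occurs in `J₀(M₀)[p]`. For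
`p = 3` the orders could fail to descend at places over `j = 0`; these lift to elliptic points,
which are Eisenstein, so a system which is not Eisenstein has divisible orders there too.
-/

set_option autoImplicit false
set_option synthInstance.maxHeartbeats 400000
set_option maxHeartbeats 1000000
set_option linter.unusedSectionVars false

noncomputable section

namespace Fermat.Agent.Extra39

open ModularCurve AlgebraicCurve IsLocalRing
open Fermat.Agent.Semistable Fermat.Agent.Arith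
open Fermat.Agent.RT Fermat.Agent.RT.Mazur Fermat.Agent.RT.MazurP

variable {A : ValuationSubring QBar} {p : ℕ} [Fact p.Prime] [CharP (Res A) p]

/-- Hecke images of functions of level `N` are functions of level `N`. -/
theorem exists_heckeImage_mem {N : ℕ} [NeZero N] [FF.IsFunctionField (Res A) (KM A N)] {l : ℕ}
    [NeZero l] (hA : A.LiesOverPrime p) (hl : l.Prime) (hlN : ¬ l ∣ p * N)
    (hN : (N : Res A) ≠ 0) (z : KM A N) (hz : z ≠ 0) :
    ∃ X : KM A N, IsHeckeImage l (z : LaurentSeries (Res A)) (X : LaurentSeries (Res A)) := by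
  have hp : p.Prime := Fact.out
  obtain ⟨x₁, hx₁⟩ := red1_surjective N hN z.2
  have hx₁r : IsRed A ((x₁ : FB N) : LSer) (z : LaurentSeries (Res A)) := by
    have h1 : redL A ⟨((x₁ : FB N) : LSer), (Semistable.mem_loc1 N).mp x₁.2⟩ = z := hx₁
    have h2 := IsRed.of_locS ((Semistable.mem_loc1 N).mp x₁.2)
      (by rw [h1]; exact fun h => hz (Subtype.ext h))
    rwa [h1] at h2
  obtain ⟨Y, hY, hYim⟩ := exists_isRed_heckeImage hA hp (not_dvd_of_not_dvd_mul hl hlN)
    (mem_fracS_of_mem _)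
    (fun ζ hζ => qExpand_heckeNorm hl (fun h => hlN (dvd_mul_of_dvd_right h p)) hζ (x₁ : FB N))
    hx₁r
  obtain ⟨-, c, -, hcx, rfl⟩ := hY
  exact ⟨⟨_, red1_mem_KM N hN ⟨algebraMap QBar (FB N) c * heckeNorm N l (x₁ : FB N),
    (Semistable.mem_loc1 N).mpr hcx⟩⟩, hYim⟩

section Divisors

variable {α β : Type*}

/-- All coefficients are divisible by `n`. -/
theorem dvd_apply_map {n : ℤ} (φ : (α →₀ ℤ) →+ (β →₀ ℤ)) {D : α →₀ ℤ} (h : ∀ a, n ∣ D a) (b : β) :
    n ∣ φ D b := by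
  have e : D = n • D.mapRange (fun x => x / n) (Int.zero_ediv _) := Finsupp.ext fun a => by
    rw [Finsupp.smul_apply, Finsupp.mapRange_apply, smul_eq_mul, Int.mul_ediv_cancel' (h a)]
  rw [e, map_zsmul, Finsupp.smul_apply, smul_eq_mul]
  exact dvd_mul_right _ _

end Divisors

/-- **An elliptic point of order three is Eisenstein modulo `3`.** -/
theorem three_dvd_heckeDivB_sub {N l : ℕ} [NeZero N] [NeZero l] (hl : l.Prime) (hlN : ¬ l ∣ N)
    (Q : Place QBar (FB N)) (hQ : Q.ord (jM N) = 1) (P : Place QBar (FB N)) :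
    (3 : ℤ) ∣ (heckeDivB N l (Finsupp.single Q 1) -
      ((l : ℤ) + 1) • Finsupp.single Q 1 : Divisor QBar (FB N)) P := by
  classical
  have hsum : ∑ w ∈ Place.fiberAlong (heckeBetaBar QBar N l) (FF.isIntegralAlong _) Q,
      (w.ramificationIndexAlong (heckeBetaBar QBar N l) : ℤ) = (l : ℤ) + 1 := by
    have h := FF.fundamental_identity_along (heckeBetaBar QBar N l) (FF.isIntegralAlong _) Q
    rw [ModFun.finrankAlong_beta_bar hl hlN] at h
    push_cast at h
    rw [← h]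
    refine Finset.sum_congr rfl fun w _ => ?_
    rw [inertiaDegAlong_eq_one, Nat.cast_one, mul_one]
  rw [heckeDivB, Divisor.correspondence_apply, Divisor.pullbackAlong_single, map_sum, ← hsum,
    Finset.sum_smul, ← Finset.sum_sub_distrib, Finsupp.finsetSum_apply]
  refine Finset.dvd_sum fun w hw => ?_
  rw [Divisor.pushforwardAlong_single, inertiaDegAlong_eq_one, Finsupp.sub_apply,
    Finsupp.smul_apply, Nat.cast_one, one_mul, mul_one, smul_eq_mul]
  have hwQ : w.restrictAlong (heckeBetaBar QBar N l) (FF.isIntegralAlong _) = Q := Place.mem_fiberAlong.mp hw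
  rcases restrictAlong_eq_or_three_dvd_of_ord_eq_one (N := N) (l := l) (FF.isIntegralAlong _)
    (FF.isIntegralAlong _) w
    (by rw [hwQ]; exact hQ) with h | h
  · rw [h, hwQ, Finsupp.single_apply, Finsupp.single_apply]
    split_ifs <;> simp
  · rw [Place.ord_restrictAlong _ (FF.isIntegralAlong (heckeBetaBar QBar N l)), hwQ, hQ, mul_one] at h
    refine dvd_sub ?_ (h.mul_right _)
    rw [Finsupp.single_apply]
    split_ifs
    · exact h
    · exact dvd_zero _

variable {M : ℕ} [NeZero M] [FF.IsFunctionField (Res A) (KM A M)]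

/-- A bad place over `j = 0` lifts to a point with a simple zero of `j`. -/
theorem exists_lift_ord_one {N : ℕ} [NeZero N] [IsAlgClosed (Res A)]
    [FF.IsFunctionField (Res A) (KM A N)] (hN : (N : Res A) ≠ 0) (v : Place (Res A) (KM A N))
    (hv : 0 < v.ord (jK A N)) (h3 : ¬ (3 : ℤ) ∣ v.ord (jK A N)) :
    ∃ Q, redPl hN Q = v ∧ Q.ord (jM N) = 1 := by
  classical
  obtain ⟨Q₀, hQ₀⟩ := redPl_surjective hN v
  have e := DFunLike.congr_fun (mapDomain_div_jM hN) v
  rw [FF.div_apply, ← hQ₀, Finsupp.mapDomain_apply_eq_sum] at e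
  obtain ⟨Q, hQ, hQ3⟩ : ∃ Q ∈ (FF.div QBar (jM N)).support.filter
      (fun x => redPl hN x = redPl hN Q₀), ¬ (3 : ℤ) ∣ FF.div QBar (jM N) Q := by
    by_contra hall
    push Not at hall
    exact h3 (by rw [← hQ₀, ← e]; exact Finset.dvd_sum hall)
  rw [FF.div_apply] at hQ3
  have hQv : redPl hN Q = v := (Finset.mem_filter.mp hQ).2.trans hQ₀
  have h0 : 0 ≤ Q.ord (jM N) := ord_jM_nonneg_of_redPl hN (by rw [hQv]; exact hv.le)
  have hpos : 0 < Q.ord (jM N) := lt_of_le_of_ne h0 fun h => hQ3 (by rw [← h]; exact dvd_zero _)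
  have hjB : Genus.jB N = jM N := Subtype.ext ((ModFun.coe_jBase N _).trans (coe_jM N).symm)
  have hdvd := EichlerShimura.ord_jB_dvd_three N Q (by rw [hjB]; exact hpos)
  rw [hjB] at hdvd
  refine ⟨Q, hQv, ?_⟩
  have hle := Int.le_of_dvd (by norm_num) hdvd
  interval_cases Q.ord (jM N) <;> first | rfl | omega

/-- **Non-Eisenstein eigen functions have orders divisible by three at the elliptic places.** -/
theorem three_dvd_of_elliptic {N l : ℕ} [NeZero N] [NeZero l] [IsAlgClosed (Res A)]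
    [FF.IsFunctionField (Res A) (KM A N)] [FF.IsFunctionField (Res A) (KM A (N * l))]
    (hA : A.LiesOverPrime p) (hl : l.Prime) (hlN : ¬ l ∣ p * N) (hN : (N : Res A) ≠ 0)
    (hNl : ((N * l : ℕ) : Res A) ≠ 0) {r X g : KM A N} {u : Res A} (hr : r ≠ 0) (hg : g ≠ 0)
    (hu : u ≠ 0) {a : ℤ} (hX : IsHeckeImage l (r : LaurentSeries (Res A)) (X : LaurentSeries (Res A)))
    (e : X = algebraMap (Res A) (KM A N) u * r ^ a * g ^ 3)
    (hne : ¬ (3 : ℤ) ∣ (l : ℤ) + 1 - a)
    (hbad : ∀ v : Place (Res A) (KM A N),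
      (3 : ℤ) ∣ v.ord r ∨ (0 < v.ord (jK A N) ∧ ¬ (3 : ℤ) ∣ v.ord (jK A N)))
    (v : Place (Res A) (KM A N)) : (3 : ℤ) ∣ v.ord r := by
  classical
  set o := FF.div (Res A) r with ho
  let B := o.support.filter fun w => ¬ (3 : ℤ) ∣ o w
  have hB : ∀ w ∈ B, ∃ Q, redPl hN Q = w ∧ Q.ord (jM N) = 1 := fun w hw => by
    have h := (hbad w).resolve_left (by simpa [B, ho] using (Finset.mem_filter.mp hw).2)
    exact exists_lift_ord_one hN w h.1 h.2
  choose! q hq hq1 using hB
  let D₀ : Divisor QBar (FB N) := ∑ w ∈ B, Finsupp.single (q w) (o w)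
  let R := Finsupp.mapDomain.addMonoidHom (M := ℤ) (redPl hN)
  have hRD₀ : R D₀ = ∑ w ∈ B, Finsupp.single w (o w) := by
    rw [map_sum]
    exact Finset.sum_congr rfl fun w hw =>
      Finsupp.mapDomain_single.trans (by rw [hq w hw])
  have hE : ∀ w, (3 : ℤ) ∣ (o - R D₀ : Divisor (Res A) (KM A N)) w := fun w => by
    rw [Finsupp.sub_apply, hRD₀, Finsupp.finsetSum_apply]
    simp only [Finsupp.single_apply, Finset.sum_ite_eq']
    split_ifs with hw
    · rw [sub_self]; exact dvd_zero _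
    · rw [sub_zero]
      by_contra h3
      exact hw (Finset.mem_filter.mpr
        ⟨Finsupp.mem_support_iff.mpr fun h0 => h3 (by rw [h0]; exact dvd_zero _), h3⟩)
  set E' := (o - R D₀).mapRange (fun x => x / (3 : ℤ)) (Int.zero_ediv _) with hE'
  have hoE : o - R D₀ = (3 : ℤ) • E' := Finsupp.ext fun w => by
    rw [Finsupp.smul_apply, hE', Finsupp.mapRange_apply, smul_eq_mul, Int.mul_ediv_cancel' (hE w)]
  obtain ⟨Q⟩ := FF.exists_place (K := QBar) (F := FB N)
  set D := D₀ + (3 : ℤ) • Finsupp.single Q (Divisor.degree E') with hD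
  have hdeg : D ∈ Divisor.degZero (K := QBar) (F := FB N) := by
    have h1 := congrArg Divisor.degree hoE
    rw [map_sub, ho, FF.degree_div, map_zsmul,
      show R D₀ = Finsupp.mapDomain (redPl hN) D₀ from rfl,
      degree_mapDomain_of_deg_eq (isRedPl hN).1, smul_eq_mul] at h1
    rw [Divisor.mem_degZero, hD, map_add, map_zsmul, Divisor.degree_single, FF.deg_eq_one,
      Nat.cast_one, mul_one, smul_eq_mul]
    omega
  have hTD : ∀ P, (3 : ℤ) ∣ (heckeDivB N l D₀ - ((l : ℤ) + 1) • D₀ : Divisor QBar (FB N)) P :=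
    fun P => by
    have e1 : heckeDivB N l D₀ - ((l : ℤ) + 1) • D₀ = ∑ w ∈ B,
        o w • (heckeDivB N l (Finsupp.single (q w) 1) -
          ((l : ℤ) + 1) • Finsupp.single (q w) 1) := by
      rw [map_sum, Finset.smul_sum, ← Finset.sum_sub_distrib]
      refine Finset.sum_congr rfl fun w _ => ?_
      rw [smul_sub, ← map_zsmul, smul_comm (o w), Finsupp.smul_single_one]
    rw [e1, Finsupp.finsetSum_apply]
    refine Finset.dvd_sum fun w hw => ?_
    rw [Finsupp.smul_apply, smul_eq_mul]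
    exact (three_dvd_heckeDivB_sub hl (fun h => hlN (dvd_mul_of_dvd_right h p)) (q w) (hq1 w hw)
      P).mul_left _
  set F := E' - Finsupp.single (redPl hN Q) (Divisor.degree E') with hF
  have hRD : R D = o - (3 : ℤ) • F := by
    rw [hD, map_add, map_zsmul, hF, smul_sub, ← hoE,
      show R (Finsupp.single Q (Divisor.degree E')) =
        Finsupp.single (redPl hN Q) (Divisor.degree E') from Finsupp.mapDomain_single]
    abel
  have hT : heckeDivK A N l (R D) = R (heckeDivB N l D) := (mapDomain_heckeDiv hN hNl hdeg).symm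
  rw [hRD, map_sub, map_zsmul, heckeDivK_div hA hl hlN hN hNl hr hX] at hT
  have h3R : (3 : ℤ) ∣ (R (heckeDivB N l D) - ((l : ℤ) + 1) • o : Divisor (Res A) (KM A N)) v := by
    have e2 : R (heckeDivB N l D) - ((l : ℤ) + 1) • o =
        R (heckeDivB N l D₀ - ((l : ℤ) + 1) • D₀) +
          (3 : ℤ) • (R (heckeDivB N l (Finsupp.single Q (Divisor.degree E'))) -
            ((l : ℤ) + 1) • E') := by
      rw [hD, map_add, map_zsmul, map_add, map_zsmul, map_sub, map_zsmul, smul_sub,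
        smul_comm (3 : ℤ) ((l : ℤ) + 1), ← hoE, smul_sub]
      abel
    rw [e2, Finsupp.add_apply, Finsupp.smul_apply, smul_eq_mul]
    exact dvd_add (dvd_apply_map R hTD v) (dvd_mul_right _ _)
  rw [← hT, Finsupp.sub_apply, Finsupp.sub_apply, Finsupp.smul_apply, Finsupp.smul_apply,
    FF.div_apply, ho, FF.div_apply, e,
    v.ord_mul (mul_ne_zero ((_root_.map_ne_zero _).mpr hu) (zpow_ne_zero _ hr)) (pow_ne_zero _ hg),
    v.ord_mul ((_root_.map_ne_zero _).mpr hu) (zpow_ne_zero _ hr), FF.ord_algebraMap, v.ord_zpow,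
    FF.ord_pow v, smul_eq_mul, smul_eq_mul] at h3R
  have h3 : (3 : ℤ) ∣ ((l : ℤ) + 1 - a) * v.ord r := by
    obtain ⟨k, hk⟩ := h3R
    refine ⟨v.ord g - heckeDivK A N l F v - k, ?_⟩
    push_cast at hk
    linear_combination -hk
  exact ((Nat.prime_iff_prime_int.mp Nat.prime_three : Prime ((3 : ℕ) : ℤ)).dvd_mul.mp
    h3).resolve_left hne

variable {M₀ : ℕ} [NeZero M₀] {hpM : ¬ p ∣ M} {C : CoefField A p}

/-- **A nonzero logarithmic derivative gives the system at level `M₀`.** -/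
theorem eigTors_ne_bot_of_dlog (K : Kum hpM C) (hA : A.LiesOverPrime p) (hM : (M : Res A) ≠ 0)
    (hM4 : M = 4 * M₀) (hp2 : p ≠ 2) (hd : M₀ ∣ M) {f : FB (p * M₀)}
    (hf : K.f = inclF (mul_dvd_mul_left p hd) f)
    (hdiv : ∀ P, (p : ℤ) ∣ K.s₀ P ∧ (p : ℤ) ∣ K.t₀ P) (S : Finset ℕ) (a : ℕ → ℤ)
    (hS : ∀ l, l.Prime → l ∉ S → ¬ l ∣ p * M)
    (hrel : ∀ (l : ℕ) [NeZero l], l.Prime → l ∉ S → HeckeRel (p * M) p l K.f (a l))
    {l₀ : ℕ} (hl₀ : l₀.Prime) (hl₀S : l₀ ∉ S) (hne : (a l₀ : ZMod p) ≠ (l₀ : ZMod p) + 1)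
    {s : Fin 2} (hs : dlog (K.fb s : LaurentSeries (Res A)) ≠ 0) :
    LowerQ.EigTors M₀ p S (fun l => (a l : ZMod p)) ≠ ⊥ := by
  have := residueField_isAlgClosed A
  have hp : p.Prime := Fact.out
  have hM₀ : (M₀ : Res A) ≠ 0 := natCast_ne_zero_of_dvd hM hd
  have := isFunctionField_KM (A := A) (M := M₀) hM₀
  have hS₀ : ∀ l, l.Prime → l ∉ S → ¬ l ∣ p * M₀ := fun l hl hlS h =>
    hS l hl hlS (h.trans (mul_dvd_mul_left p hd))
  set r : KM A M₀ := ⟨(K.fb s : LaurentSeries (Res A)), K.fb_mem_KM hA hM hd hf s⟩ with hrdef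
  have hr : r ≠ 0 := fun h => K.fb_ne s (Subtype.ext
    (show (r : LaurentSeries (Res A)) = 0 by rw [h]; rfl))
  have hpow : ∀ y : LaurentSeries (Res A), dlog (y ^ p) = 0 := fun y => by
    rw [dlog_pow, ← map_natCast (HahnSeries.C (R := Res A) (Γ := ℤ)), CharP.cast_eq_zero, map_zero,
      zero_mul]
  have hnp : ∀ g : KM A M₀, g ^ p ≠ r := fun g hg => hs (by
    rw [show (K.fb s : LaurentSeries (Res A)) = (g : LaurentSeries (Res A)) ^ p by
      rw [← SubmonoidClass.coe_pow, hg]]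
    exact hpow _)
  have hrel₀ : ∀ (l : ℕ) [NeZero l], l.Prime → l ∉ S → ∃ (X g : KM A M₀) (u : Res A), g ≠ 0 ∧
      u ≠ 0 ∧ IsHeckeImage l (r : LaurentSeries (Res A)) (X : LaurentSeries (Res A)) ∧
      X = algebraMap (Res A) (KM A M₀) u * r ^ (a l) * g ^ p := by
    intro l _ hl hlS
    have hlN := hS l hl hlS
    have hlp : ¬ p ∣ l := not_dvd_of_not_dvd_mul hl hlN
    obtain ⟨h, hh, e⟩ := hrel l hl hlS
    obtain ⟨X, hX, hXl⟩ := exists_isRed_heckeImage hA hp hlp
      (iota2_fracS M p hpM s (heckeNorm (p * M) l K.f))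
      (fun ζ hζ => qExpand_iota2_heckeNorm p M l hpM hl hlN s hζ K.f) (K.isRed_fb s)
    obtain ⟨z, hz⟩ := IsRed.exists_of_ne_zero hA hp (iota2_fracS M p hpM s h)
      ((_root_.map_ne_zero _).mpr hh)
    have h1 := ((K.isRed_fb s).zpow (a l)).mul (hz.pow p)
    rw [← map_pow (iota2 M p hpM s) h, ← map_zpow₀ (iota2 M p hpM s) K.f, ← map_mul, ← e] at h1
    obtain ⟨u, hu, eu⟩ := h1.unique hX
    obtain ⟨X₀, hX₀⟩ := exists_heckeImage_mem hA hl (hS₀ l hl hlS) hM₀ r hr
    obtain ⟨ζ, hζ⟩ := exists_primitive (N := p * M) hl hlN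
    have hη := resRoot_primitive hA hp hlp hζ
    have hXX : (X₀ : LaurentSeries (Res A)) = X :=
      qExpand_injective l ((hX₀ _ hη).trans (hXl _ hη).symm)
    set y : KM A M₀ := X₀ / (algebraMap (Res A) (KM A M₀) u * r ^ (a l)) with hy
    have hden : algebraMap (Res A) (KM A M₀) u * r ^ (a l) ≠ 0 :=
      mul_ne_zero ((_root_.map_ne_zero _).mpr hu) (zpow_ne_zero _ hr)
    have hu' : algebraMap (Res A) (LaurentSeries (Res A)) u ≠ 0 := (_root_.map_ne_zero _).mpr hu
    have hyz : (y : LaurentSeries (Res A)) = z ^ p := by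
      show (KM A M₀).val y = _
      rw [hy, map_div₀, map_mul, map_zpow₀, AlgHom.commutes]
      show (X₀ : LaurentSeries (Res A)) / (algebraMap (Res A) (LaurentSeries (Res A)) u *
        (K.fb s : LaurentSeries (Res A)) ^ (a l)) = z ^ p
      rw [hXX, eu, ← mul_assoc]
      exact mul_div_cancel_left₀ _ (mul_ne_zero hu' (zpow_ne_zero _ (K.isRed_fb s).1))
    obtain ⟨g, hg⟩ := exists_root_of_dlog_eq_zero (M := M₀) hA hM₀ y (by rw [hyz]; exact hpow z)
    have hy0 : y ≠ 0 := fun h0 => pow_ne_zero p hz.1 (by rw [← hyz, h0]; rfl)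
    refine ⟨X₀, g, u, fun h0 => hy0 (by rw [← hg, h0, zero_pow hp.ne_zero]), hu, hX₀, ?_⟩
    rw [hg, hy, mul_div_cancel₀ _ hden]
  refine eigTors_ne_bot_of_redClass hA hM₀ S hS₀ a r hr hnp (fun v => ?_) hrel₀
  have hord : ∀ P : Place (Res A) (KM A M),
      (p : ℤ) ∣ P.ord ⟨(r : LaurentSeries (Res A)), (K.fb s).2⟩ := fun P => by
    fin_cases s
    · exact (hdiv P).1
    · exact (hdiv P).2
  rcases dvd_ord_or_elliptic hA hp2 hM hM4 (K.fb s).2 hord v with h | ⟨hp3, -, -⟩
  · exact h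
  have : NeZero l₀ := ⟨hl₀.ne_zero⟩
  have hNl : ((M₀ * l₀ : ℕ) : Res A) ≠ 0 := by
    rw [Nat.cast_mul]
    exact mul_ne_zero hM₀ fun h => not_dvd_of_not_dvd_mul hl₀ (hS₀ l₀ hl₀ hl₀S)
      ((CharP.cast_eq_zero_iff (Res A) p l₀).mp h)
  have := isFunctionField_KM (A := A) (M := M₀ * l₀) hNl
  obtain ⟨X, g, u, hg, hu, hX, e⟩ := hrel₀ l₀ hl₀ hl₀S
  have hne' := not_dvd_succ_sub (p := p) hne
  have hbad : ∀ w : Place (Res A) (KM A M₀), (3 : ℤ) ∣ w.ord r ∨
      (0 < w.ord (jK A M₀) ∧ ¬ (3 : ℤ) ∣ w.ord (jK A M₀)) := fun w =>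
    (dvd_ord_or_elliptic hA hp2 hM hM4 (K.fb s).2 hord w).imp
      (fun h => by rw [hp3] at h; exact_mod_cast h) fun h => h.2
  subst hp3
  exact three_dvd_of_elliptic hA hl₀ (hS₀ l₀ hl₀ hl₀S) hM₀ hNl hr hg hu hX e
    (by exact_mod_cast hne') hbad v

end Fermat.Agent.Extra39

end
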