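import Fermat.Agent.Extra39.LocalGood
import Fermat.Agent.RT.MazurP.Torsion

/-!
# The field of `E[p]` and the trace of inertia at a supersingular place

The elements of inertia fixing `E[p]` cut out a coefficient field; some element of inertia has no
eigenvalue one.
-/

set_option autoImplicit false
set_option synthInstance.maxHeartbeats 400000

open scoped WeierstrassCurve.Affine Pointwise
open WeierstrassCurve WeierstrassCurve.Affine Fermat.Agent.Arith

noncomputable section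

namespace Fermat.Agent.Extra39

open Fermat.Agent.EC.Reduction Fermat.Agent.EC.Rep Fermat.Agent.RT.MazurP
open Fermat.Agent.EC.AtP (PointQBar)

/-- A subgroup of inertia of finite index cuts out a coefficient field. -/
theorem exists_coefField_of_finite {A : ValuationSubring QBar} {p : ℕ} [Fact p.Prime]
    (hA : A.LiesOverPrime p) (H : Subgroup GQ) (hH : H ≤ A.inertiaSubgroupIn ℚ)
    (hfin : {q : GQ ⧸ H | ∃ h ∈ A.inertiaSubgroupIn ℚ, QuotientGroup.mk h = q}.Finite) :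
    ∃ C : CoefField A p, C.H = H := by
  classical
  have hp : p.Prime := Fact.out
  set S := hfin.toFinset
  have hS : ∀ q, q ∈ S ↔ ∃ h ∈ A.inertiaSubgroupIn ℚ, (QuotientGroup.mk h : GQ ⧸ H) = q :=
    fun q => hfin.mem_toFinset
  set c := S.card
  have hc : 0 < c := Finset.card_pos.mpr ⟨_, (hS _).mpr ⟨1, one_mem _, rfl⟩⟩
  set v := A.valuation
  have hp0 : (p : QBar) ≠ 0 := Nat.cast_ne_zero.mpr hp.ne_zero
  have hvp : 0 < v (p : QBar) := zero_lt_iff.mpr ((Valuation.ne_zero_iff _).mpr hp0)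
  have hvp1 : v (p : QBar) < 1 := A.mem_nonunits_iff.mp hA
  let G : AddSubgroup ℤ :=
    { carrier := {n | ∃ x : QBar, x ≠ 0 ∧ (∀ h ∈ H, h x = x) ∧ v x ^ c = v (p : QBar) ^ n}
      zero_mem' := ⟨1, one_ne_zero, fun h _ => map_one h, by simp⟩
      add_mem' := fun {a b} ⟨x, hx, hxH, ha⟩ ⟨y, hy, hyH, hb⟩ => ⟨x * y, mul_ne_zero hx hy,
        fun h hh => by rw [map_mul, hxH h hh, hyH h hh],
        by rw [map_mul, mul_pow, ha, hb, zpow_add₀ hvp.ne']⟩
      neg_mem' := fun {a} ⟨x, hx, hxH, ha⟩ => ⟨x⁻¹, inv_ne_zero hx,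
        fun h hh => by rw [map_inv₀, hxH h hh], by rw [map_inv₀, inv_pow, ha, zpow_neg]⟩ }
  obtain ⟨d₀, hd₀⟩ := Int.subgroup_cyclic G
  have hmem : ∀ n, n ∈ G ↔ ∃ k : ℤ, k * (d₀.natAbs : ℤ) = n := fun n => by
    rw [hd₀, ← AddSubgroup.zmultiples_eq_closure, Int.mem_zmultiples_iff, ← Int.natAbs_dvd]
    exact ⟨fun ⟨k, hk⟩ => ⟨k, by rw [hk, mul_comm]⟩, fun ⟨k, hk⟩ => ⟨k, by rw [← hk, mul_comm]⟩⟩
  obtain ⟨π, hπ0, hπH, hπ⟩ := (hmem (d₀.natAbs : ℤ)).mpr ⟨1, one_mul _⟩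
  obtain ⟨e, he⟩ := (hmem c).mp ⟨p, hp0, fun h _ => map_natCast h p, (zpow_natCast _ _).symm⟩
  set d := d₀.natAbs
  have hd : 0 < d := Nat.pos_of_ne_zero fun h => by
    rw [h, Nat.cast_zero, mul_zero] at he
    omega
  obtain ⟨e, rfl⟩ := Int.eq_ofNat_of_zero_le (show 0 ≤ e by
    by_contra h
    have := mul_neg_of_neg_of_pos (not_le.mp h) (show (0 : ℤ) < d by omega)
    omega)
  have hed : e * d = c := by exact_mod_cast he
  rw [zpow_natCast] at hπ
  have he0 : 0 < e := Nat.pos_of_ne_zero fun h => by rw [h, zero_mul] at hed; omega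
  have hval : v (p : QBar) = v π ^ e := by
    refine (pow_left_inj₀ zero_le zero_le hd.ne').mp ?_
    rw [← pow_mul, hed, hπ]
  refine ⟨{ H := H, le_inertia := hH, π := π, π_ne_zero := hπ0,
            π_nonunit := A.mem_nonunits_iff.mpr ?_, π_fixed := hπH, e := e, e_pos := he0,
            val_p := hval, discrete := fun x hx0 hx => ?_ }, rfl⟩
  · refine lt_of_not_ge fun hge => ?_
    exact absurd (hval ▸ one_le_pow₀ hge) (not_le.mpr hvp1)
  · obtain ⟨n, hn⟩ := exists_zpow_card_cosets hA H S hS hx0 hx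
    obtain ⟨k, rfl⟩ := (hmem n).mp ⟨x, hx0, hx, hn⟩
    refine ⟨k, (pow_left_inj₀ zero_le zero_le hc.ne').mp ?_⟩
    show v x ^ c = (v π ^ k) ^ c
    rw [hn, ← zpow_natCast (v π ^ k), ← zpow_mul, mul_comm k, mul_comm k, zpow_mul, zpow_mul,
      zpow_natCast, zpow_natCast, hπ]

variable {A : ValuationSubring (AlgebraicClosure ℚ)} {W : WeierstrassCurve ℤ} {p : ℕ}
  [Fact p.Prime] (hA : A.LiesOverPrime p) (hp2 : p ≠ 2) (hΔ0 : W.Δ ≠ 0)

include hA hΔ0 in
/-- The elements of inertia fixing `E[p]` cut out a coefficient field, normal over inertia; this is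
used at supersingular places. -/
theorem exists_field_supersingular : ∃ C : CoefField A p,
    (∀ h ∈ C.H, ∀ x : PointQBar W, (p : ℤ) • x = 0 → h • x = x) ∧
      ∀ τ ∈ A.inertiaSubgroupIn ℚ, ∀ h ∈ C.H, τ⁻¹ * h * τ ∈ C.H := by
  classical
  set ρ := (residualRep W p hΔ0).ρ with hρ
  set b := Module.finBasisOfFinrankEq (ZMod p) _ (residualRep W p hΔ0).finrank_eq
  have : Finite (Module.End (ZMod p) (residualRep W p hΔ0).V) :=
    Finite.of_equiv _ (LinearMap.toMatrix b b).toEquiv.symm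
  set K : Subgroup GQ := A.inertiaSubgroupIn ℚ ⊓ ρ.toHomUnits.ker
  have hK : ∀ h, h ∈ K ↔ h ∈ A.inertiaSubgroupIn ℚ ∧ ρ h = 1 := fun h => by
    rw [Subgroup.mem_inf, MonoidHom.mem_ker, Units.ext_iff]
    rfl
  let f : GQ ⧸ K → Module.End (ZMod p) (residualRep W p hΔ0).V :=
    Quotient.lift ρ fun a b hab => by
      have h : a⁻¹ * b ∈ K := QuotientGroup.leftRel_apply.mp hab
      rw [show b = a * (a⁻¹ * b) by group, map_mul, ((hK _).mp h).2, mul_one]
  have hfin : {q : GQ ⧸ K | ∃ h ∈ A.inertiaSubgroupIn ℚ, QuotientGroup.mk h = q}.Finite := by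
    refine Set.Finite.of_finite_image (Set.toFinite (f '' _)) ?_
    rintro _ ⟨a, ha, rfl⟩ _ ⟨b, hb, rfl⟩ (h : ρ a = ρ b)
    refine QuotientGroup.eq.mpr ((hK _).mpr ⟨mul_mem (inv_mem ha) hb, ?_⟩)
    rw [map_mul, ← h, ← map_mul, inv_mul_cancel, map_one]
  obtain ⟨C, hC⟩ := exists_coefField_of_finite hA K (fun h hh => hh.1) hfin
  refine ⟨C, fun h hh x hx => ?_, fun τ hτ h hh => ?_⟩
  · rw [hC] at hh
    exact congrArg Subtype.val (LinearMap.congr_fun ((hK h).mp hh).2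
      ⟨x, (Submodule.mem_torsionBy_iff _ _).mpr hx⟩)
  · rw [hC] at hh ⊢
    obtain ⟨hI, h1⟩ := (hK h).mp hh
    exact (hK _).mpr ⟨mul_mem (mul_mem (inv_mem hτ) hI) hτ, by
      rw [map_mul, map_mul, h1, mul_one, ← map_mul, inv_mul_cancel, map_one]⟩

variable (hgood : W.IsGoodPrimeFor p) (hall : ∀ P : PointQBar W, p • P = 0 → InE1 A P)
include hA hp2 hΔ0 hgood hall

/-- At a supersingular place some element of inertia has no eigenvalue one on `E[p]`. -/
theorem exists_inertia_trace_ne : ∃ τ ∈ A.inertiaSubgroupIn ℚ,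
    LinearMap.trace (ZMod p) (residualRep W p hΔ0).V ((residualRep W p hΔ0).ρ τ) ≠
      (cyclotomicHom p τ : ZMod p) + 1 := by
  classical
  have hp : p.Prime := Fact.out
  by_contra hcon
  simp only [not_exists, not_and, ne_eq, not_not] at hcon
  set ρ := (residualRep W p hΔ0).ρ with hρ
  set V := (residualRep W p hΔ0).V
  have hdet : ∀ g, LinearMap.det (ρ g) = (cyclotomicHom p g : ZMod p) := fun g => by
    rw [hρ, det_residualRep hΔ0 (card_rootsOfUnity_qbar p), cyclotomicHom_apply]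
  have : Fact (2 < p) := ⟨lt_of_le_of_ne hp.two_le hp2.symm⟩
  obtain ⟨τ₀, hτ₀, hcyc⟩ := exists_mem_inertia_cyclotomicHom_eq hA (-1 : (ZMod p)ˣ)
  set c : ZMod p := -1
  have hc : c ≠ 1 := ZMod.neg_one_ne_one
  have hcyc' : (cyclotomicHom p τ₀ : ZMod p) = c := by rw [hcyc]; rfl
  set b₀ := Module.finBasisOfFinrankEq (ZMod p) V (residualRep W p hΔ0).finrank_eq
  have heig : ∀ a : ZMod p, (a - 1) * (a - c) = 0 → ∃ v, v ≠ 0 ∧ ρ τ₀ v = a • v := by
    intro a ha
    have h0 : LinearMap.det (ρ τ₀ - a • 1) = 0 := by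
      have hd := hdet τ₀
      have ht := hcon τ₀ hτ₀
      rw [← LinearMap.det_toMatrix b₀, Matrix.det_fin_two] at hd
      rw [LinearMap.trace_eq_matrix_trace _ b₀, Matrix.trace_fin_two] at ht
      rw [← LinearMap.det_toMatrix b₀, map_sub, map_smul, LinearMap.toMatrix_one, Matrix.det_fin_two]
      simp only [Matrix.sub_apply, Matrix.smul_apply, Matrix.one_apply_eq, Fin.isValue, ne_eq,
        zero_ne_one, not_false_eq_true, Matrix.one_apply_ne, one_ne_zero, smul_eq_mul, mul_one,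
        mul_zero, sub_zero]
      linear_combination hd - a * ht + ha + (1 - a) * hcyc'
    obtain ⟨v, hv, hv0⟩ := Submodule.exists_mem_ne_zero_of_ne_bot
      (LinearMap.bot_lt_ker_of_det_eq_zero h0).ne'
    rw [LinearMap.mem_ker, LinearMap.sub_apply, sub_eq_zero] at hv
    exact ⟨v, hv0, hv⟩
  obtain ⟨v₀, hv₀, he₀⟩ := heig 1 (by simp)
  obtain ⟨v₁, hv₁, he₁⟩ := heig c (by simp)
  have hb : LinearIndependent (ZMod p) ![v₀, v₁] := by
    rw [linearIndependent_fin2]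
    refine ⟨hv₁, fun a e => ?_⟩
    simp only [Matrix.cons_val_zero, Matrix.cons_val_one] at e
    have h := congrArg (ρ τ₀) e
    rw [map_smul, he₀, he₁, one_smul, smul_comm, e, ← sub_eq_zero] at h
    nth_rw 2 [← one_smul (ZMod p) v₀] at h
    rw [← sub_smul, smul_eq_zero] at h
    exact h.elim (fun h => hc (sub_eq_zero.mp h)) hv₀
  set b := basisOfLinearIndependentOfCardEqFinrank hb
    (by rw [Fintype.card_fin, (residualRep W p hΔ0).finrank_eq])
  set M : GQ → Matrix (Fin 2) (Fin 2) (ZMod p) := fun g => LinearMap.toMatrix b b (ρ g)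
  have hMmul : ∀ g g', M (g * g') = M g * M g' := fun g g' => by
    show LinearMap.toMatrix b b (ρ (g * g')) = _
    rw [map_mul, Module.End.mul_eq_comp, LinearMap.toMatrix_comp b b b]
  have hb0 : b 0 = v₀ := by simp [b]
  have hb1 : b 1 = v₁ := by simp [b]
  have h0 : ρ τ₀ (b 0) = b 0 := by rw [hb0, he₀, one_smul]
  have h1 : ρ τ₀ (b 1) = c • b 1 := by rw [hb1, he₁]
  have hM0 : M τ₀ 0 0 = 1 ∧ M τ₀ 0 1 = 0 ∧ M τ₀ 1 1 = c := by
    simp [M, LinearMap.toMatrix_apply, h0, h1]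
  have hM10 : M τ₀ 1 0 = 0 := by simp [M, LinearMap.toMatrix_apply, h0]
  have hshape : ∀ g ∈ A.inertiaSubgroupIn ℚ, M g 0 0 = 1 ∧ M g 1 1 ≠ 0 ∧
      M g 0 1 * M g 1 0 = 0 := by
    intro g hg
    have h1 := hcon g hg
    have h2 := hcon _ (mul_mem hτ₀ hg)
    have h3 := hdet g
    rw [LinearMap.trace_eq_matrix_trace _ b, Matrix.trace_fin_two] at h1 h2
    rw [← LinearMap.det_toMatrix b, Matrix.det_fin_two] at h3
    change M g 0 0 + M g 1 1 = _ at h1
    change M (τ₀ * g) 0 0 + M (τ₀ * g) 1 1 = _ at h2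
    change M g 0 0 * M g 1 1 - M g 0 1 * M g 1 0 = _ at h3
    rw [hMmul, Matrix.mul_apply, Matrix.mul_apply, Fin.sum_univ_two, Fin.sum_univ_two, map_mul,
      Units.val_mul, hcyc'] at h2
    obtain ⟨e00, e01, e11⟩ := hM0
    rw [e00, e01, e11, hM10] at h2
    have h11 : M g 1 1 = (cyclotomicHom p g : ZMod p) := mul_left_cancel₀ (sub_ne_zero.mpr hc)
      (by linear_combination h2 - h1)
    refine ⟨by linear_combination h1 - h11, h11 ▸ Units.ne_zero _, ?_⟩
    linear_combination -h3 + (M g 1 1) * h1 + (1 - M g 1 1) * h11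
  -- all upper or all lower triangular
  have hline : (∀ g ∈ A.inertiaSubgroupIn ℚ, M g 1 0 = 0) ∨
      ∀ g ∈ A.inertiaSubgroupIn ℚ, M g 0 1 = 0 := by
    by_contra h
    simp only [not_or, not_forall] at h
    obtain ⟨⟨g, hg, hg10⟩, g', hg', hg01⟩ := h
    obtain ⟨-, -, hgm⟩ := hshape g hg
    obtain ⟨h00, -, hgm'⟩ := hshape g' hg'
    obtain ⟨-, h11, -⟩ := hshape g hg
    obtain ⟨-, h11', -⟩ := hshape g' hg'
    have e01 : M g 0 1 = 0 := (mul_eq_zero.mp hgm).resolve_right hg10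
    have e10 : M g' 1 0 = 0 := (mul_eq_zero.mp hgm').resolve_left hg01
    obtain ⟨-, -, hprod⟩ := hshape _ (mul_mem hg hg')
    obtain ⟨g00, -, -⟩ := hshape g hg
    rw [hMmul, Matrix.mul_apply, Matrix.mul_apply, Fin.sum_univ_two, Fin.sum_univ_two, e01, e10,
      g00, h00, zero_mul, add_zero, one_mul, mul_one, mul_zero, add_zero] at hprod
    exact mul_ne_zero hg01 hg10 hprod
  rcases hline with h | h
  · obtain ⟨τ, hτ, hn⟩ := exists_inertia_notMem_span hA hp2 hΔ0 hgood hall (b 0) (b.ne_zero 0)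
    refine hn (Submodule.mem_span_singleton.mpr ⟨b.repr (ρ τ (b 0)) 0, ?_⟩)
    have h10 : b.repr (ρ τ (b 0)) 1 = 0 := by simpa [M, LinearMap.toMatrix_apply] using h τ hτ
    conv_rhs => rw [← hρ, ← b.sum_repr (ρ τ (b 0)), Fin.sum_univ_two, h10, zero_smul, add_zero]
  · obtain ⟨τ, hτ, hn⟩ := exists_inertia_notMem_span hA hp2 hΔ0 hgood hall (b 1) (b.ne_zero 1)
    refine hn (Submodule.mem_span_singleton.mpr ⟨b.repr (ρ τ (b 1)) 1, ?_⟩)
    have h01 : b.repr (ρ τ (b 1)) 0 = 0 := by simpa [M, LinearMap.toMatrix_apply] using h τ hτ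
    conv_rhs => rw [← hρ, ← b.sum_repr (ρ τ (b 1)), Fin.sum_univ_two, h01, zero_smul, zero_add]

end Fermat.Agent.Extra39

end
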