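import Fermat.Agent.Extra39.Mu
import Fermat.Agent.Extra39.Classes
import Fermat.Agent.Extra39.EndPieces
import Fermat.Agent.Extra39.RedClass
import Fermat.Agent.Extra39.LocalOdd
import Fermat.Agent.Extra39.Supersingular

/-!
# Eigen torsion of level `p M₀` of a finite residual representation descends to level `M₀`

All three shapes of `E[p]` at the odd prime `p` are covered: multiplicative with `p ∣ v(Δ)`, good
ordinary and good supersingular.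
-/

set_option autoImplicit false
set_option synthInstance.maxHeartbeats 400000
set_option maxHeartbeats 1000000
set_option linter.unusedSectionVars false

open scoped WeierstrassCurve.Affine
open WeierstrassCurve WeierstrassCurve.Affine

noncomputable section

namespace Fermat.Agent.Extra39

open ModularCurve AlgebraicCurve Fermat.Agent.Semistable Fermat.Agent.Arith
open Fermat.Agent.RT Fermat.Agent.RT.Mazur Fermat.Agent.RT.MazurP Fermat.Agent.EC.Rep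
open Fermat.Agent.EC.AtP (PointQBar)

section Setting

variable {A : ValuationSubring QBar} {p M M₀ : ℕ} [Fact p.Prime] [CharP (Res A) p] [NeZero M]
  [NeZero M₀] [FF.IsFunctionField (Res A) (KM A M)] {hpM : ¬ p ∣ M} {W : WeierstrassCurve ℤ}

/-- With no eigen class at level `M₀`, divisible orders normalise to trivial reductions. -/
theorem exists_normalised_new {C : CoefField A p} (K : Kum hpM C) (hA : A.LiesOverPrime p)
    (hM : (M : Res A) ≠ 0) (V : VUnit A hpM) (hV : V.Simple) (hM4 : M = 4 * M₀) (hp2 : p ≠ 2)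
    (hd : M₀ ∣ M) {S : Finset ℕ} {a : ℕ → ℤ} (hS : ∀ l, l.Prime → l ∉ S → ¬ l ∣ p * M)
    (hbot : LowerQ.EigTors M₀ p S (fun l => (a l : ZMod p)) = ⊥)
    {f : JacTorsion.divGrp QBar (FB (p * M₀)) p}
    (hf : (JacTorsion.toTorsion (Additive.ofMul f) : JZero (p * M₀)) ∈
      LowerQ.EigTors (p * M₀) p S fun l => (a l : ZMod p))
    (hKf : K.f = inclF (mul_dvd_mul_left p hd) ((f : (FB (p * M₀))ˣ) : FB (p * M₀)))
    (hdiv : (∀ P, (p : ℤ) ∣ K.s₀ P ∧ (p : ℤ) ∣ K.t₀ P) ∧ (p : ℤ) ∣ K.δ)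
    (hrel : ∀ (l : ℕ) [NeZero l], l.Prime → l ∉ S → HeckeRel (p * M) p l K.f (a l))
    {l₀ : ℕ} (hl₀ : l₀.Prime) (hl₀S : l₀ ∉ S) (hne : (a l₀ : ZMod p) ≠ (l₀ : ZMod p) + 1) :
    ∃ K' : Kum hpM C, (∀ s, K'.fb s = 1) ∧ K'.v = 0 ∧ NormsArePowers hpM K'.f ∧
      ∃ (c : QBar) (h : FB (p * M)), c ≠ 0 ∧ h ≠ 0 ∧ (∀ τ ∈ C.H, galF (p * M) τ h = h) ∧
        K'.f = algebraMap QBar (FB (p * M)) c *
          inclF (mul_dvd_mul_left p hd) ((f : (FB (p * M₀))ˣ) : FB (p * M₀)) * h ^ p := by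
  have hall : ∀ s, dlog (K.fb s : LaurentSeries (Res A)) = 0 := fun s => by
    by_contra hs
    exact eigTors_ne_bot_of_dlog K hA hM hM4 hp2 hd hKf hdiv.1 S a hS hrel hl₀ hl₀S hne hs hbot
  obtain ⟨K', hfb, hv, c, h, hc, hh, hfix, he⟩ := K.exists_normalised hA hM V hV hdiv.2 hall
  rw [hKf] at he
  exact ⟨K', hfb, hv, normsArePowers_of_eq hd hS hbot hf he, c, h, hc, hh, hfix, he⟩

variable (hA : A.LiesOverPrime p) (hM : (M : Res A) ≠ 0) (V : VUnit A hpM) (hV : V.Simple)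
  (hM4 : M = 4 * M₀) (hp2 : p ≠ 2) (hΔ0 : W.Δ ≠ 0) (hirr : W.ModRepIsIrreducible p)
  {S : Finset ℕ}
  (hS : ∀ ℓ : ℕ, ℓ.Prime → ℓ ∉ S → ¬ ℓ ∣ p * M ∧ W.IsGoodPrimeFor ℓ)
  (hne : LowerQ.EigTors (p * M₀) p S (fun ℓ => (W.apOfModel ℓ : ZMod p)) ≠ ⊥)
  (hbot : LowerQ.EigTors M₀ p S (fun ℓ => (W.apOfModel ℓ : ZMod p)) = ⊥)
include hA hM hV hM4 hp2 hΔ0 hirr hS hne hbot

/-- The case with an adapted basis: multiplicative or good ordinary. -/
theorem false_of_lineFrame (F : LineFrame A W p)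
    (htr : ∀ τ ∈ A.inertiaSubgroupIn ℚ,
      LinearMap.trace (ZMod p) (residualRep W p hΔ0).V ((residualRep W p hΔ0).ρ τ) =
        (cyclotomicHom p τ : ZMod p) + 1)
    (hdich : wildKer A W p = tameKer A p ∨
      ∃ Wd : Wild A p, Wd.C.H = wildKer A W p ∧ Wd.C₁.H = tameKer A p ∧
        (∃ x : PointQBar W, (p : ℤ) • x = 0 ∧ Wd.σ • x ≠ x) ∧
        ∀ h ∈ tameKer A p, ∃ i : ℕ, (Wd.σ ^ i)⁻¹ * h ∈ wildKer A W p) :
    False := by
  classical
  have hp : p.Prime := Fact.out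
  have hp3 : 3 ≤ p := by have := hp.two_le; omega
  have hp1 : ¬ p ∣ p - 1 := fun h => by
    have := Nat.le_of_dvd (by omega) h
    omega
  have hd : M₀ ∣ M := hM4 ▸ dvd_mul_left _ _
  have h4 : 4 ∣ M := ⟨M₀, hM4⟩
  have hSM : ∀ l, l.Prime → l ∉ S → ¬ l ∣ p * M := fun l hl hlS => (hS l hl hlS).1
  have hS' : ∀ ℓ : ℕ, ℓ.Prime → ℓ ∉ S → ¬ ℓ ∣ p * M₀ * p ∧ W.IsGoodPrimeFor ℓ ∧
      (W.apOfModel ℓ : ZMod p) = (W.apOfModel ℓ : ZMod p) := fun ℓ hℓ hℓS =>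
    ⟨fun h => hSM ℓ hℓ hℓS ((hℓ.dvd_mul.mp h).elim (fun h => h.trans (mul_dvd_mul_left p hd))
      fun h => h.mul_right M), (hS ℓ hℓ hℓS).2, rfl⟩
  obtain ⟨l₀, hl₀, hl₀S, -, -, hl₀ne⟩ := exists_apOfModel_ne hp2 hirr hΔ0 S
  have : NeZero l₀ := ⟨hl₀.ne_zero⟩
  rw [add_comm] at hl₀ne
  obtain ⟨U, hUle, -, hUst, hUker, hUscal⟩ := exists_eigen_submodule hΔ0 hirr hp2
    (GaloisReps.congruenceProperty (p * M₀) p) S (fun ℓ => (W.apOfModel ℓ : ZMod p)) hS' hne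
  have hwfix : ∀ g ∈ wildKer A W p, ∀ x ∈ U, g • x = x := fun g hg =>
    hUker g (residualRep_eq_one_of_forall hΔ0 (mem_wildKer.mp hg).2)
  have hquad : ∀ g ∈ A.inertiaSubgroupIn ℚ, ∀ x ∈ U,
      g • g • x - (((cyclotomicHom p g : ZMod p).val : ℤ) + 1) • (g • x) +
        ((cyclotomicHom p g : ZMod p).val : ℤ) • x = 0 := fun g hg x hx =>
    quad_of_trace hΔ0 hS' (by
      rw [htr g hg]
      push_cast
      rw [ZMod.natCast_zmod_val]) (hUle hx)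
  rcases hdich with heq | ⟨Wd, hH, hH₁, ⟨P, hP, hPne⟩, hgen⟩
  · -- tame: a class fixed by inertia
    obtain ⟨τ₀, hτ₀, hprim, -, hgen₀⟩ := exists_tame_generator (p := p) hA
    set c := (cyclotomicHom p τ₀ : ZMod p).val with hc
    have hscal : ∀ z : ZMod p, (residualRep W p hΔ0).ρ τ₀ ≠ z • 1 := fun z h => by
      have := hprim 1 (by rw [(cyclotomic_eq_one_of_scalar_line hΔ0 F htr hτ₀ h).1, pow_one])
      have := Nat.le_of_dvd one_pos this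
      omega
    obtain ⟨y, hyU, hy0, hyτ⟩ := exists_fixed_of_quad U hUst (c := (c : ℤ)) (hquad τ₀ hτ₀)
      (hUscal τ₀ hscal c)
    have hyI : ∀ τ ∈ (unramField (p := p) hA).H, τ • y = y := by
      intro τ hτ
      obtain ⟨i, hi⟩ := hgen₀ τ hτ
      have hpow : ∀ n : ℕ, τ₀ ^ n • y = y := fun n => by
        induction n with
        | zero => rw [pow_zero, one_smul]
        | succ n ih => rw [pow_succ, mul_smul, hyτ, ih]
      rw [← mul_inv_cancel_left (τ₀ ^ i) τ, mul_smul, hwfix _ (heq ▸ hi) y hyU, hpow]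
    obtain ⟨f, hfy, -, -, K, hKf, hKrel⟩ :=
      exists_kum_of_eigen (hpM := hpM) hA hM hd (unramField hA) hSM (hUle hyU) hyI
    have hdiv := K.dvd_of_heckeRel (by simpa [unramField] using hp.ne_one) V hA hM hV hl₀
      (hSM l₀ hl₀ hl₀S) (hKrel l₀ hl₀ hl₀S) hl₀ne
    obtain ⟨K', hfb, hv0, hN, k, h', hk, hh', -, he⟩ := exists_normalised_new K hA hM V hV hM4 hp2
      hd hSM hbot (hfy.symm ▸ hUle hyU) hKf hdiv hKrel hl₀ hl₀S hl₀ne
    rcases Kum.exists_principal_or_dvd hA hM h4 V hV K' hfb hv0 hN with ⟨g, c', hg⟩ | hdvd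
    · refine hy0 ?_
      rw [← hfy]
      refine eq_zero_of_inclF_pow hΔ0 hirr hp2 hM4 S _ hS' (mul_dvd_mul_left p hd) f
        (hfy.symm ▸ hUle hyU) (c := c' / k) (g := g / h') ?_
      rw [he] at hg
      rw [div_pow, map_div₀, div_mul_div_comm,
        eq_div_iff (mul_ne_zero ((_root_.map_ne_zero _).mpr hk) (pow_ne_zero p hh')), ← hg]
      ring
    · have := Nat.le_of_dvd one_pos (show p - 1 ∣ 1 from hdvd)
      omega
  · -- wild
    have hσ : Wd.σ ∈ tameKer A p := hH₁ ▸ Wd.σ_mem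
    have hχσ : (cyclotomicHom p Wd.σ : ZMod p).val = 1 := by
      rw [(mem_tameKer.mp hσ).2, Units.val_one, ZMod.val_one]
    obtain ⟨x, hxU, hxσ⟩ := hUscal Wd.σ
      (not_scalar_of_moved_line hΔ0 F htr Wd.σ_mem_inertia hP hPne) 1
    rw [one_zsmul] at hxσ
    have hxC : ∀ h ∈ Wd.C.H, h • x = x := fun h hh => hwfix h (hH ▸ hh) x hxU
    set x₀ := Wd.σ • x - x with hx₀
    have hx₀U : x₀ ∈ U := U.sub_mem (hUst _ x hxU) hxU
    have hσx₀ : Wd.σ • x₀ = x₀ := by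
      have h := hquad Wd.σ Wd.σ_mem_inertia x hxU
      rw [hχσ, Nat.cast_one, one_zsmul, show ((1 : ℤ) + 1) = 2 from rfl, two_zsmul] at h
      rw [hx₀, smul_sub, ← sub_eq_zero, ← h]
      abel
    have hx₀C₁ : ∀ h ∈ Wd.C₁.H, h • x₀ = x₀ := by
      intro h hh
      obtain ⟨i, hi⟩ := hgen h (hH₁ ▸ hh)
      have hpow : ∀ n : ℕ, Wd.σ ^ n • x₀ = x₀ := fun n => by
        induction n with
        | zero => rw [pow_zero, one_smul]
        | succ n ih => rw [pow_succ, mul_smul, hσx₀, ih]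
      rw [← mul_inv_cancel_left (Wd.σ ^ i) h, mul_smul, hwfix _ hi x₀ hx₀U, hpow]
    obtain ⟨f₀, hf₀x, hf₀lead, hf₀fix, K₀, hK₀f, hK₀rel⟩ :=
      exists_kum_of_eigen (hpM := hpM) hA hM hd Wd.C₁ hSM (hUle hx₀U) hx₀C₁
    have hdiv₀ := K₀.dvd_of_heckeRel (by rw [Wd.e₁_eq]; exact hp1) V hA hM hV hl₀
      (hSM l₀ hl₀ hl₀S) (hK₀rel l₀ hl₀ hl₀S) hl₀ne
    obtain ⟨K₀', hfb₀, hv₀, -, k₀, h₀, hk₀, hh₀, hh₀fix, he₀⟩ := exists_normalised_new K₀ hA hM V hV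
      hM4 hp2 hd hSM hbot (hf₀x.symm ▸ hUle hx₀U) hK₀f hdiv₀ hK₀rel hl₀ hl₀S hl₀ne
    obtain ⟨f, hfx, hflead, hffix, K, hKf, hKrel⟩ :=
      exists_kum_of_eigen (hpM := hpM) hA hM hd Wd.C hSM (hUle hxU) hxC
    obtain ⟨g, hg0, hgfix, hgrel⟩ := exists_sigma_root (σ := Wd.σ) Wd.normal f f₀ hflead hf₀lead
      hffix (fun h hh => hf₀fix h (Wd.le hh)) (by rw [hfx, hf₀x, hx₀, add_sub_cancel])
    set G := inclF (mul_dvd_mul_left p hd) g with hG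
    obtain ⟨R, hR⟩ := SigmaRel.exists_of K hA K₀' hfb₀ hv₀ (κ := k₀⁻¹) (inv_ne_zero hk₀)
      (q := G / h₀)
      (fun h hh => by rw [map_div₀, hG, RT.MazurP.galF_inclF, hgfix h hh, hh₀fix h (Wd.le hh)])
      (by
        have hk : algebraMap QBar (FB (p * M)) k₀ ≠ 0 := (_root_.map_ne_zero _).mpr hk₀
        rw [hKf, RT.MazurP.galF_inclF, hgrel, map_mul, map_mul, map_pow, he₀, map_inv₀, div_pow,
          ← hG]
        field_simp)
    have hrelR : HeckeRel (p * M) p l₀ R.f₀ (W.apOfModel l₀) := by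
      rw [hR, he₀, ← hK₀f]
      exact (hK₀rel l₀ hl₀ hl₀S).scale hl₀ (hSM l₀ hl₀ hl₀S) hk₀ hh₀
    have hdiv := R.dvd_of_heckeRel V hA hM hV hl₀ (hSM l₀ hl₀ hl₀S) (hKrel l₀ hl₀ hl₀S) hrelR hl₀ne
    obtain ⟨K', hfb, hv0, hN, k, h', hk, hh', -, he⟩ := exists_normalised_new K hA hM V hV hM4 hp2
      hd hSM hbot (hfx.symm ▸ hUle hxU) hKf hdiv hKrel hl₀ hl₀S hl₀ne
    have hb : ((p - 1 : ℕ) : ZMod p) = -(cyclotomicHom p Wd.σ : ZMod p) := by
      rw [(mem_tameKer.mp hσ).2, Units.val_one, Nat.cast_sub hp.one_le, ZMod.natCast_self,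
        Nat.cast_one, zero_sub]
    obtain ⟨g', c', hg'⟩ := Kum.exists_galF_mul_pow hA hM h4 V hV K' hfb hv0 hN Wd.σ_mem_inertia
      Wd.normal (p - 1) hb
    have hmu := smul_add_eq_zero_of_galF_mul_pow hΔ0 hirr hp2 hM4 hd hS' (hfx.symm ▸ hUle hxU) hk
      hh' he Wd.σ (p - 1) hg'
    rw [hfx] at hmu
    refine hxσ ?_
    have hpx := (LowerQ.mem_eigTors.mp (hUle hxU)).1
    have hpx' : (p - 1) • x + x = 0 := by
      rw [← succ_nsmul, Nat.sub_add_cancel hp.one_le]; exact hpx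
    rw [eq_neg_of_add_eq_zero_left hmu, eq_comm, eq_neg_iff_add_eq_zero, add_comm]
    exact hpx'

/-- The supersingular case: every class becomes multiplicative, against the trace. -/
theorem false_of_field (C : CoefField A p)
    (hCfix : ∀ h ∈ C.H, ∀ x : PointQBar W, (p : ℤ) • x = 0 → h • x = x)
    {τ : GQ} (hτ : τ ∈ A.inertiaSubgroupIn ℚ) (hnorm : ∀ h ∈ C.H, τ⁻¹ * h * τ ∈ C.H)
    (htr : LinearMap.trace (ZMod p) _ ((residualRep W p hΔ0).ρ τ) ≠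
      (cyclotomicHom p τ : ZMod p) + 1) : False := by
  classical
  have hp : p.Prime := Fact.out
  have : NeZero p := ⟨hp.ne_zero⟩
  have hd : M₀ ∣ M := hM4 ▸ dvd_mul_left _ _
  have h4 : 4 ∣ M := ⟨M₀, hM4⟩
  have hSM : ∀ l, l.Prime → l ∉ S → ¬ l ∣ p * M := fun l hl hlS => (hS l hl hlS).1
  have hS' : ∀ ℓ : ℕ, ℓ.Prime → ℓ ∉ S → ¬ ℓ ∣ p * M₀ * p ∧ W.IsGoodPrimeFor ℓ ∧
      (W.apOfModel ℓ : ZMod p) = (W.apOfModel ℓ : ZMod p) := fun ℓ hℓ hℓS =>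
    ⟨fun h => hSM ℓ hℓ hℓS ((hℓ.dvd_mul.mp h).elim (fun h => h.trans (mul_dvd_mul_left p hd))
      fun h => h.mul_right M), (hS ℓ hℓ hℓS).2, rfl⟩
  obtain ⟨U, hUle, hU0, hUst, hUker, -⟩ := exists_eigen_submodule hΔ0 hirr hp2
    (GaloisReps.congruenceProperty (p * M₀) p) S (fun ℓ => (W.apOfModel ℓ : ZMod p)) hS' hne
  obtain ⟨x, hxU, hx0⟩ : ∃ x ∈ U, x ≠ 0 := by
    by_contra h
    push Not at h
    exact hU0 ((AddSubgroup.eq_bot_iff_forall U).mpr h)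
  obtain ⟨f, hfx, -, -, K, hKf, -⟩ := exists_kum_of_eigen (hpM := hpM) hA hM hd C hSM (hUle hxU)
    fun h hh => hUker h (residualRep_eq_one_of_forall hΔ0 (hCfix h hh)) x hxU
  obtain ⟨K', hfb, hv, c, h, hc, hh, -, he⟩ := Kum.exists_normalised_div K hA hM V hV hτ hnorm
  -- the class of `τ x - x`
  set fτ := LowerQ.smulDiv (arithmeticGalois (modularFunctionFieldFull (p * M₀)) τ) f with hfτ
  have hz : (JacTorsion.toTorsion (Additive.ofMul (fτ * f⁻¹)) : JZero (p * M₀)) = τ • x - x := by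
    rw [LowerQ.add_toTorsion, ofMul_inv, map_neg, AddSubgroup.coe_neg, hfτ,
      ← LowerQ.galois_smul_toTorsion, hfx, sub_eq_add_neg]
  have hzU : τ • x - x ∈ U := U.sub_mem (hUst τ x hxU) hxU
  have he' : K'.f = algebraMap QBar (FB (p * M)) c *
      inclF (mul_dvd_mul_left p hd) (((fτ * f⁻¹ : JacTorsion.divGrp QBar (FB (p * M₀)) p) :
        (FB (p * M₀))ˣ) : FB (p * M₀)) * h ^ p := by
    rw [he, hKf, RT.MazurP.galF_inclF, Subgroup.coe_mul, Units.val_mul, Subgroup.coe_inv,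
      Units.val_inv_eq_inv_val, hfτ, LowerQ.coe_smulDiv_galois, map_mul, map_inv₀, div_eq_mul_inv]
  have hN : NormsArePowers hpM K'.f :=
    normsArePowers_of_eq hd hSM hbot (hz.symm ▸ hUle hzU) he'
  set χ := (cyclotomicHom p τ : ZMod p) with hχ
  obtain ⟨g', c', hg'⟩ := Kum.exists_galF_mul_pow hA hM h4 V hV K' hfb hv hN hτ hnorm (-χ).val
    (ZMod.natCast_zmod_val _)
  have hmu := smul_add_eq_zero_of_galF_mul_pow hΔ0 hirr hp2 hM4 hd hS' (hz.symm ▸ hUle hzU) hc hh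
    he' τ (-χ).val hg'
  rw [hz] at hmu
  -- against the trace
  obtain ⟨t, ht⟩ := ZMod.intCast_surjective (LinearMap.trace (ZMod p) _
    ((residualRep W p hΔ0).ρ τ))
  have hq := quad_of_trace hΔ0 hS' ht.symm (hUle hxU)
  have hpz := (LowerQ.mem_eigTors.mp (hUle hzU)).1
  have hneg : (((-χ).val : ℕ) : ℤ) • (τ • x - x) = (-(χ.val : ℤ)) • (τ • x - x) :=
    zsmul_eq_of_cast_eq hpz (by push_cast; rw [ZMod.natCast_zmod_val, ZMod.natCast_zmod_val])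
  rw [← natCast_zsmul, hneg, neg_zsmul] at hmu
  have hu : (t - 1 - (χ.val : ℤ)) • (τ • x) = 0 := by
    rw [smul_sub, zsmul_sub] at hmu
    rw [show (t - 1 - (χ.val : ℤ)) • (τ • x) =
      (τ • τ • x - τ • x + -((χ.val : ℤ) • (τ • x) - (χ.val : ℤ) • x)) -
        (τ • τ • x - t • (τ • x) + (χ.val : ℤ) • x) by
      rw [sub_zsmul, sub_zsmul, one_zsmul]; abel, hmu, hq, sub_zero]
  have hne' : ((t - 1 - (χ.val : ℤ) : ℤ) : ZMod p) ≠ 0 := by
    push_cast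
    rw [ht, ZMod.natCast_zmod_val, hχ]
    intro h
    exact htr (by linear_combination h)
  obtain ⟨i, hi⟩ := ZMod.intCast_surjective (((t - 1 - (χ.val : ℤ) : ℤ) : ZMod p)⁻¹)
  have hτx : τ • x = 0 := by
    have hpτ := (LowerQ.mem_eigTors.mp (hUle (hUst τ x hxU))).1
    rw [← one_zsmul (τ • x), ← zsmul_eq_of_cast_eq hpτ (a := i * (t - 1 - (χ.val : ℤ))) (b := 1)
      (by rw [Int.cast_mul, hi, inv_mul_cancel₀ hne', Int.cast_one]), mul_zsmul, hu, zsmul_zero]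
  exact hx0 (by
    rw [← inv_smul_smul τ x, hτx]
    exact map_zero (DistribSMul.toAddMonoidHom (JZero (p * M₀)) τ⁻¹))

end Setting

/-- **Mazur's principle at the odd prime `p`.** -/
theorem eigTors_ne_bot_lower {p : ℕ} [Fact p.Prime] {W : WeierstrassCurve ℤ} (hp2 : p ≠ 2)
    (hΔ0 : W.Δ ≠ 0) (hsemi : (p : ℤ) ∣ W.Δ → ¬ (p : ℤ) ∣ W.c₄)
    (hv : (p : ℤ) ∣ W.Δ → p ∣ padicValInt p W.Δ) (hirr : W.ModRepIsIrreducible p)
    {M₀ : ℕ} [NeZero M₀] (hpM₀ : ¬ p ∣ M₀) (S : Finset ℕ)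
    (hS : ∀ ℓ : ℕ, ℓ.Prime → ℓ ∉ S → ¬ ℓ ∣ 2 * (p * M₀) ∧ W.IsGoodPrimeFor ℓ)
    (hne : LowerQ.EigTors (p * M₀) p S (fun ℓ => (W.apOfModel ℓ : ZMod p)) ≠ ⊥) :
    LowerQ.EigTors M₀ p S (fun ℓ => (W.apOfModel ℓ : ZMod p)) ≠ ⊥ := by
  classical
  have hp : p.Prime := Fact.out
  intro hbot
  obtain ⟨A, hA⟩ := Arith.exists_liesOverPrime hp
  set M := 4 * M₀ with hM4
  have : NeZero M := ⟨mul_ne_zero (by norm_num) (NeZero.ne M₀)⟩
  have hpM : ¬ p ∣ M := by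
    rw [hM4, hp.dvd_mul]
    rintro (h | h)
    · exact hp2 ((Nat.prime_dvd_prime_iff_eq hp Nat.prime_two).mp
        (hp.dvd_of_dvd_pow (show p ∣ 2 ^ 2 from h)))
    · exact hpM₀ h
  have hchar : CharP (Res A) p := residueField_charP hA hp
  have hM : (M : Res A) ≠ 0 := fun h => hpM ((CharP.cast_eq_zero_iff (Res A) p M).mp h)
  have : FF.IsFunctionField (Res A) (KM A M) :=
    RedTorsion.isFunctionField_full (K := Res A) (N := M) (F := KM A M) rfl hM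
  obtain ⟨V⟩ := exists_vUnit hA hM hpM
  have hV : V.Simple := VUnit.simple hA hM ⟨M₀, hM4⟩ V
  have hSM : ∀ l, l.Prime → l ∉ S → ¬ l ∣ p * M ∧ W.IsGoodPrimeFor l := by
    intro l hl hlS
    refine ⟨fun h => (hS l hl hlS).1 ?_, (hS l hl hlS).2⟩
    rw [hM4, show p * (4 * M₀) = 2 * (2 * (p * M₀)) by ring] at h
    rcases hl.dvd_mul.mp h with h | h
    · exact h.mul_right _
    · exact h
  by_cases hΔ : (p : ℤ) ∣ W.Δ
  · obtain ⟨⟨F⟩, htr⟩ := exists_frame hA hp2 hΔ0 hΔ (hsemi hΔ)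
    exact false_of_lineFrame hA hM V hV hM4 hp2 hΔ0 hirr hSM hne hbot (LineFrame.ofFrame F) htr
      (wildKer_eq_tameKer_or_exists_wild hA hp2 hΔ0 hΔ (hsemi hΔ) (hv hΔ))
  · by_cases hall : ∀ P : PointQBar W, p • P = 0 → EC.Reduction.InE1 A P
    · obtain ⟨C, hCfix, hnorm⟩ := exists_field_supersingular hA hΔ0
      obtain ⟨τ, hτ, htr⟩ := exists_inertia_trace_ne hA hp2 hΔ0 hΔ hall
      exact false_of_field hA hM V hV hM4 hp2 hΔ0 hirr hSM hne hbot C hCfix hτ (hnorm τ hτ) htr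
    · obtain ⟨⟨F⟩, htr⟩ := exists_lineFrame_good hA hp2 hΔ0 hΔ hall
      exact false_of_lineFrame hA hM V hV hM4 hp2 hΔ0 hirr hSM hne hbot F htr
        (wildKer_eq_tameKer_or_exists_wild_good hA hp2 hΔ0 hΔ hall)

end Fermat.Agent.Extra39

end
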