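import Fermat.Agent.Extra39.Basic

/-!
# Reductions of norms and of `P L(m ∞) + L(m ∞)` at level `M`

The reduction of the norm of `1 + ε u` is `1 + ε u₀`, as the other conjugates all reduce to the same
series and there are `p` of them; the reductions of `P L(m ∞) + L(m ∞)` lie in `j ^ m H m + H m`
when `P` reduces to `j ^ m`.
-/

set_option autoImplicit false
set_option synthInstance.maxHeartbeats 400000
set_option maxHeartbeats 1000000
set_option linter.unusedSectionVars false

noncomputable section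

namespace Fermat.Agent.Extra39

open ModularCurve AlgebraicCurve Fermat.Agent.Semistable Fermat.Agent.Arith
open Fermat.Agent.RT.Mazur Fermat.Agent.RT.MazurP

variable {A : ValuationSubring QBar} {p M : ℕ} [Fact p.Prime] [CharP (Res A) p] [NeZero M]
  {hpM : ¬ p ∣ M}

/-- An element is inverse to an integer or reduces to zero. -/
theorem inv_mem_or_residue_eq_zero {d : QBar} (hd : d ≠ 0) :
    d⁻¹ ∈ A ∨ ∃ h : d ∈ A, IsLocalRing.residue A ⟨d, h⟩ = 0 := by
  by_cases hdi : d⁻¹ ∈ A
  · exact Or.inl hdi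
  rw [← A.valuation_le_one_iff, not_le, map_inv₀,
    one_lt_inv₀ (zero_lt_iff.mpr ((Valuation.ne_zero_iff _).mpr hd))] at hdi
  exact Or.inr ⟨(A.valuation_le_one_iff _).mp hdi.le, (residue_eq_zero_iff _).mpr hdi⟩

/-- Integrality of a series can be tested after `q ↦ q ^ p`. -/
theorem exists_locS_of_qExpand (hA : A.LiesOverPrime p) {y : LSer} (hy : y ∈ fracS A)
    (h : qExpand QBar p y ∈ locS A) : ∃ hm : y ∈ locS A,
      qExpand (Res A) p (redL A ⟨y, hm⟩) = redL A ⟨_, h⟩ := by
  suffices hm : y ∈ locS A from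
    ⟨hm, ((redL_congr h (qExpand_mem_locS p hm) rfl).trans (redL_qExpand p hm)).symm⟩
  rcases eq_or_ne y 0 with rfl | hy0
  · exact zero_mem _
  obtain ⟨d, hd0, hd, hne⟩ := exists_scale hA (Fact.out : p.Prime) hy hy0
  rcases inv_mem_or_residue_eq_zero (A := A) hd0 with hdi | ⟨hdA, hdr⟩
  · have := mul_mem (algebraMap_mem_locS hdi) hd
    rwa [← mul_assoc, ← map_mul, inv_mul_cancel₀ hd0, map_one, one_mul] at this
  · refine absurd ?_ ((_root_.map_ne_zero (qExpand (Res A) p)).mpr hne)
    obtain ⟨h', e'⟩ := redL_const_mul hdA h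
    rw [← redL_qExpand p hd, redL_congr _ h' (by rw [map_mul, qExpand_const]), e', hdr, map_zero,
      zero_mul]

/-- The norm of a function with nonzero reductions. -/
theorem normUp_red (hA : A.LiesOverPrime p) (y : loc2 A (iota2 M p hpM))
    (h0 : ∀ s, red2 A (iota2 M p hpM) y s ≠ 0) :
    ∃ N : loc2 A (iota1 M), (N : FB M) = NewformLocal.Toric.normUp p M (y : FB (p * M)) ∧
      red1 A M N = red2 A (iota2 M p hpM) y 0 *
        coeffMap (frobenius (Res A) p) (red2 A (iota2 M p hpM) y 1) := by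
  have hmem := (mem_loc2 _).mp y.2
  have e0 : algebraMap QBar LSer 1 * ((y : FB (p * M)) : LSer) = iota2 M p hpM 0 y := by
    rw [map_one, one_mul, iota2_zero]
  have e1 : algebraMap QBar LSer 1 * (wEquiv p M hpM (y : FB (p * M)) : LSer) =
      iota2 M p hpM 1 y := by rw [map_one, one_mul, iota2_one]
  have ha : algebraMap QBar LSer 1 * ((y : FB (p * M)) : LSer) ∈ locS A := e0 ▸ hmem 0
  have hb : algebraMap QBar LSer 1 * (wEquiv p M hpM (y : FB (p * M)) : LSer) ∈ locS A :=
    e1 ▸ hmem 1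
  have hra : redL A ⟨_, ha⟩ = red2 A (iota2 M p hpM) y 0 := by
    rw [red2_apply]; exact redL_congr _ _ e0
  have hrb : redL A ⟨_, hb⟩ = red2 A (iota2 M p hpM) y 1 := by
    rw [red2_apply]; exact redL_congr _ _ e1
  obtain ⟨hN, hNr⟩ := NewformLocal.Toric.redL_normUp (q := p) (M := M) (hqM := hpM) hA ha hb
    (hra ▸ h0 0) (hrb ▸ h0 1)
  have e : algebraMap QBar LSer (1 * 1 ^ p) *
      (NewformLocal.Toric.normUp p M (y : FB (p * M)) : LSer) =
      (NewformLocal.Toric.normUp p M (y : FB (p * M)) : LSer) := by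
    rw [one_pow, one_mul, map_one, one_mul]
  refine ⟨⟨_, (mem_loc1 M).mpr (e ▸ hN)⟩, rfl, ?_⟩
  rw [red1_eq, ← hra, ← hrb, ← hNr]
  exact redL_congr _ _ e.symm

/-- Products of `1 + e b` to first order. -/
theorem exists_prod_one_add {R ι : Type*} [CommRing R] (e : R) (S : Finset ι) (b : ι → R) :
    ∃ r, ∏ i ∈ S, (1 + e * b i) = 1 + e * (∑ i ∈ S, b i + e * r) := by
  classical
  induction S using Finset.induction_on with
  | empty => exact ⟨0, by simp⟩
  | insert i S hi ih =>
    obtain ⟨r, hr⟩ := ih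
    exact ⟨r + b i * (∑ j ∈ S, b j + e * r),
      by rw [Finset.prod_insert hi, hr, Finset.sum_insert hi]; ring⟩

/-- The norm of `1 + ε u`. -/
theorem normUp_one_add (hA : A.LiesOverPrime p) (u : loc2 A (iota2 M p hpM)) {ε : A}
    (hε : (ε : QBar) ≠ 0) (hεr : IsLocalRing.residue A ε = 0) :
    ∃ T : loc2 A (iota1 M),
      NewformLocal.Toric.normUp p M (1 + algebraMap QBar (FB (p * M)) ε * (u : FB (p * M))) =
        1 + algebraMap QBar (FB M) ε * (T : FB M) ∧
      red1 A M T = red2 A (iota2 M p hpM) u 0 := by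
  classical
  have hp : p.Prime := Fact.out
  obtain ⟨ζ₀, hζ₀⟩ := HasEnoughRootsOfUnity.exists_primitiveRoot QBar p
  set ζ : QBarˣ := (hζ₀.isUnit hp.ne_zero).unit with hζdef
  have hζ : IsPrimitiveRoot ζ p := IsPrimitiveRoot.coe_units_iff.mp (by simpa [hζdef] using hζ₀)
  have hroot : ∀ i : ℕ, (ζ ^ i) ^ p = 1 := fun i => by
    rw [← pow_mul, mul_comm, pow_mul, hζ.pow_eq_one, one_pow]
  have hmem := (mem_loc2 _).mp u.2
  choose hb hbr using fun i : Fin p =>
    NewformLocal.Toric.twist_mem_locS (ζ ^ (i : ℕ)) (hroot i) (hmem 1)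
  set e : locS A := ⟨_, algebraMap_mem_locS ε.2⟩ with he
  set a : locS A := ⟨_, qExpand_mem_locS p (hmem 0)⟩ with ha
  set b : Fin p → locS A := fun i => ⟨_, hb i⟩ with hbdef
  obtain ⟨r, hr⟩ := exists_prod_one_add e Finset.univ b
  set Q : locS A := a + (∑ i, b i + e * r) + e * (a * (∑ i, b i + e * r)) with hQ
  have hP : (1 + e * a) * ∏ i, (1 + e * b i) = 1 + e * Q := by rw [hr, hQ]; ring
  set y : FB (p * M) := 1 + algebraMap QBar (FB (p * M)) ε * (u : FB (p * M)) with hy
  have hy0 : ∀ s, iota2 M p hpM s y =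
      1 + algebraMap QBar LSer ε * iota2 M p hpM s (u : FB (p * M)) := fun s => by
    rw [hy, map_add, map_one, map_mul, AlgHom.commutes]
  have hN : qExpand QBar p (NewformLocal.Toric.normUp p M y : LSer) =
      (1 : LSer) + algebraMap QBar LSer ε * (Q : LSer) := by
    rw [NewformLocal.Toric.qExpand_normUp p M hpM hζ, ← iota2_zero M p hpM y,
      ← iota2_one M p hpM y, hy0, hy0, map_add, map_one, map_mul, qExpand_const]
    simp only [map_add, map_one, map_mul, twist_const]
    have := congrArg Subtype.val hP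
    push_cast [he, ha, hbdef] at this
    exact this
  set T : FB M := algebraMap QBar (FB M) (ε : QBar)⁻¹ * (NewformLocal.Toric.normUp p M y - 1)
    with hT
  have hqT : qExpand QBar p (T : LSer) = (Q : LSer) := by
    rw [hT]
    push_cast
    rw [map_mul, map_sub, map_one, hN, add_sub_cancel_left, ← map_inv₀ (algebraMap QBar LSer),
      qExpand_const, ← mul_assoc, ← map_mul, inv_mul_cancel₀ hε, map_one, one_mul]
  obtain ⟨hTm, hTr⟩ := exists_locS_of_qExpand (p := p) hA (mem_fracS_of_mem T)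
    (hqT.symm ▸ Q.2)
  refine ⟨⟨T, (mem_loc1 M).mpr hTm⟩, ?_, ?_⟩
  · show _ = 1 + algebraMap QBar (FB M) (ε : QBar) * T
    rw [hT, ← mul_assoc, ← map_mul, mul_inv_cancel₀ hε, map_one, one_mul, add_sub_cancel]
  · refine qExpand_injective p ?_
    rw [red1_eq]
    refine hTr.trans ?_
    rw [redL_congr _ Q.2 hqT, Subtype.coe_eta, hQ]
    have he0 : redL A e = 0 := by
      rw [he, redL_algebraMap ε.2, Subtype.coe_eta, hεr, map_zero]
    have hpz : ((p : ℕ) : LaurentSeries (Res A)) = 0 := by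
      rw [← map_natCast (algebraMap (Res A) (LaurentSeries (Res A))), CharP.cast_eq_zero, map_zero]
    simp only [map_add, map_mul, map_sum, he0, zero_mul, add_zero]
    rw [Finset.sum_congr rfl fun i _ => (show redL A (b i) = _ from hbr i), Finset.sum_const,
      Finset.card_univ, Fintype.card_fin, nsmul_eq_mul, hpz, zero_mul, add_zero, ha,
      redL_qExpand, red2_apply]

/-- The root of a norm which is a constant times a power. -/
theorem exists_norm_root (hA : A.LiesOverPrime p) (f : loc2 A (iota2 M p hpM))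
    (hf : red2 A (iota2 M p hpM) f = 1)
    (hN : ∃ (c : QBar) (g : FB M),
      NewformLocal.Toric.normUp p M (f : FB (p * M)) = algebraMap QBar (FB M) c * g ^ p) :
    ∃ g : loc2 A (iota1 M),
      NewformLocal.Toric.normUp p M (f : FB (p * M)) = (g : FB M) ^ p ∧ red1 A M g = 1 := by
  have hp : p.Prime := Fact.out
  obtain ⟨c, g, hg⟩ := hN
  obtain ⟨r, hr⟩ := IsAlgClosed.exists_pow_nat_eq c hp.pos
  set G : FB M := algebraMap QBar (FB M) r * g with hG
  have hGp : NewformLocal.Toric.normUp p M (f : FB (p * M)) = G ^ p := by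
    rw [hg, hG, mul_pow, ← map_pow, hr]
  obtain ⟨N, hNe, hNr⟩ := normUp_red hA f fun s => by rw [hf]; exact one_ne_zero
  rw [hf, Pi.one_apply, Pi.one_apply, map_one, one_mul] at hNr
  rw [hGp] at hNe
  have hG0 : (G : LSer) ≠ 0 := fun h0 => by
    have : N = 0 := Subtype.ext (by
      rw [hNe, show G = 0 from Subtype.ext h0, zero_pow hp.ne_zero]; rfl)
    rw [this, map_zero] at hNr
    exact zero_ne_one hNr
  obtain ⟨d, hd0, hd, hne⟩ := exists_scale hA hp (mem_fracS_of_mem (A := A) G) hG0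
  have hm : G ∈ loc2 A (iota1 M) := by
    refine (mem_loc1 M).mpr ?_
    rcases inv_mem_or_residue_eq_zero (A := A) hd0 with hdi | ⟨hdA, hdr⟩
    · have := mul_mem (algebraMap_mem_locS hdi) hd
      rwa [← mul_assoc, ← map_mul, inv_mul_cancel₀ hd0, map_one, one_mul] at this
    · exfalso
      have hG' : algebraMap QBar (FB M) d * G ∈ loc2 A (iota1 M) := (mem_loc1 M).mpr hd
      have hdl : algebraMap QBar (FB M) d ∈ loc2 A (iota1 M) := algebraMap_mem_loc2 _ hdA
      have e : (⟨_, hG'⟩ : loc2 A (iota1 M)) ^ p = ⟨_, hdl⟩ ^ p * N := Subtype.ext (by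
        push_cast
        rw [hNe, mul_pow])
      have e' := congrArg (red1 A M) e
      rw [map_mul, map_pow, map_pow, hNr, mul_one,
        show red1 A M ⟨_, hdl⟩ = 0 from (redL_algebraMap hdA).trans (by rw [hdr, map_zero]),
        zero_pow hp.ne_zero, pow_eq_zero_iff hp.ne_zero] at e'
      exact hne e'
  refine ⟨⟨G, hm⟩, hGp, ?_⟩
  have e : (⟨G, hm⟩ : loc2 A (iota1 M)) ^ p = N := Subtype.ext (by push_cast; exact hNe.symm)
  have e' := congrArg (red1 A M) e
  rw [map_pow, hNr] at e'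
  haveI : CharP (LaurentSeries (Res A)) p :=
    charP_of_injective_algebraMap (algebraMap (Res A) (LaurentSeries (Res A))).injective p
  refine sub_eq_zero.mp ((pow_eq_zero_iff hp.ne_zero).mp ?_)
  rw [sub_pow_char, e', one_pow, sub_self]

variable [FF.IsFunctionField (Res A) (KM A M)]

/-- Multiplying by a power of `j`. -/
theorem jpow_mul_mem_HkS {a : ℕ} {r : LaurentSeries (Res A)} (k : ℕ) (hr : r ∈ HkS A M a) :
    jqModC (Res A) ^ k * r ∈ HkS A M (k + a) := by
  obtain ⟨h, h'⟩ := (mem_HkS A M).mp hr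
  have := coe_mem_HkS.mpr (mul_mem_polesSpace (jK_pow_mem_Hk (A := A) (M := M) k) h')
  rwa [IntermediateField.coe_mul, IntermediateField.coe_pow, coe_jK] at this

/-- Cancelling a power of `j`. -/
theorem jpow_cancel {a a' b k : ℕ} {r : LaurentSeries (Res A)} (hr : r ∈ HkS A M a)
    (hkr : jqModC (Res A) ^ k * r ∈ HkS A M b) (hb : b ≤ k + a') : r ∈ HkS A M a' := by
  obtain ⟨h, h'⟩ := (mem_HkS A M).mp hr
  obtain ⟨g, g'⟩ := (mem_HkS A M).mp hkr
  refine (mem_HkS A M).mpr ⟨h, cancel_poles (μ := jK A M ^ k) (e := k)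
    (fun v hv => ⟨pow_ne_zero _ fun h0 => by simp [h0] at hv, ?_⟩) hb h' ?_⟩
  · rw [FF.ord_pow]
  · convert g' using 1
    exact Subtype.ext (by rw [IntermediateField.coe_mul, IntermediateField.coe_pow, coe_jK])

/-- From the pole bound `2 d`: cancelling `j ^ e` in `j ^ e t ∈ j ^ (e + d) H + H`. -/
theorem mem_side_of_relation {d e : ℕ} {t a b : LaurentSeries (Res A)}
    (ht : t ∈ HkS A M (d + d)) (ha : a ∈ HkS A M (e + d)) (hb : b ∈ HkS A M (e + d))
    (h : jqModC (Res A) ^ (e + d) * a + b = jqModC (Res A) ^ e * t) :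
    t ∈ (HkS A M d).map (mulSer (jqModC (Res A) ^ d)) ⊔ HkS A M d := by
  set ρ := t - jqModC (Res A) ^ d * a with hρ
  have hρ' : ρ ∈ HkS A M (d + (e + d)) :=
    sub_mem (HkS_mono A M (by omega) ht) (jpow_mul_mem_HkS d ha)
  have hρd : ρ ∈ HkS A M d := by
    refine jpow_cancel (k := e) hρ' ?_ le_rfl
    rw [show jqModC (Res A) ^ e * ρ = b by rw [hρ, mul_sub, ← h, ← mul_assoc, ← pow_add]; ring]
    exact hb
  have had : a ∈ HkS A M d := by
    refine jpow_cancel (k := d) (b := d + d) ha ?_ le_rfl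
    rw [show jqModC (Res A) ^ d * a = t - ρ by rw [hρ]; ring]
    exact sub_mem ht (HkS_mono A M (by omega) hρd)
  exact Submodule.mem_sup.mpr ⟨_, ⟨a, had, rfl⟩, ρ, hρd, by rw [mulSer_apply, hρ]; ring⟩

/-- The reductions of `P L(m ∞) + L(m ∞)` when `P` reduces to `j ^ m`. -/
theorem exists_red1_sup (hA : A.LiesOverPrime p) (hM : (M : Res A) ≠ 0) (hgood : GoodM A M) :
    ∃ n₀ : ℕ, ∀ m, n₀ ≤ m → ∀ P : loc2 A (iota1 M), (P : FB M) ∈ HM M m →
      red1 A M P = jqModC (Res A) ^ m → ∀ G : loc2 A (iota1 M),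
      (G : FB M) ∈ (HM M m).map (LinearMap.mulLeft QBar (P : FB M)) ⊔ HM M m →
      red1 A M G ∈ (HkS A M m).map (mulSer (jqModC (Res A) ^ m)) ⊔ HkS A M m := by
  have := Arith.residueField_isAlgClosed A
  obtain ⟨n₀, hn₀⟩ := exists_red1_surjective (A := A) (M := M) p hA hM hgood
  refine ⟨n₀, fun m hm P hPm hPr G hG => ?_⟩
  let pr : (Unit → LaurentSeries (Res A)) →ₗ[Res A] LaurentSeries (Res A) := LinearMap.proj ()
  have hpr : Function.Injective pr := fun a b h => funext fun _ => h
  have hj : jqModC (Res A) ≠ 0 := fun h =>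
    Semistable.transcendental_jqModC (Res A) (h ▸ isAlgebraic_zero)
  have hP0 : (P : FB M) ≠ 0 := fun h0 => by
    rw [show P = 0 from Subtype.ext h0, map_zero] at hPr
    exact pow_ne_zero m hj hPr.symm
  set U := (HM M m).map (LinearMap.mulLeft QBar (P : FB M)) with hU
  have hfin : FiniteDimensional QBar (U ⊔ HM M m : Submodule QBar (FB M)) := by
    rw [hU]; infer_instance
  set S := (HkS A M m).map (mulSer (jqModC (Res A) ^ m)) ⊔ HkS A M m with hS
  have hHfin : FiniteDimensional (Res A) (HkS A M m) := by unfold HkS; infer_instance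
  obtain ⟨hWfin, hWdim⟩ := finrank_redSub p hA (iota1 M) (fun _ x => mem_fracS_of_mem x)
    (U ⊔ HM M m : Submodule QBar (FB M))
  set W := (redSub A (iota1 M) (U ⊔ HM M m : Submodule QBar (FB M))).map pr with hW
  have hWfin' : FiniteDimensional (Res A) W := by rw [hW]; infer_instance
  have hGW : red1 A M G ∈ W := ⟨_, mem_redSub.mpr ⟨G, hG, rfl⟩, rfl⟩
  suffices hSW : S = W by rwa [hSW]
  refine Submodule.eq_of_le_of_finrank_le (sup_le ?_ ?_) ?_
  · rintro _ ⟨r, hr, rfl⟩
    obtain ⟨x, hx, rfl⟩ := hn₀ m hm r hr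
    refine ⟨_, mem_redSub.mpr ⟨P * x, Submodule.mem_sup_left ⟨x, hx, ?_⟩, rfl⟩, ?_⟩
    · push_cast; rfl
    · show red1 A M (P * x) = mulSer _ _
      rw [map_mul, hPr, mulSer_apply]
  · intro r hr
    obtain ⟨x, hx, rfl⟩ := hn₀ m hm r hr
    exact ⟨_, mem_redSub.mpr ⟨x, Submodule.mem_sup_right hx, rfl⟩, rfl⟩
  · have hd : Module.finrank QBar (HM M m) = Module.finrank (Res A) (HkS A M m) := by
      obtain ⟨-, hd⟩ := finrank_redSub p hA (iota1 M) (fun _ x => mem_fracS_of_mem x) (HM M m)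
      rw [← hd, (Submodule.equivMapOfInjective pr hpr _).finrank_eq]
      refine congrArg (fun N : Submodule (Res A) (LaurentSeries (Res A)) => Module.finrank (Res A) N)
        (le_antisymm ?_ fun r hr => ?_)
      · rintro _ ⟨s, hs, rfl⟩
        obtain ⟨x, hx, rfl⟩ := mem_redSub.mp hs
        exact red1_mem_HkS M p hA hM hx
      · obtain ⟨x, hx, rfl⟩ := hn₀ m hm r hr
        exact ⟨_, mem_redSub.mpr ⟨x, hx, rfl⟩, rfl⟩
    have h1 := finrank_sup_lt U (HM M m) (z := (P : FB M)) hP0
      ⟨1, one_mem_polesSpace _ _, mul_one _⟩ hPm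
    rw [hU, ← (Submodule.equivMapOfInjective _ (mul_right_injective₀ hP0) _).finrank_eq, ← hU] at h1
    have hmu : Function.Injective (mulSer (jqModC (Res A) ^ m)) := fun a b h =>
      mul_left_cancel₀ (pow_ne_zero m hj) h
    have h2 := Submodule.finrank_sup_add_finrank_inf_eq
      ((HkS A M m).map (mulSer (jqModC (Res A) ^ m))) (HkS A M m)
    rw [← (Submodule.equivMapOfInjective _ hmu _).finrank_eq, ← hS] at h2
    have h3 : Module.finrank (Res A) ((HkS A M m).map (mulSer (jqModC (Res A) ^ m)) ⊓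
        HkS A M m : Submodule (Res A) (LaurentSeries (Res A))) ≤ 1 := by
      refine (Submodule.finrank_mono
        (t := Submodule.span (Res A) {mulSer (jqModC (Res A) ^ m) 1}) ?_).trans
        (le_of_eq (finrank_span_singleton fun h => pow_ne_zero m hj ((mul_one _).symm.trans h)))
      rintro _ ⟨⟨r, hr, rfl⟩, hr'⟩
      obtain ⟨h0, h0'⟩ := (mem_HkS A M).mp (jpow_cancel (a' := 0) hr hr' le_rfl)
      have h10 : Module.finrank (Res A)
          (riemannRochSpace (0 : Divisor (Res A) (KM A M))) = 1 := by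
        have := FF.ell_zero (K := Res A) (F := KM A M)
        simp only [FF.ell] at this
        exact_mod_cast this
      rw [Hk, zero_nsmul] at h0'
      have hone : (1 : KM A M) ∈ riemannRochSpace (0 : Divisor (Res A) (KM A M)) := by
        have := one_mem_polesSpace (K := Res A) (jK A M) 0
        rwa [zero_nsmul] at this
      obtain ⟨c, hc⟩ := exists_smul_eq_of_finrank_eq_one h10
        (x := (⟨1, hone⟩ : riemannRochSpace (0 : Divisor (Res A) (KM A M))))
        (fun e => one_ne_zero (congrArg Subtype.val e)) ⟨_, h0'⟩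
      have e := congrArg (valLin A M) (congrArg Subtype.val hc)
      rw [Submodule.coe_smul, map_smul, valLin_apply, valLin_apply] at e
      refine Submodule.mem_span_singleton.mpr ⟨c, ?_⟩
      rw [← map_smul]
      exact congrArg _ e
    rw [hW, ← (Submodule.equivMapOfInjective pr hpr _).finrank_eq, hWdim]
    omega

end Fermat.Agent.Extra39

end
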