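import Fermat.Agent.Extra39.NormSideJ
import Fermat.Agent.Extra39.NormSideRed
import Fermat.Agent.RT.MazurP.Trivial.Main

/-!
# A relation of a new class lies in the one sided spaces

Let `f` have trivial reductions and norms to level `M` which are constants times `p`-th powers, and
`J ^ n x = z + π ^ k w` a relation between sections. Taking norms, the reductions of `w` lie in
`j ^ d H d + H d` on either side, `d` the side degree times `n`.
-/

set_option autoImplicit false
set_option synthInstance.maxHeartbeats 400000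
set_option maxHeartbeats 1000000
set_option linter.unusedSectionVars false

noncomputable section

namespace Fermat.Agent.Extra39

open ModularCurve AlgebraicCurve Fermat.Agent.Semistable Fermat.Agent.Arith
open Fermat.Agent.RT.Mazur Fermat.Agent.RT.MazurP

variable {A : ValuationSubring QBar} {p M : ℕ} [Fact p.Prime] [CharP (Res A) p] [NeZero M]
  {hpM : ¬ p ∣ M}

/-- The involution on the functions integral at both cusps. -/
def wLoc : loc2 A (iota2 M p hpM) →+* loc2 A (iota2 M p hpM) :=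
  (((wEquiv p M hpM).toAlgHom.toRingHom).comp (loc2 A (iota2 M p hpM)).subtype).codRestrict _
    fun x => by
      have h := (mem_loc2_iff M p hpM).mp x.2
      show wEquiv p M hpM (x : FB (p * M)) ∈ _
      rw [mem_loc2_iff, wEquiv_wEquiv]
      exact h.symm

theorem coe_wLoc (x : loc2 A (iota2 M p hpM)) :
    (wLoc x : FB (p * M)) = wEquiv p M hpM (x : FB (p * M)) := rfl

theorem red2_wLoc_zero (x : loc2 A (iota2 M p hpM)) :
    red2 A (iota2 M p hpM) (wLoc x) 0 = red2 A (iota2 M p hpM) x 1 := by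
  rw [red2_apply, red2_apply]
  exact redL_congr _ _ (by rw [iota2_zero, iota2_one, coe_wLoc])

theorem red2_wLoc_one (x : loc2 A (iota2 M p hpM)) :
    red2 A (iota2 M p hpM) (wLoc x) 1 = red2 A (iota2 M p hpM) x 0 := by
  rw [red2_apply, red2_apply]
  exact redL_congr _ _ (by rw [iota2_zero, iota2_one, coe_wLoc, wEquiv_wEquiv])

/-- Frobenius on constants. -/
theorem coeffMap_frobenius_const (β : Res A) :
    coeffMap (frobenius (Res A) p) (algebraMap (Res A) (LaurentSeries (Res A)) β) =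
      algebraMap (Res A) (LaurentSeries (Res A)) (β ^ p) := by
  rw [algebraMap_laurentSeries_eq_single, algebraMap_laurentSeries_eq_single, coeffMap_single,
    frobenius_def]

variable [FF.IsFunctionField (Res A) (KM A M)]

/-- **One side.** -/
theorem mem_side_of_norm (hA : A.LiesOverPrime p) {d e n : ℕ} (hde : e + d = (p + 1) * n)
    (hsup : ∀ P : loc2 A (iota1 M), (P : FB M) ∈ HM M ((p + 1) * n) →
      red1 A M P = jqModC (Res A) ^ ((p + 1) * n) → ∀ G : loc2 A (iota1 M),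
      (G : FB M) ∈ (HM M ((p + 1) * n)).map (LinearMap.mulLeft QBar (P : FB M)) ⊔
          HM M ((p + 1) * n) →
      red1 A M G ∈ (HkS A M ((p + 1) * n)).map (mulSer (jqModC (Res A) ^ ((p + 1) * n))) ⊔
        HkS A M ((p + 1) * n))
    (F J x z w : loc2 A (iota2 M p hpM)) {ε : A} (hε : (ε : QBar) ≠ 0)
    (hεr : IsLocalRing.residue A ε = 0) {β : Res A} (hβ : β ≠ 0)
    (hF : red2 A (iota2 M p hpM) F = 1)
    (hNF : ∃ (c : QBar) (g : FB M),
      NewformLocal.Toric.normUp p M (F : FB (p * M)) = algebraMap QBar (FB M) c * g ^ p)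
    (hJm : ∀ (y : FB (p * M)) (b : ℕ),
      y ∈ riemannRochSpace (b • FF.poles QBar (J : FB (p * M))) →
      NewformLocal.Toric.normUp p M y ∈ HM M ((p + 1) * b))
    (hJ0 : red2 A (iota2 M p hpM) (J ^ n) 0 = jqModC (Res A) ^ d)
    (hJ1 : red2 A (iota2 M p hpM) (J ^ n) 1 = jqModC (Res A) ^ e)
    (hx : (x : FB (p * M)) ^ p * (F : FB (p * M)) ∈
      riemannRochSpace ((p * n) • FF.poles QBar (J : FB (p * M))))
    (hz : (z : FB (p * M)) ^ p * (F : FB (p * M)) ∈
      riemannRochSpace ((p * n) • FF.poles QBar (J : FB (p * M))))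
    (rel : J ^ n * x = z + cst hpM ε * w)
    (hxr : ∀ s, red2 A (iota2 M p hpM) x s = algebraMap (Res A) _ β)
    (hz0 : red2 A (iota2 M p hpM) z 0 = algebraMap (Res A) _ β * jqModC (Res A) ^ d)
    (hz1 : red2 A (iota2 M p hpM) z 1 = algebraMap (Res A) _ β * jqModC (Res A) ^ e)
    (ht : red2 A (iota2 M p hpM) w 0 ∈ HkS A M (d + d)) :
    red2 A (iota2 M p hpM) w 0 ∈
      (HkS A M d).map (mulSer (jqModC (Res A) ^ d)) ⊔ HkS A M d := by
  have hp : p.Prime := Fact.out
  have hj : jqModC (Res A) ≠ 0 := fun h =>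
    Semistable.transcendental_jqModC (Res A) (h ▸ isAlgebraic_zero)
  set cβ := algebraMap (Res A) (LaurentSeries (Res A)) β with hcβ
  have hcβ0 : cβ ≠ 0 := (_root_.map_ne_zero _).mpr hβ
  have hzne : ∀ s, red2 A (iota2 M p hpM) z s ≠ 0 := by
    rw [Fin.forall_fin_two, hz0, hz1]
    exact ⟨mul_ne_zero hcβ0 (pow_ne_zero _ hj), mul_ne_zero hcβ0 (pow_ne_zero _ hj)⟩
  have hJne : ∀ s, red2 A (iota2 M p hpM) (J ^ n) s ≠ 0 := by
    rw [Fin.forall_fin_two, hJ0, hJ1]
    exact ⟨pow_ne_zero _ hj, pow_ne_zero _ hj⟩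
  -- the inverse of `z`
  obtain ⟨zi, hzi⟩ : ∃ zi : loc2 A (iota2 M p hpM), z * zi = 1 := by
    have hz0' : (z : FB (p * M)) ≠ 0 := fun h0 => hzne 0 (by
      rw [show z = 0 from Subtype.ext h0, map_zero]; rfl)
    obtain ⟨hzi', -⟩ := inv_mem_loc2 (iota2 M p hpM) z hzne
    exact ⟨⟨_, hzi'⟩, Subtype.ext (mul_inv_cancel₀ hz0')⟩
  set u := zi * w with hu
  have hsplit : J ^ n * x = z * (1 + cst hpM ε * u) := by
    rw [rel, hu, mul_add, mul_one]
    linear_combination (-(cst hpM ε * w)) * hzi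
  -- norms
  obtain ⟨NP, hNP, hNPr⟩ := normUp_red hA (J ^ n) hJne
  obtain ⟨Nx, hNx, hNxr⟩ := normUp_red hA x fun s => by rw [hxr]; exact hcβ0
  obtain ⟨Nz, hNz, hNzr⟩ := normUp_red hA z hzne
  obtain ⟨g, hg, hgr⟩ := exists_norm_root hA F hF hNF
  obtain ⟨T, hT, hTr⟩ := normUp_one_add hA u hε hεr
  have hfrobj : ∀ i : ℕ, coeffMap (frobenius (Res A) p) (jqModC (Res A) ^ i) =
      jqModC (Res A) ^ i := fun i => by
    rw [map_pow, coeffMap_jqModC]
  rw [hJ0, hJ1, hfrobj, ← pow_add, add_comm d e, hde] at hNPr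
  rw [hxr, hxr, coeffMap_frobenius_const] at hNxr
  rw [hz0, hz1, map_mul, hfrobj, coeffMap_frobenius_const] at hNzr
  have hPm : (NP : FB M) ∈ HM M ((p + 1) * n) := by
    rw [hNP]
    refine hJm _ _ (RedTorsion.mem_polesSpace.mpr fun v => FF.mem_ordGe_of_le v ?_)
    rw [SubmonoidClass.coe_pow, FF.ord_pow, FF.poles_apply]
    have := mul_le_mul_of_nonneg_left
      (show -(max 0 (-v.ord (J : FB (p * M)))) ≤ v.ord (J : FB (p * M)) by omega)
      (Int.natCast_nonneg n)
    linarith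
  have key : ∀ (y : loc2 A (iota2 M p hpM)) (Ny : loc2 A (iota1 M)),
      (Ny : FB M) = NewformLocal.Toric.normUp p M (y : FB (p * M)) →
      (y : FB (p * M)) ^ p * (F : FB (p * M)) ∈
        riemannRochSpace ((p * n) • FF.poles QBar (J : FB (p * M))) →
      ((Ny * g : loc2 A (iota1 M)) : FB M) ∈ HM M ((p + 1) * n) := by
    intro y Ny hNy hy
    refine root_mem_polesSpace hp.ne_zero ?_
    rw [Subring.coe_mul, mul_pow, hNy, ← hg, ← map_pow, ← map_mul,
      show p * ((p + 1) * n) = (p + 1) * (p * n) by ring]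
    exact hJm _ _ hy
  set X := Nx * g with hX
  set Z := Nz * g with hZ
  set G := Z * T with hG
  have hPX : (NP : FB M) * (X : FB M) =
      (Z : FB M) + algebraMap QBar (FB M) (ε : QBar) * (G : FB M) := by
    have h := congrArg (fun y : loc2 A (iota2 M p hpM) =>
      NewformLocal.Toric.normUp p M (y : FB (p * M))) hsplit
    simp only [Subring.coe_mul, Subring.coe_add, Subring.coe_one, map_mul, coe_cst, hT,
      ← hNP, ← hNx, ← hNz] at h
    simp only [hX, hG, hZ, Subring.coe_mul]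
    linear_combination (g : FB M) * h
  have hGmem : (G : FB M) ∈ (HM M ((p + 1) * n)).map (LinearMap.mulLeft QBar (NP : FB M)) ⊔
      HM M ((p + 1) * n) := by
    have e1 : (G : FB M) = (ε : QBar)⁻¹ • ((NP : FB M) * (X : FB M) - (Z : FB M)) := by
      rw [hPX, add_sub_cancel_left, Algebra.smul_def, ← mul_assoc, ← map_mul, inv_mul_cancel₀ hε,
        map_one, one_mul]
    rw [e1]
    exact Submodule.smul_mem _ _ (sub_mem (Submodule.mem_sup_left ⟨_, key x Nx hNx hx, rfl⟩)
      (Submodule.mem_sup_right (key z Nz hNz hz)))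
  -- the reduction
  set t := red2 A (iota2 M p hpM) w 0 with ht_def
  set cp := algebraMap (Res A) (LaurentSeries (Res A)) (β ^ p) with hcp
  have hziR : red2 A (iota2 M p hpM) z 0 * red2 A (iota2 M p hpM) zi 0 = 1 := by
    rw [← Pi.mul_apply, ← map_mul, hzi, map_one, Pi.one_apply]
  have hGr : red1 A M G = jqModC (Res A) ^ e * (cp * t) := by
    rw [hG, hZ, map_mul, map_mul, hgr, mul_one, hNzr, hTr, hu, map_mul, Pi.mul_apply]
    rw [hz0] at hziR
    linear_combination (cp * jqModC (Res A) ^ e * t) * hziR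
  have hmem := hsup NP hPm hNPr G hGmem
  rw [hGr, ← hde] at hmem
  obtain ⟨_, ⟨a, ha, rfl⟩, b, hb, hab⟩ := Submodule.mem_sup.mp hmem
  have hct : cp * t = β ^ p • t := by rw [hcp, Igusa.hsmul_eq]
  have hside := mem_side_of_relation (t := cp * t) (hct ▸ Submodule.smul_mem _ _ ht) ha hb hab
  rw [hct] at hside
  have := Submodule.smul_mem _ (β ^ p)⁻¹ hside
  rwa [smul_smul, inv_mul_cancel₀ (pow_ne_zero _ hβ), one_smul] at this

variable {C : CoefField A p} (K : Kum hpM C)

/-- The quotient of a relation has reductions of pole bound twice the side degree times `n`. -/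
theorem red2_w_mem_HkS (hfb : ∀ s, K.fb s = 1) (hv : K.v = 0) (hA : A.LiesOverPrime p)
    (hM : (M : Res A) ≠ 0) {n k : ℕ} (R : Rel K n k) (s : Fin 2) :
    red2 A (iota2 M p hpM) R.w s ∈ HkS A M (sideDeg p s * n + sideDeg p s * n) := by
  have hp : p.Prime := Fact.out
  set F : loc2 A (iota2 M p hpM) := ⟨K.f, K.f_mem hfb hv⟩ with hFdef
  have hw : ((R.w ^ p * F : loc2 A (iota2 M p hpM)) : FB (p * M)) ∈ HN M p (p * (n + n)) := by
    rw [Subring.coe_mul, SubmonoidClass.coe_pow]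
    refine K.mem_V.mp ?_
    have e := congrArg Subtype.val R.rel
    push_cast [coe_cst] at e
    have e1 : (R.w : FB (p * M)) = (C.π ^ k)⁻¹ •
        ((Jp A hpM : FB (p * M)) ^ n * (R.x : FB (p * M)) - (R.z : FB (p * M))) := by
      rw [e, add_sub_cancel_left, Algebra.smul_def, ← mul_assoc, ← map_pow, ← map_mul,
        inv_mul_cancel₀ (pow_ne_zero k C.π_ne_zero), map_one, one_mul]
    rw [e1]
    refine Submodule.smul_mem _ _ (sub_mem (K.mem_V.mpr ?_) (K.mem_V.mpr ?_))
    · rw [mul_pow, mul_assoc, ← pow_mul, mul_comm n p, mul_add]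
      exact mul_mem_polesSpace (Jp_pow_mem_HN _) (K.mem_V.mp R.x_mem)
    · exact RedTorsion.polesSpace_mono (Nat.mul_le_mul_left _ (Nat.le_add_right _ _))
        (K.mem_V.mp R.z_mem)
  have h := red2_mem_Pk M p hpM hA hM hw
  rw [Pk, Submodule.mem_pi] at h
  have h' := h s trivial
  rw [map_mul, map_pow, hFdef, K.red2_f hfb hv, mul_one, Pi.pow_apply] at h'
  have hK := red2_mem_KM M p hpM hM R.w s
  refine (mem_HkS A M).mpr ⟨hK, root_mem_polesSpace hp.ne_zero ?_⟩
  rw [show p * (sideDeg p s * n + sideDeg p s * n) = sideDeg p s * (p * (n + n)) by ring]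
  exact coe_mem_HkS.mp (by rw [IntermediateField.coe_pow]; exact h')

/-- **The reductions of the quotient of a relation lie in the one sided spaces.** -/
theorem exists_mem_SideSB (hA : A.LiesOverPrime p) (hM : (M : Res A) ≠ 0) (h4 : 4 ∣ M)
    (hfb : ∀ s, K.fb s = 1) (hv : K.v = 0) (hN : NormsArePowers hpM K.f) :
    ∃ n₀ : ℕ, ∀ n, n₀ ≤ n → ∀ k, 1 ≤ k → ∀ (R : Rel K n k) (s : Fin 2),
      red2 A (iota2 M p hpM) R.w s ∈ SideSB A p M n s := by
  have hp : p.Prime := Fact.out
  obtain ⟨n₀, hn₀⟩ := exists_red1_sup (p := p) hA hM (goodM_of_dvd (A := A) (Or.inl rfl) h4 hM)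
  refine ⟨n₀, fun n hn k hk R s => ?_⟩
  have hsup := hn₀ ((p + 1) * n) (hn.trans (Nat.le_mul_of_pos_left n p.succ_pos))
  set εA : A := ⟨C.π ^ k, pow_mem (mem_of_mem_nonunits C.π_nonunit) k⟩ with hεA
  have hε : (εA : QBar) ≠ 0 := pow_ne_zero k C.π_ne_zero
  have hεr : IsLocalRing.residue A εA = 0 := by
    rw [show εA = (⟨C.π, mem_of_mem_nonunits C.π_nonunit⟩ : A) ^ k from rfl, map_pow,
      (IsLocalRing.residue_eq_zero_iff _).mpr
        (ValuationSubring.coe_mem_nonunits_iff.mp C.π_nonunit), zero_pow (by omega)]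
  set F : loc2 A (iota2 M p hpM) := ⟨K.f, K.f_mem hfb hv⟩ with hFdef
  have hFr : red2 A (iota2 M p hpM) F = 1 := K.red2_f hfb hv
  have hj1 : qExpand (Res A) p (jqModC (Res A)) ^ n = jqModC (Res A) ^ (p * n) := by
    rw [← pow_eq_qExpand_gen_one, ← pow_mul]
  have hxs : ∀ t, red2 A (iota2 M p hpM) R.x t = algebraMap (Res A) _ R.β := fun t => by
    rw [R.red_x, Pi.smul_apply, Pi.one_apply, Igusa.hsmul_eq, mul_one]
  have hzs : ∀ t, red2 A (iota2 M p hpM) R.z t = algebraMap (Res A) _ R.β * jPow A p n t :=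
    fun t => by rw [R.red_z, Pi.smul_apply, Igusa.hsmul_eq]
  have hJs : ∀ t, red2 A (iota2 M p hpM) (Jp A hpM ^ n) t = jPow A p n t :=
    fun t => by rw [red2_Jp_pow]
  have hz0 : jPow A p n 0 = jqModC (Res A) ^ n := rfl
  have hz1 : jPow A p n 1 = jqModC (Res A) ^ (p * n) := hj1
  have htb := red2_w_mem_HkS K hfb hv hA hM R s
  fin_cases s
  · show red2 A (iota2 M p hpM) R.w 0 ∈ (HkS A M (sideDeg p 0 * n)).map (mulSer (jPow A p n 0)) ⊔ HkS A M (sideDeg p 0 * n)
    rw [show sideDeg p 0 * n = n from one_mul n, hz0]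
    refine mem_side_of_norm hA (e := p * n) (by ring) hsup F (Jp A hpM) R.x R.z R.w hε hεr R.β_ne
      hFr hN.1 (fun y b hy => normUp_mem_HM_up hpM hy) (by rw [hJs, hz0]) (by rw [hJs, hz1])
      (K.mem_V.mp R.x_mem) (K.mem_V.mp R.z_mem) R.rel hxs (by rw [hzs, hz0]) (by rw [hzs, hz1]) ?_
    simpa [sideDeg] using htb
  · show red2 A (iota2 M p hpM) R.w 1 ∈ (HkS A M (sideDeg p 1 * n)).map (mulSer (jPow A p n 1)) ⊔ HkS A M (sideDeg p 1 * n)
    rw [show sideDeg p 1 * n = p * n from rfl, hz1, ← red2_wLoc_zero]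
    have hV : ∀ y : loc2 A (iota2 M p hpM), (y : FB (p * M)) ∈ K.V n →
        (wLoc y : FB (p * M)) ^ p * (wLoc F : FB (p * M)) ∈
          riemannRochSpace ((p * n) • FF.poles QBar (wLoc (Jp A hpM) : FB (p * M))) := by
      intro y hy
      rw [coe_wLoc, coe_wLoc, coe_wLoc, coe_Jp, wEquiv_upF, ← map_pow, ← map_mul]
      exact wEquiv_mem_poles_downF hpM (K.mem_V.mp hy)
    refine mem_side_of_norm hA (e := n) (by ring) hsup (wLoc F) (wLoc (Jp A hpM)) (wLoc R.x)
      (wLoc R.z) (wLoc R.w) hε hεr R.β_ne ?_ hN.2 ?_ ?_ ?_ (hV _ R.x_mem) (hV _ R.z_mem) ?_ ?_ ?_ ?_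
      ?_
    · funext t
      fin_cases t
      · exact (red2_wLoc_zero F).trans (congrFun hFr 1)
      · exact (red2_wLoc_one F).trans (congrFun hFr 0)
    · intro y b hy
      rw [coe_wLoc, coe_Jp, wEquiv_upF] at hy
      exact normUp_mem_HM_down hpM hy
    · rw [← map_pow, red2_wLoc_zero, hJs, hz1]
    · rw [← map_pow, red2_wLoc_one, hJs, hz0]
    · have e := congrArg (wLoc (A := A) (hpM := hpM)) R.rel
      rw [map_mul, map_add, map_mul, map_pow] at e
      rwa [show wLoc (cst hpM εA) = cst hpM εA from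
        Subtype.ext ((wEquiv p M hpM).commutes (εA : QBar))] at e
    · intro t
      fin_cases t
      · exact (red2_wLoc_zero R.x).trans (hxs 1)
      · exact (red2_wLoc_one R.x).trans (hxs 0)
    · rw [red2_wLoc_zero, hzs, hz1]
    · rw [red2_wLoc_one, hzs, hz0]
    · rw [red2_wLoc_zero]
      simpa [sideDeg] using htb

end Fermat.Agent.Extra39

end
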