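import Fermat.Agent.Extra39.Basic

/-!
# The toric part sees `p`-th powers

If `t` is a reduction of level `2 n` lying on either side in `j ^ d H d + H d`, and `t ^ p` lies in
`J ^ (n p) B + B`, then `t` lies in `J ^ n B + B`: the defects at the meeting points of the two
summands of `t` are constant as soon as their `p`-th powers are.
-/

set_option autoImplicit false
set_option synthInstance.maxHeartbeats 400000
set_option maxHeartbeats 1000000
set_option linter.unusedSectionVars false

noncomputable section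

namespace Fermat.Agent.Extra39

open ModularCurve AlgebraicCurve Fermat.Agent.Semistable Fermat.Agent.Arith
open Fermat.Agent.RT.Mazur Fermat.Agent.RT.MazurP

variable {A : ValuationSubring QBar} {p M : ℕ} [Fact p.Prime] [CharP (Res A) p] [NeZero M]
variable [FF.IsFunctionField (Res A) (KM A M)]

/-- The only functions with no poles are constants. -/
theorem exists_const_of_mem_HkS_zero {z : LaurentSeries (Res A)} (hz : z ∈ HkS A M 0) :
    ∃ b : Res A, z = algebraMap (Res A) (LaurentSeries (Res A)) b := by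
  have := Arith.residueField_isAlgClosed A
  obtain ⟨hz0, hz'⟩ := (mem_HkS A M).mp hz
  have h1 : Module.finrank (Res A) (riemannRochSpace (0 : Divisor (Res A) (KM A M))) = 1 := by
    have := FF.ell_zero (K := Res A) (F := KM A M)
    simp only [FF.ell] at this
    exact_mod_cast this
  have hone : (1 : KM A M) ∈ riemannRochSpace (0 : Divisor (Res A) (KM A M)) := by
    have := one_mem_polesSpace (K := Res A) (jK A M) 0
    rwa [zero_nsmul] at this
  rw [Hk, zero_nsmul] at hz'
  obtain ⟨b, hb⟩ := exists_smul_eq_of_finrank_eq_one h1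
    (x := (⟨1, hone⟩ : riemannRochSpace (0 : Divisor (Res A) (KM A M))))
    (fun e => one_ne_zero (congrArg Subtype.val e)) ⟨_, hz'⟩
  refine ⟨b, ?_⟩
  have e := congrArg (fun x : riemannRochSpace (0 : Divisor (Res A) (KM A M)) => (x : KM A M)) hb
  simp only [Submodule.coe_smul] at e
  rw [← Algebra.algebraMap_eq_smul_one] at e
  exact (congrArg Subtype.val e).symm

/-- Powers of bounded pairs. -/
theorem pow_mem_Pk {a : ℕ} {r : Fin 2 → LaurentSeries (Res A)} (hr : r ∈ Pk A M p a) (i : ℕ) :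
    r ^ i ∈ Pk A M p (a * i) := by
  induction i with
  | zero =>
    rw [Nat.mul_zero, pow_zero, mem_Pk]
    simpa using coe_mem_HkS.mpr (one_mem_polesSpace (K := Res A) (jK A M) 0)
  | succ i ih => rw [pow_succ, Nat.mul_succ]; exact mul_mem_Pk ih hr

/-- **The toric part sees `p`-th powers.** -/
theorem exists_mem_SB_of_pow (h : Setup A M p) :
    ∃ n₀ : ℕ, ∀ n, n₀ ≤ n → ∀ t ∈ Bn A M p h.hqM (n + n), (∀ s, t s ∈ SideSB A p M n s) →
      t ^ p ∈ SB A h.hqM (n * p) → t ∈ SB A h.hqM n := by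
  classical
  have := Arith.residueField_isAlgClosed A
  have hp : p.Prime := Fact.out
  obtain ⟨n₁, hn₁⟩ := h.exists_glued
  refine ⟨n₁, fun n hn t htB hside htp => ?_⟩
  set J₀ : Rk A M := ⟨jK A M ^ n, n, jK_pow_mem_Hk n⟩ with hJ₀
  set J₁ := qR A M p J₀ with hJ₁
  have hj0 : serR A M J₀ = jPow A p n 0 :=
    show ((jK A M ^ n : KM A M) : LaurentSeries (Res A)) = _ by
      rw [jPow_apply (M := M)]; simp [sideDeg]
  have hj1 : serR A M J₁ = jPow A p n 1 := by
    rw [hJ₁, serR_qR, hj0]
    simp [jPow]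
  -- membership of pairs in the reductions
  have hmem : ∀ (m : ℕ), n₁ ≤ m → ∀ a b : Rk A M, ![serR A M a, serR A M b] ∈ Bn A M p h.hqM m →
      ∀ χ, ptEv h χ b = ptEv h (twist h χ) a := by
    intro m hm a b hab χ
    rw [← (hn₁ m hm).2, h.mem_glued] at hab
    obtain ⟨a', b', -, -, e, hc⟩ := hab
    obtain rfl : a = a' := serR_injective (by simpa using congrFun e 0)
    obtain rfl : b = b' := serR_injective (by simpa using congrFun e 1)
    simpa using hc χ
  -- the two summands of `t`
  have hsplit : ∀ s, ∃ a b : Rk A M, (a : KM A M) ∈ Hk A M (sideDeg p s * n) ∧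
      (b : KM A M) ∈ Hk A M (sideDeg p s * n) ∧
      t s = jPow A p n s * serR A M a + serR A M b := by
    intro s
    obtain ⟨_, ⟨x, hx, rfl⟩, y, hy, e⟩ := Submodule.mem_sup.mp (hside s)
    obtain ⟨a, ha, ha'⟩ := exists_serR hx
    obtain ⟨b, hb, hb'⟩ := exists_serR hy
    exact ⟨a, b, ha', hb', by rw [ha, hb, ← e, mulSer_apply]⟩
  choose a b ha hb ht using hsplit
  have hA0 : (a 0 : KM A M) ∈ Hk A M n := by simpa [sideDeg] using ha 0
  have hB0 : (b 0 : KM A M) ∈ Hk A M n := by simpa [sideDeg] using hb 0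
  have hA1 : (a 1 : KM A M) ∈ Hk A M (p * n) := by simpa [sideDeg] using ha 1
  have hB1 : (b 1 : KM A M) ∈ Hk A M (p * n) := by simpa [sideDeg] using hb 1
  set α : Fin 2 → LaurentSeries (Res A) := ![serR A M (a 0), serR A M (a 1)] with hα
  set β : Fin 2 → LaurentSeries (Res A) := ![serR A M (b 0), serR A M (b 1)] with hβ
  have hαP : α ∈ Pk A M p n :=
    (mem_Pk A M).mpr ⟨coe_mem_HkS.mpr hA0, coe_mem_HkS.mpr hA1⟩
  have hβP : β ∈ Pk A M p n :=
    (mem_Pk A M).mpr ⟨coe_mem_HkS.mpr hB0, coe_mem_HkS.mpr hB1⟩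
  have htαβ : t = jPow A p n * α + β := by
    funext s; fin_cases s <;> simp [hα, hβ, ht]
  -- the defects
  set γ : Pt h → Res A := fun χ => ptEv h χ (a 1) - ptEv h (twist h χ) (a 0) with hγ
  have hδ : ∀ χ, ptEv h χ (b 1) - ptEv h (twist h χ) (b 0) = -(ptEv h χ J₁ * γ χ) := by
    intro χ
    have e : t = ![serR A M (J₀ * a 0 + b 0), serR A M (J₁ * a 1 + b 1)] := by
      funext s; fin_cases s <;> simp [ht, map_add, map_mul, hj0, hj1]
    have := hmem (n + n) (by omega) _ _ (e ▸ htB) χ
    rw [map_add, map_add, map_mul, map_mul, h.ptEv_twist χ J₀, ← hJ₁] at this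
    rw [hγ]
    linear_combination this
  obtain ⟨_, ⟨r, hr, rfl⟩, r', hr', hsum⟩ := Submodule.mem_sup.mp htp
  have hsum' : jPow A p (n * p) * r + r' = t ^ p := hsum
  have key : jPow A p (n * p) * (α ^ p - r) = r' - β ^ p := by
    have e : t ^ p = jPow A p (n * p) * α ^ p + β ^ p := by
      rw [htαβ, jPow_mul]
      funext s
      simp only [Pi.pow_apply, Pi.add_apply, Pi.mul_apply]
      have : CharP (LaurentSeries (Res A)) p :=
        charP_of_injective_algebraMap (algebraMap (Res A) (LaurentSeries (Res A))).injective p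
      rw [add_pow_char, mul_pow]
    linear_combination -1 * e - hsum'
  have h0 : α ^ p - r ∈ Pk A M p 0 :=
    cancel_jPow (sub_mem (pow_mem_Pk hαP p) (Bn_le_Pk M p h.hqM h.hA h.hM _ hr))
      (key ▸ sub_mem (Bn_le_Pk M p h.hqM h.hA h.hM _ hr') (pow_mem_Pk hβP p)) (by omega)
  rw [mem_Pk, mul_zero] at h0
  obtain ⟨c₀, hc₀⟩ := exists_const_of_mem_HkS_zero h0.1
  obtain ⟨c₁, hc₁⟩ := exists_const_of_mem_HkS_zero h0.2
  have hr_eq : r = ![serR A M (a 0 ^ p - algebraMap (Res A) (Rk A M) c₀),
      serR A M (a 1 ^ p - algebraMap (Res A) (Rk A M) c₁)] := by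
    have hser : ∀ c : Res A, serR A M (algebraMap (Res A) (Rk A M) c) =
        algebraMap (Res A) (LaurentSeries (Res A)) c := fun c => rfl
    funext s
    fin_cases s
    · simp only [Fin.zero_eta, Matrix.cons_val_zero, map_sub, map_pow, hser, ← hc₀]
      simp [hα]
    · simp only [Fin.mk_one, Matrix.cons_val_one, Matrix.cons_val_fin_one, map_sub, map_pow, hser,
        ← hc₁]
      simp [hα]
  have hn' : n₁ ≤ n * p := hn.trans (Nat.le_mul_of_pos_right n hp.pos)
  obtain ⟨ε, hε⟩ := IsAlgClosed.exists_pow_nat_eq (c₁ - c₀) hp.pos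
  have hγc : ∀ χ, γ χ = ε := fun χ => by
    have h1 := hmem (n * p) hn' _ _ (hr_eq ▸ hr) χ
    rw [map_sub, map_sub, map_pow, map_pow, AlgHom.commutes, AlgHom.commutes,
      Algebra.algebraMap_self, RingHom.id_apply, RingHom.id_apply] at h1
    refine frobenius_inj (Res A) p ?_
    rw [frobenius_def, frobenius_def, hε, hγ, sub_pow_char]
    linear_combination h1
  -- adjusting by the constant
  set e' := algebraMap (Res A) (Rk A M) ε with he'
  have hserε : serR A M e' = algebraMap (Res A) (LaurentSeries (Res A)) ε := rfl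
  have hε0 : (e' : KM A M) ∈ Hk A M (p * n) := by
    refine RedTorsion.polesSpace_mono (Nat.zero_le _) ?_
    show algebraMap (Res A) (KM A M) ε ∈ _
    rw [Algebra.algebraMap_eq_smul_one]
    exact Submodule.smul_mem _ _ (one_mem_polesSpace _ _)
  have hJε : ((J₁ * e' : Rk A M) : KM A M) ∈ Hk A M (p * n) := by
    rw [mul_comm J₁, he', ← Algebra.smul_def]
    exact Submodule.smul_mem _ ε (qK_mem_Hk (jK_pow_mem_Hk n))
  have hglue : ∀ x y : Rk A M, (x : KM A M) ∈ Hk A M n → (y : KM A M) ∈ Hk A M (p * n) →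
      (∀ χ, ptEv h χ y = ptEv h (twist h χ) x) →
      ![serR A M x, serR A M y] ∈ Bn A M p h.hqM n := fun x y hx hy hχ => by
    rw [← (hn₁ n hn).2, h.mem_glued]
    exact ⟨x, y, hx, hy, rfl, fun χ => by simpa using hχ χ⟩
  have hev : ∀ χ, ptEv h χ e' = ε := fun χ => by
    rw [he', AlgHom.commutes, Algebra.algebraMap_self, RingHom.id_apply]
  refine Submodule.mem_sup.mpr ⟨_, ⟨![serR A M (a 0), serR A M (a 1 - e')],
    hglue _ _ hA0 (sub_mem hA1 hε0) fun χ => ?_, rfl⟩,
    ![serR A M (b 0), serR A M (b 1 + J₁ * e')],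
    hglue _ _ hB0 (add_mem hB1 hJε) fun χ => ?_, ?_⟩
  · rw [map_sub, hev]
    linear_combination hγc χ
  · rw [map_add, map_mul, hev]
    linear_combination hδ χ - ptEv h χ J₁ * hγc χ
  · funext s
    show jPow A p n s * _ + _ = t s
    fin_cases s
    · simp [ht]
    · simp [ht, map_add, map_mul, hj1, hserε]
      ring

end Fermat.Agent.Extra39

end
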