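import Fermat.Agent.Extra39.Rel
import Fermat.Agent.Extra39.ToricPow
import Fermat.Agent.Extra39.NormSide
import Fermat.Agent.RT.MazurP.LocalE
import Fermat.Agent.Semistable.LocalTheory

/-!
# Classes with trivial reductions which are new at `p` are of multiplicative type

Let `f` have trivial reductions and norms to level `M` which are `p`-th powers. Either `f` is
trivial or `p - 1` divides `e`, and then inertia normalising the coefficient field acts on the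
class through the cyclotomic character: the deepest relation is multiplied by that character.
-/

set_option autoImplicit false
set_option synthInstance.maxHeartbeats 400000
set_option maxHeartbeats 1000000
set_option linter.unusedSectionVars false

noncomputable section

namespace Fermat.Agent.Extra39

open ModularCurve AlgebraicCurve Fermat.Agent.Semistable Fermat.Agent.Arith
open Fermat.Agent.RT.Mazur Fermat.Agent.RT.MazurP Fermat.Agent.EC.Rep

variable {A : ValuationSubring QBar} {p M : ℕ} [Fact p.Prime] [CharP (Res A) p] [NeZero M]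
variable [FF.IsFunctionField (Res A) (KM A M)] {hpM : ¬ p ∣ M} {C : CoefField A p}

/-- An element of inertia does not change the reductions. -/
theorem exists_red2_galF {τ : GQ} (hτ : τ ∈ A.inertiaSubgroupIn ℚ)
    (x : loc2 A (iota2 M p hpM)) :
    ∃ h : galF (p * M) τ (x : FB (p * M)) ∈ loc2 A (iota2 M p hpM),
      red2 A (iota2 M p hpM) ⟨_, h⟩ = red2 A (iota2 M p hpM) x := by
  have key : ∀ s, ∃ h : iota2 M p hpM s (galF (p * M) τ (x : FB (p * M))) ∈ locS A,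
      redL A ⟨_, h⟩ = red2 A (iota2 M p hpM) x s := fun s => by
    obtain ⟨h, e⟩ := (isInertial_of_mem hτ).coeffMap_mem_locS ((mem_loc2 _).mp x.2 s)
    have h' : iota2 M p hpM s (galF (p * M) τ (x : FB (p * M))) ∈ locS A := by
      rw [iota2_galF]; exact h
    exact ⟨h', by rw [redL_congr h' h (iota2_galF hpM τ s _), e, red2_apply]⟩
  refine ⟨(mem_loc2 _).mpr fun s => (key s).1, funext fun s => ?_⟩
  obtain ⟨h, e⟩ := key s
  rw [red2_apply]
  exact e

/-- A fixed integral function with reductions one and divisor divisible by `p` is a Kummer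
datum with trivial reductions. -/
theorem Kum.exists_ofRedOne (F : loc2 A (iota2 M p hpM)) (hF : (F : FB (p * M)) ≠ 0)
    (hdvd : ∀ v : Place QBar (FB (p * M)), (p : ℤ) ∣ v.ord (F : FB (p * M)))
    (hfix : ∀ τ ∈ C.H, galF (p * M) τ (F : FB (p * M)) = F)
    (hred : red2 A (iota2 M p hpM) F = 1) :
    ∃ K : Kum hpM C, K.f = F ∧ (∀ s, K.fb s = 1) ∧ K.v = 0 := by
  refine ⟨⟨F, hF, hdvd, hfix, 0, fun _ => 1, fun _ => one_ne_zero, fun s => ?_⟩,
    rfl, fun _ => rfl, rfl⟩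
  have h : algebraMap QBar LSer (C.π ^ (-(0 : Fin 2 → ℤ) s)) * iota2 M p hpM s (F : FB (p * M)) ∈
      locS A := by
    rw [Pi.zero_apply, neg_zero, zpow_zero, map_one, one_mul]
    exact (mem_loc2 _).mp F.2 s
  refine ⟨h, ?_⟩
  rw [redL_congr h ((mem_loc2 _).mp F.2 s)
    (by rw [Pi.zero_apply, neg_zero, zpow_zero, map_one, one_mul]), ← red2_apply, hred]
  rfl

/-- The product of two data with trivial reductions. -/
theorem Kum.exists_mul (K₁ K₂ : Kum hpM C) (h₁ : ∀ s, K₁.fb s = 1) (h₁' : K₁.v = 0)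
    (h₂ : ∀ s, K₂.fb s = 1) (h₂' : K₂.v = 0) :
    ∃ K : Kum hpM C, K.f = K₁.f * K₂.f ∧ (∀ s, K.fb s = 1) ∧ K.v = 0 := by
  refine Kum.exists_ofRedOne
    ((⟨K₁.f, K₁.f_mem h₁ h₁'⟩ : loc2 A (iota2 M p hpM)) * ⟨K₂.f, K₂.f_mem h₂ h₂'⟩)
    (mul_ne_zero K₁.f_ne K₂.f_ne) (fun v => ?_) (fun τ hτ => ?_) ?_
  · show (p : ℤ) ∣ v.ord (K₁.f * K₂.f)
    rw [v.ord_mul K₁.f_ne K₂.f_ne]
    exact dvd_add (K₁.dvd v) (K₂.dvd v)
  · show galF (p * M) τ (K₁.f * K₂.f) = K₁.f * K₂.f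
    rw [map_mul, K₁.fix τ hτ, K₂.fix τ hτ]
  · rw [map_mul, K₁.red2_f h₁ h₁', K₂.red2_f h₂ h₂', one_mul]

theorem galF_conj_fix {H : Subgroup GQ} {τ : GQ} (hnorm : ∀ h ∈ H, τ⁻¹ * h * τ ∈ H)
    {x : FB (p * M)} (hx : ∀ h ∈ H, galF (p * M) h x = x) {h : GQ} (hh : h ∈ H) :
    galF (p * M) h (galF (p * M) τ x) = galF (p * M) τ x := by
  conv_rhs => rw [← hx _ (hnorm h hh)]
  apply Subtype.ext
  simp only [coe_arithmeticRingAut, coeffMap_coeffMap]
  congr 2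
  ext z
  simp [AlgEquiv.mul_apply]

/-- The conjugate by an element of inertia normalising the coefficient field. -/
theorem Kum.exists_conj (K : Kum hpM C) (hfb : ∀ s, K.fb s = 1) (hv : K.v = 0) {τ : GQ}
    (hτ : τ ∈ A.inertiaSubgroupIn ℚ) (hnorm : ∀ h ∈ C.H, τ⁻¹ * h * τ ∈ C.H) :
    ∃ K' : Kum hpM C, K'.f = galF (p * M) τ K.f ∧ (∀ s, K'.fb s = 1) ∧ K'.v = 0 := by
  obtain ⟨h, e⟩ := exists_red2_galF hτ ⟨K.f, K.f_mem hfb hv⟩
  refine Kum.exists_ofRedOne ⟨_, h⟩ ((_root_.map_ne_zero _).mpr K.f_ne) (fun v => ?_)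
    (fun σ hσ => galF_conj_fix hnorm K.fix hσ) (by rw [e, K.red2_f hfb hv])
  show (p : ℤ) ∣ v.ord (galF (p * M) τ K.f)
  rw [ord_galF τ (D := K.D) (m := p) (fun w => (K.D_mul w).symm) v]
  exact dvd_mul_right _ _

variable {n m k : ℕ}

/-- Relations multiply. -/
theorem Rel.exists_mul {K₁ K₂ K : Kum hpM C} (hK : K.f = K₁.f * K₂.f) (hk : 1 ≤ k)
    (R₁ : Rel K₁ n k) (R₂ : Rel K₂ m k) :
    ∃ R : Rel K (n + m) k, R.β = R₁.β * R₂.β ∧
      red2 A (iota2 M p hpM) R.w =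
        R₂.β • (red2 A (iota2 M p hpM) R₁.w * jPow A p m) +
          R₁.β • (red2 A (iota2 M p hpM) R₂.w * jPow A p n) := by
  set πk := cst hpM ⟨C.π ^ k, pow_mem (mem_of_mem_nonunits C.π_nonunit) k⟩ with hπk
  have hπfix : ∀ τ ∈ C.H, galF (p * M) τ (πk : FB (p * M)) = πk := fun τ hτ => by
    rw [hπk, coe_cst]
    exact galF_const (by rw [map_pow, C.π_fixed τ hτ])
  have hmemV : ∀ (a b : FB (p * M)) (u v : ℕ), a ∈ K₁.V u → b ∈ K₂.V v →
      a * b ∈ K.V (u + v) := fun a b u v ha hb => by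
    rw [Kum.mem_V] at ha hb ⊢
    rw [mul_pow, hK, mul_add, mul_mul_mul_comm]
    exact mul_mem_polesSpace ha hb
  refine ⟨⟨R₁.β * R₂.β, mul_ne_zero R₁.β_ne R₂.β_ne, R₁.x * R₂.x, R₁.z * R₂.z,
    R₁.w * R₂.z + R₁.z * R₂.w + πk * (R₁.w * R₂.w), hmemV _ _ _ _ R₁.x_mem R₂.x_mem,
    hmemV _ _ _ _ R₁.z_mem R₂.z_mem, fun τ hτ => ?_, fun τ hτ => ?_, fun τ hτ => ?_, ?_, ?_, ?_⟩,
    rfl, ?_⟩
  · push_cast
    rw [map_mul, R₁.x_fix τ hτ, R₂.x_fix τ hτ]
  · push_cast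
    rw [map_mul, R₁.z_fix τ hτ, R₂.z_fix τ hτ]
  · push_cast
    simp only [map_add, map_mul, R₁.w_fix τ hτ, R₁.z_fix τ hτ, R₂.w_fix τ hτ, R₂.z_fix τ hτ,
      hπfix τ hτ]
  · have e1 := R₁.rel
    have e2 := R₂.rel
    rw [← hπk] at e1 e2 ⊢
    rw [pow_add, mul_mul_mul_comm, e1, e2]
    ring
  · rw [map_mul, R₁.red_x, R₂.red_x, pi_smul_mul, mul_pi_smul, one_mul, smul_smul]
  · rw [map_mul, R₁.red_z, R₂.red_z, pi_smul_mul, mul_pi_smul, smul_smul, jPow_add]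
  · show red2 A (iota2 M p hpM)
      (R₁.w * R₂.z + R₁.z * R₂.w + πk * (R₁.w * R₂.w)) = _
    rw [map_add, map_add, map_mul, map_mul, hπk, red2_cst_mul, residue_π_pow hk, zero_smul,
      add_zero, R₁.red_z, R₂.red_z, mul_pi_smul, pi_smul_mul, mul_comm (jPow A p n)]

/-- A relation for a power, the quotient being multiplied by the exponent. -/
theorem Rel.exists_pow {K : Kum hpM C} (hfb : ∀ s, K.fb s = 1) (hv : K.v = 0) (hk : 1 ≤ k)
    (R : Rel K n k) (b : ℕ) :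
    ∃ (K' : Kum hpM C) (R' : Rel K' (n * (b + 1)) k), K'.f = K.f ^ (b + 1) ∧
      (∀ s, K'.fb s = 1) ∧ K'.v = 0 ∧ R'.β = R.β ^ (b + 1) ∧
      red2 A (iota2 M p hpM) R'.w =
        ((b + 1 : ℕ) : Res A) • R.β ^ b • (red2 A (iota2 M p hpM) R.w * jPow A p (n * b)) := by
  induction b with
  | zero =>
    refine ⟨K, ?_⟩
    rw [show n * (0 + 1) = n by ring]
    refine ⟨R, (pow_one _).symm, hfb, hv, (pow_one _).symm, ?_⟩
    rw [Nat.mul_zero, show jPow A p 0 = (1 : Fin 2 → LaurentSeries (Res A)) from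
      funext fun s => by fin_cases s <;> simp [jPow], mul_one]
    simp
  | succ b ih =>
    obtain ⟨K', R', hK', hfb', hv', hβ', hw'⟩ := ih
    obtain ⟨K'', hK'', hfb'', hv''⟩ := Kum.exists_mul K' K hfb' hv' hfb hv
    obtain ⟨R'', hβ'', hw''⟩ := R'.exists_mul hK'' hk R
    refine ⟨K'', ?_⟩
    rw [show n * (b + 1 + 1) = n * (b + 1) + n by ring]
    refine ⟨R'', by rw [hK'', hK', ← pow_succ], hfb'', hv'', by rw [hβ'', hβ', ← pow_succ], ?_⟩
    rw [hw'', hw', hβ', show n * (b + 1) = n * b + n by ring, jPow_add]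
    funext s
    simp only [Pi.add_apply, Pi.smul_apply, Pi.mul_apply, Igusa.hsmul_eq, map_natCast, map_pow]
    push_cast
    ring

/-- The relation of a conjugate. -/
theorem Rel.exists_conj {K K' : Kum hpM C} {τ : GQ} (hτ : τ ∈ A.inertiaSubgroupIn ℚ)
    (hnorm : ∀ h ∈ C.H, τ⁻¹ * h * τ ∈ C.H) (hK' : K'.f = galF (p * M) τ K.f) (R : Rel K n k)
    {ρ : A} (hρ : τ C.π ^ k = C.π ^ k * (ρ : QBar)) :
    ∃ R' : Rel K' n k, R'.β = R.β ∧
      red2 A (iota2 M p hpM) R'.w = IsLocalRing.residue A ρ • red2 A (iota2 M p hpM) R.w := by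
  have hρfix : ∀ h ∈ C.H, h (ρ : QBar) = ρ := fun h hh => by
    have hπk : C.π ^ k ≠ 0 := pow_ne_zero _ C.π_ne_zero
    have e : (ρ : QBar) = τ (C.π ^ k) / C.π ^ k := by
      rw [map_pow, hρ, mul_div_cancel_left₀ _ hπk]
    have e2 : h (τ C.π) = τ C.π := by
      have := C.π_fixed _ (hnorm h hh)
      rw [AlgEquiv.mul_apply, AlgEquiv.mul_apply] at this
      have e3 := congrArg τ this
      rwa [← AlgEquiv.mul_apply τ, mul_inv_cancel, AlgEquiv.one_apply] at e3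
    rw [e, map_div₀, map_pow, map_pow, map_pow, e2, C.π_fixed h hh]
  obtain ⟨hx, ex⟩ := exists_red2_galF hτ R.x
  obtain ⟨hz, ez⟩ := exists_red2_galF hτ R.z
  obtain ⟨hw, ew⟩ := exists_red2_galF hτ R.w
  have hmemV : ∀ a, a ∈ K.V n → galF (p * M) τ a ∈ K'.V n := fun a ha => by
    rw [Kum.mem_V] at ha ⊢
    rw [hK', ← map_pow, ← map_mul]
    exact galF_mem_poles (p * M) (by rw [galF_upF, galF_jM]) ha
  refine ⟨⟨R.β, R.β_ne, ⟨_, hx⟩, ⟨_, hz⟩, cst hpM ρ * ⟨_, hw⟩, hmemV _ R.x_mem, hmemV _ R.z_mem,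
    fun h hh => galF_conj_fix hnorm R.x_fix hh, fun h hh => galF_conj_fix hnorm R.z_fix hh,
    fun h hh => ?_, Subtype.ext ?_, by rw [ex, R.red_x], by rw [ez, R.red_z]⟩, rfl, ?_⟩
  · rw [Subring.coe_mul, map_mul, coe_cst, galF_const (hρfix h hh)]
    exact congrArg _ (galF_conj_fix hnorm R.w_fix hh)
  · have e := congrArg (galF (p * M) τ) R.coe_rel
    rw [map_mul, map_pow, galF_Jp, map_add,
      map_mul (galF (p * M) τ) (algebraMap QBar _ _)] at e
    simp only [Subring.coe_mul, Subring.coe_add, SubmonoidClass.coe_pow, coe_cst, coe_Jp] at e ⊢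
    refine e.trans ?_
    rw [← mul_assoc, ← map_mul (algebraMap QBar (FB (p * M)))]
    congr 2
    refine Subtype.ext ((coe_arithmeticRingAut τ _).trans ?_)
    show coeffMap (τ : QBar →+* QBar) (algebraMap QBar LSer (C.π ^ k)) =
      algebraMap QBar LSer (C.π ^ k * ρ)
    rw [coeffMap_algebraMap, RingHom.coe_coe, map_pow, hρ]
  · show red2 A (iota2 M p hpM) (cst hpM ρ * ⟨_, hw⟩) = _
    rw [red2_cst_mul, ew]

/-- The residue of the ratio of a power of the uniformiser of order `e` to its conjugate. -/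
theorem exists_residue_eq_cyclotomic (hA : A.LiesOverPrime p) {τ : GQ}
    (hτ : τ ∈ A.inertiaSubgroupIn ℚ) (hk : (p - 1) * k = C.e) :
    ∃ ρ : A, τ C.π ^ k = C.π ^ k * (ρ : QBar) ∧
      IsLocalRing.residue A ρ = ((cyclotomicHom p τ : ZMod p).val : Res A) := by
  have hp : p.Prime := Fact.out
  obtain ⟨ζ, hζ⟩ : ∃ ζ : QBar, IsPrimitiveRoot ζ p :=
    HasEnoughRootsOfUnity.exists_primitiveRoot QBar p
  obtain ⟨hlt, hval, hm⟩ := zeta_sub_one hA hp hζ
  have hne : ζ - 1 ≠ 0 := sub_ne_zero.mpr (hζ.ne_one hp.one_lt)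
  have hπk : C.π ^ k ≠ 0 := pow_ne_zero _ C.π_ne_zero
  set u : QBar := C.π ^ k / (ζ - 1) with hu
  have huv : A.valuation u = 1 := by
    rw [hu, map_div₀, div_eq_one_iff_eq ((Valuation.ne_zero_iff _).mpr hne), map_pow]
    refine (pow_left_inj₀ zero_le zero_le (show p - 1 ≠ 0 by have := hp.two_le; omega)).mp ?_
    rw [hval, ← pow_mul, mul_comm k, hk, C.val_p]
  obtain ⟨huA, hur⟩ := residue_unit_ne_zero (A := A) huv
  obtain ⟨hdA, hdr⟩ := hm (cyclotomicHom p τ : ZMod p).val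
  have hu0 : u ≠ 0 := div_ne_zero hπk hne
  have hτu : τ u - u ∈ A.nonunits := (mem_inertia_iff_forall_mem.mp hτ).2 u huA
  have hq : τ u / u ∈ A := (A.valuation_le_one_iff _).mp (by
    rw [map_div₀, valuation_inertia hτ, huv, div_one])
  refine ⟨⟨_, mul_mem hdA hq⟩, ?_, ?_⟩
  · show τ C.π ^ k = C.π ^ k * (_ * (τ u / u))
    rw [hu, map_div₀, map_sub, map_one, apply_root_eq_pow_cyclotomicHom τ hζ.pow_eq_one, ← map_pow]
    have hne' : ζ ^ (cyclotomicHom p τ : ZMod p).val - 1 ≠ 0 := by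
      rw [← apply_root_eq_pow_cyclotomicHom τ hζ.pow_eq_one, ← map_one τ, ← map_sub]
      exact (_root_.map_ne_zero _).mpr hne
    field_simp
  · rw [show (⟨_, mul_mem hdA hq⟩ : A) = ⟨_, hdA⟩ * ⟨_, hq⟩ from rfl, map_mul]
    have e1 : IsLocalRing.residue A ⟨_, hq⟩ = 1 := by
      have e : (⟨_, hq⟩ : A) * ⟨u, huA⟩ =
          ⟨u, huA⟩ + ⟨_, mem_of_mem_nonunits hτu⟩ := Subtype.ext (by
        show τ u / u * u = u + (τ u - u)
        rw [div_mul_cancel₀ _ hu0]; ring)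
      have e' := congrArg (IsLocalRing.residue A) e
      rw [map_mul, map_add, (residue_eq_zero_iff _).mpr hτu, add_zero] at e'
      exact mul_right_cancel₀ hur (e'.trans (one_mul _).symm)
    rw [e1, mul_one, ← EC.Reduction.res_of_mem hdA]
    exact hdr

variable (hA : A.LiesOverPrime p) (hM : (M : Res A) ≠ 0) (h4 : 4 ∣ M) (V : VUnit A hpM)
  (hV : V.Simple) (K : Kum hpM C) (hfb : ∀ s, K.fb s = 1) (hv : K.v = 0)
include hA hM h4 hV hfb hv

/-- **Depth of a new class with trivial reductions.** -/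
theorem Kum.exists_rel_mul_eq (hN : NormsArePowers hpM K.f)
    (hL0 : ∀ y ∈ riemannRochSpace K.D, y = (0 : FB (p * M))) :
    ∃ n₀ : ℕ, ∀ n, n₀ ≤ n → ∃ k, 1 ≤ k ∧ (p - 1) * k = C.e ∧ Nonempty (Rel K n k) := by
  classical
  have hgood : GoodM A M := goodM_of_dvd (Or.inl rfl) h4 hM
  obtain ⟨n₁, hn₁⟩ := exists_rel K hA hM h4 V hV hfb hv hL0
  obtain ⟨n₂, hn₂⟩ := exists_isEmpty_of_big hA hM h4 hfb hv V hV hL0
  obtain ⟨n₃, hn₃⟩ := exists_mem_SideSB K hA hM h4 hfb hv hN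
  obtain ⟨n₄, hn₄⟩ := exists_mem_SB_of_pow (⟨hA, hpM, hM, hgood⟩ : Setup A M p)
  obtain ⟨n₅, hn₅⟩ := exists_pow_mem_SB_of_small (K := K) hA hM h4 hfb hv
  obtain ⟨n₆, hn₆⟩ := K.exists_glue hfb hv hA hM V hV
  refine ⟨n₁ + n₂ + n₃ + n₄ + n₅ + n₆, fun n hn => ?_⟩
  obtain ⟨k₀, hk₀, hR₀⟩ := hn₁ n (by omega)
  have hex : ∃ k, k₀ ≤ k ∧ IsEmpty (Rel K n k) := ⟨k₀ + C.e + 1, Nat.le_add_right_of_le
    (Nat.le_add_right _ _), hn₂ n (by omega) _ (by omega) (by
      have := Nat.le_mul_of_pos_left (k₀ + C.e + 1) (show 0 < p - 1 by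
        have := (Fact.out : p.Prime).two_le; omega)
      omega)⟩
  obtain ⟨j, hj⟩ : ∃ j, Nat.find hex = j + 1 := ⟨Nat.find hex - 1, by
    have : Nat.find hex ≠ 0 := fun h0 => by
      have := (Nat.find_spec hex).1
      omega
    omega⟩
  have hspec := Nat.find_spec hex
  rw [hj] at hspec
  have hjk : k₀ ≤ j := by
    by_contra hlt
    have hk : j + 1 = k₀ := by omega
    exact hspec.2.false (hk ▸ hR₀.some)
  obtain ⟨R⟩ : Nonempty (Rel K n j) := by
    have := Nat.find_min hex (show j < Nat.find hex by omega)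
    rw [not_and] at this
    exact not_isEmpty_iff.mp (this hjk)
  have hj1 : 1 ≤ j := hk₀.trans hjk
  refine ⟨j, hj1, ?_, ⟨R⟩⟩
  by_contra hne
  rcases Nat.lt_or_gt_of_ne hne with hlt | hgt
  · have hB := R.red_w_mem (hn₆ _ (by omega))
    have hside := hn₃ n (by omega) j hj1 R
    have hpow := hn₅ n (by omega) j hj1 hlt R
    obtain ⟨R'⟩ := R.improve hA hj1 (hn₆ n (by omega)) (hn₄ n (by omega) _ hB hside hpow)
    exact hspec.2.false R'
  · exact (hn₂ n (by omega) j hj1 hgt).false R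

/-- **A new class with trivial reductions is trivial unless `p - 1` divides `e`.** -/
theorem Kum.exists_principal_or_dvd (hN : NormsArePowers hpM K.f) :
    (∃ (h : FB (p * M)) (c : QBar), K.f = algebraMap QBar (FB (p * M)) c * h ^ p) ∨
      (p - 1) ∣ C.e := by
  by_cases hL0 : ∀ y ∈ riemannRochSpace K.D, y = (0 : FB (p * M))
  · obtain ⟨n₀, hn₀⟩ := Kum.exists_rel_mul_eq hA hM h4 V hV K hfb hv hN hL0
    obtain ⟨k, -, hk, -⟩ := hn₀ n₀ le_rfl
    exact Or.inr ⟨k, hk.symm⟩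
  · exact Or.inl (Kum.exists_principal_of_ne K hL0)

/-- **Inertia acts on a new class with trivial reductions through the cyclotomic character.** -/
theorem Kum.exists_galF_mul_pow (hN : NormsArePowers hpM K.f) {τ : GQ}
    (hτ : τ ∈ A.inertiaSubgroupIn ℚ) (hnorm : ∀ h ∈ C.H, τ⁻¹ * h * τ ∈ C.H) (b : ℕ)
    (hb : (b : ZMod p) = -(cyclotomicHom p τ : ZMod p)) :
    ∃ (h : FB (p * M)) (c : QBar),
      galF (p * M) τ K.f * K.f ^ b = algebraMap QBar (FB (p * M)) c * h ^ p := by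
  classical
  by_cases hL : ∀ y ∈ riemannRochSpace K.D, y = (0 : FB (p * M))
  swap
  · obtain ⟨h, c, e⟩ := Kum.exists_principal_of_ne K hL
    refine ⟨galF (p * M) τ h * h ^ b, τ c * c ^ b, ?_⟩
    have ec : galF (p * M) τ (algebraMap QBar (FB (p * M)) c) =
        algebraMap QBar (FB (p * M)) (τ c) := by
      refine Subtype.ext ((coe_arithmeticRingAut τ _).trans ?_)
      show coeffMap (τ : QBar →+* QBar) (algebraMap QBar LSer c) = algebraMap QBar LSer (τ c)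
      rw [coeffMap_algebraMap]
      rfl
    rw [e, map_mul, ec, map_pow, mul_pow, ← pow_mul, map_mul (algebraMap QBar (FB (p * M))),
      map_pow (algebraMap QBar (FB (p * M))), mul_pow, ← pow_mul, mul_comm p b]
    ring
  obtain ⟨b', hb'⟩ : ∃ b', b = b' + 1 := ⟨b - 1, by
    rcases Nat.eq_zero_or_pos b with h0 | h0
    · exfalso
      rw [h0, Nat.cast_zero, eq_comm, neg_eq_zero] at hb
      exact Units.ne_zero _ hb
    · omega⟩
  obtain ⟨n₀, hn₀⟩ := Kum.exists_rel_mul_eq hA hM h4 V hV K hfb hv hN hL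
  obtain ⟨Kb, hKb, hKbfb, hKbv⟩ : ∃ Kb : Kum hpM C, Kb.f = K.f ^ b ∧
      (∀ s, Kb.fb s = 1) ∧ Kb.v = 0 := by
    rw [hb']
    obtain ⟨k, hk1, -, ⟨R⟩⟩ := hn₀ n₀ le_rfl
    obtain ⟨K', -, h1, h2, h3, -, -⟩ := R.exists_pow hfb hv hk1 b'
    exact ⟨K', h1, h2, h3⟩
  obtain ⟨Kt, hKt, hKtfb, hKtv⟩ := Kum.exists_conj K hfb hv hτ hnorm
  obtain ⟨K', hK', hK'fb, hK'v⟩ := Kum.exists_mul Kt Kb hKtfb hKtv hKbfb hKbv
  rw [show galF (p * M) τ K.f * K.f ^ b = K'.f by rw [hK', hKt, hKb]]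
  refine Kum.exists_principal_of_ne K' fun hL0 => ?_
  obtain ⟨n₁, hn₁⟩ := exists_isEmpty_of_big hA hM h4 hK'fb hK'v V hV hL0
  obtain ⟨n₂, hn₂⟩ := K'.exists_glue hK'fb hK'v hA hM V hV
  set n := n₀ + n₁ + n₂ with hn
  obtain ⟨k, hk1, hk, ⟨R⟩⟩ := hn₀ n (by omega)
  obtain ⟨Kb', Rb, hKb', -, -, hβb, hwb⟩ := R.exists_pow hfb hv hk1 b'
  obtain ⟨ρ, hρ, hρr⟩ := exists_residue_eq_cyclotomic hA hτ hk
  obtain ⟨Rt, hβt, hwt⟩ := R.exists_conj hτ hnorm hKt hρ
  obtain ⟨R', -, hw'⟩ := Rt.exists_mul (K := K')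
    (show K'.f = Kt.f * Kb'.f by rw [hK', hKb, hKb', hb']) hk1 Rb
  have hz : red2 A (iota2 M p hpM) R'.w = 0 := by
    have hcoef : ((cyclotomicHom p τ : ZMod p).val : Res A) + ((b' + 1 : ℕ) : Res A) = 0 := by
      rw [← Nat.cast_add, CharP.cast_eq_zero_iff (Res A) p, ← ZMod.natCast_eq_zero_iff,
        Nat.cast_add, ZMod.natCast_val, ZMod.cast_id', id_eq, ← hb', hb, add_neg_cancel]
    rw [hw', hwt, hwb, hβt, hβb, hρr, show n * (b' + 1) = n * b' + n by ring, jPow_add]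
    funext s
    have hc := congrArg (algebraMap (Res A) (LaurentSeries (Res A))) hcoef
    rw [map_add, map_natCast, map_natCast, map_zero] at hc
    simp only [Pi.add_apply, Pi.smul_apply, Pi.mul_apply, Pi.zero_apply, Igusa.hsmul_eq,
      map_natCast, map_pow]
    linear_combination (algebraMap (Res A) (LaurentSeries (Res A)) R.β ^ (b' + 1) *
      red2 A (iota2 M p hpM) R.w s * jPow A p (n * b') s * jPow A p n s) * hc
  have hglue := hn₂ (n + n * (b' + 1)) (by omega)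
  obtain ⟨R''⟩ := R'.improve hA hk1 hglue (by rw [hz]; exact zero_mem _)
  exact (hn₁ (n + n * (b' + 1)) (by omega) (k + 1) (by omega)
    (by rw [Nat.mul_add, hk]; have := (Fact.out : p.Prime).two_le; omega)).false R''

end Fermat.Agent.Extra39

end
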