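import Fermat.Agent.Extra39.Basic
import Fermat.Agent.NewformLocal.Toric.Transfer
import Fermat.Agent.RT.MazurP.Incl
import Fermat.Agent.RT.LowerQ.Classes

/-!
# Norms of new eigen classes are powers

The norm from level `p M` to level `M` commutes with the Hecke norms and with the inclusion of
levels. Hence, if an eigen system does not occur in the torsion of level `M₀`, the two norms to
level `M₀` of a Kummer function of an eigen class of level `p M₀` are `p`-th powers.
-/

set_option autoImplicit false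
set_option synthInstance.maxHeartbeats 400000
set_option maxHeartbeats 1000000
set_option linter.unusedSectionVars false
set_option linter.style.haveILetI false

noncomputable section

namespace Fermat.Agent.Extra39

open AlgebraicCurve ModularCurve
open Fermat.Agent.Semistable Fermat.Agent.RT.Mazur Fermat.Agent.RT.MazurP
open Fermat.Agent.JacTorsion (divGrp toTorsion)
open Fermat.Agent.NewformLocal.Toric (normUp qExpand_normUp)
open Arith (QBar GQ)

/-! ### Twists and substitutions -/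

section Series

variable {K : Type*} [Field K]

/-- A twist after a substitution. -/
theorem twist_qExpand_pow (u : Kˣ) (d : ℕ) [NeZero d] (x : LaurentSeries K) :
    ModFun.twist u (qExpand K d x) = qExpand K d (ModFun.twist (u ^ d) x) := by
  ext n
  rw [ModFun.coeff_twist]
  by_cases h : (d : ℤ) ∣ n
  · obtain ⟨k, rfl⟩ := h
    rw [qExpand_coeff_mul, qExpand_coeff_mul, ModFun.coeff_twist, zpow_mul, zpow_natCast]
  · rw [qExpand_coeff_of_not_dvd d x h, qExpand_coeff_of_not_dvd d _ h, mul_zero]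

/-- Twists commute. -/
theorem twist_twist_comm (u v : Kˣ) (x : LaurentSeries K) :
    ModFun.twist u (ModFun.twist v x) = ModFun.twist v (ModFun.twist u x) := by
  ext n
  simp only [ModFun.coeff_twist]
  ring

theorem qExpand_qExpand_comm (d e : ℕ) [NeZero d] [NeZero e] (x : LaurentSeries K) :
    qExpand K d (qExpand K e x) = qExpand K e (qExpand K d x) := by
  rw [qExpand_qExpand, qExpand_qExpand]
  exact qExpand_congr (mul_comm _ _) _

variable (l : ℕ) [NeZero l]

theorem qExpand_heckeProd_comm (ξ : Kˣ) (d : ℕ) [NeZero d] (x : LaurentSeries K) :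
    qExpand K d (heckeProd l (ξ ^ d) x) = heckeProd l ξ (qExpand K d x) := by
  simp only [heckeProd_apply, map_mul, map_prod, twist_qExpand_pow, ← pow_mul,
    qExpand_qExpand_comm d l, mul_comm d]

theorem twist_heckeProd (u ξ : Kˣ) (x : LaurentSeries K) :
    ModFun.twist u (heckeProd l ξ x) =
      qExpand K l (qExpand K l (ModFun.twist ((u ^ l) ^ l) x)) *
        ∏ j : Fin l, ModFun.twist (ξ ^ (j : ℕ)) (ModFun.twist u x) := by
  simp only [heckeProd_apply, map_mul, map_prod, twist_qExpand_pow]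
  exact congrArg _ (Finset.prod_congr rfl fun j _ => twist_twist_comm _ _ _)

end Series

/-! ### The norm to the lower level -/

section Norm

variable {p M : ℕ} [Fact p.Prime] [NeZero M] (hpM : ¬ p ∣ M)

include hpM in
/-- The norm commutes with the Hecke norms away from the level. -/
theorem normUp_heckeNorm {l : ℕ} [NeZero l] (hl : l.Prime) (hN : ¬ l ∣ p * M) (x : FB (p * M)) :
    normUp p M (heckeNorm (p * M) l x) = heckeNorm M l (normUp p M x) := by
  have hp : p.Prime := Fact.out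
  have hlM : ¬ l ∣ M := fun h => hN (dvd_mul_of_dvd_right h p)
  have hlp : Nat.Coprime l p := (Nat.coprime_primes hl hp).mpr fun h => hN (h ▸ dvd_mul_right p M)
  obtain ⟨ξ, hξ⟩ := exists_primitive hl hN
  obtain ⟨ζ₀, hζ₀⟩ := HasEnoughRootsOfUnity.exists_primitiveRoot QBar p
  set ζ : QBarˣ := (hζ₀.isUnit hp.ne_zero).unit with hζdef
  have hζ : IsPrimitiveRoot ζ p := IsPrimitiveRoot.coe_units_iff.mp (by simpa [hζdef] using hζ₀)
  have hζl : IsPrimitiveRoot (ζ ^ l) p := hζ.pow_of_coprime l hlp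
  have hξp : IsPrimitiveRoot (ξ ^ p) l := hξ.pow_of_coprime p hlp.symm
  refine Subtype.ext (qExpand_injective l (qExpand_injective p ?_))
  -- the norm of the norm
  rw [qExpand_heckeNorm hl hlM hξp, qExpand_heckeProd_comm l ξ p]
  -- the Hecke norm of the norm
  rw [qExpand_qExpand_comm p l, qExpand_normUp p M hpM hζl, map_mul, map_prod,
    qExpand_qExpand_comm l p, qExpand_heckeNorm hl hN hξp, qExpand_heckeProd_comm l ξ p]
  have hterm : ∀ i : Fin p,
      qExpand QBar l (ModFun.twist ((ζ ^ l) ^ (i : ℕ))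
          (wEquiv p M hpM (heckeNorm (p * M) l x) : LSer)) =
        qExpand QBar l (qExpand QBar l
            (ModFun.twist (((ζ ^ l) ^ l) ^ (i : ℕ)) (wEquiv p M hpM x : LSer))) *
          ∏ j : Fin l, ModFun.twist (ξ ^ (j : ℕ))
            (ModFun.twist (ζ ^ (i : ℕ)) (wEquiv p M hpM x : LSer)) := by
    intro i
    rw [← pow_mul ζ l i, mul_comm l, pow_mul, ← twist_qExpand_pow,
      ← heckeNorm_wEquiv p M l hpM hl hN, qExpand_heckeNorm hl hN hξ, twist_heckeProd]
    simp only [← pow_mul, mul_comm, mul_left_comm]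
  rw [Finset.prod_congr rfl fun i _ => hterm i, Finset.prod_mul_distrib, Finset.prod_comm,
    heckeProd_apply, heckeProd_apply, mul_mul_mul_comm]
  simp only [← map_prod, ← map_mul, ← Finset.prod_mul_distrib]
  rw [← qExpand_normUp p M hpM (hζl.pow_of_coprime l hlp),
    ← qExpand_normUp p M hpM hζ]

variable {M₀ : ℕ} [NeZero M₀]

include hpM in
/-- The norm commutes with the inclusion of a lower level. -/
theorem normUp_inclF (hd : M₀ ∣ M) (x : FB (p * M₀)) :
    normUp p M (inclF (mul_dvd_mul_left p hd) x) = inclF hd (normUp p M₀ x) := by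
  have hp : p.Prime := Fact.out
  have hpM₀ : ¬ p ∣ M₀ := fun h => hpM (h.trans hd)
  obtain ⟨ζ₀, hζ₀⟩ := HasEnoughRootsOfUnity.exists_primitiveRoot QBar p
  set ζ : QBarˣ := (hζ₀.isUnit hp.ne_zero).unit with hζdef
  have hζ : IsPrimitiveRoot ζ p := IsPrimitiveRoot.coe_units_iff.mp (by simpa [hζdef] using hζ₀)
  refine Subtype.ext (qExpand_injective p ?_)
  have hw : (wEquiv p M hpM (inclF (mul_dvd_mul_left p hd) x) : LSer) =
      (wEquiv p M₀ hpM₀ x : LSer) := by
    rw [← iota2_one M p hpM, ← iota2_one M₀ p hpM₀]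
    exact iota2_inclF hd hpM₀ 1 x
  rw [qExpand_normUp p M hpM hζ, hw, coe_inclF, coe_inclF, qExpand_normUp p M₀ hpM₀ hζ]

/-- The inclusion commutes with the involution. -/
theorem wEquiv_inclF_eq (hd : M₀ ∣ M) (hpM₀ : ¬ p ∣ M₀) (x : FB (p * M₀)) :
    wEquiv p M hpM (inclF (mul_dvd_mul_left p hd) x) =
      inclF (mul_dvd_mul_left p hd) (wEquiv p M₀ hpM₀ x) := by
  refine Subtype.ext ?_
  rw [coe_inclF, ← iota2_one M p hpM, ← iota2_one M₀ p hpM₀]
  exact iota2_inclF hd hpM₀ 1 x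

end Norm

/-! ### Classes of a system absent below -/

section Classes

variable {p M : ℕ} [hp : Fact p.Prime] [NeZero M] {hpM : ¬ p ∣ M} {S : Finset ℕ} {a : ℕ → ZMod p}

include hpM in
/-- The norm of a Kummer function of an eigen class of a system absent below is a power. -/
theorem exists_normUp_eq_pow_of_bot (hS : ∀ l, l.Prime → l ∉ S → ¬ l ∣ p * M)
    (hbot : RT.LowerQ.EigTors M p S a = ⊥) (f : divGrp QBar (FB (p * M)) p)
    (hf : (toTorsion (Additive.ofMul f) : JZero (p * M)) ∈ RT.LowerQ.EigTors (p * M) p S a) :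
    ∃ g : FB M, g ≠ 0 ∧ normUp p M ((f : (FB (p * M))ˣ) : FB (p * M)) = g ^ p := by
  haveI : NeZero p := ⟨hp.out.ne_zero⟩
  let f' : divGrp QBar (FB M) p :=
    ⟨Units.mk0 _ (NewformLocal.Toric.normUp_ne_zero (Units.ne_zero (f : (FB (p * M))ˣ))),
      fun v => NewformLocal.Toric.normUp_mem_divGrp f v⟩
  have hmem : (toTorsion (Additive.ofMul f') : JZero M) ∈ RT.LowerQ.EigTors M p S a := by
    refine RT.LowerQ.mem_eigTors.mpr ⟨RT.LowerQ.nsmul_m_toTorsion f', fun l hl hlS => ?_⟩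
    haveI : NeZero l := ⟨hl.ne_zero⟩
    have hx := hf.2 l hl hlS
    rw [← natCast_zsmul] at hx
    obtain ⟨h, -, he⟩ := exists_heckeNorm_eq l hl f _ hx
    refine RT.LowerQ.eigen_of_norm_eq l hl f' (a l).val (h := normUp p M h) ?_
    rw [zpow_natCast] at he
    show heckeNorm M l (normUp p M _) = normUp p M _ ^ _ * normUp p M h ^ p
    rw [← normUp_heckeNorm hpM hl (hS l hl hlS), he, map_mul, map_pow, map_pow]
  rw [hbot, AddSubgroup.mem_bot] at hmem
  exact RT.LowerQ.exists_eq_pow_of_toTorsion_eq_zero (f := f') (Subtype.ext hmem)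

/-- `w` preserves eigen torsion. -/
theorem wJ_smul_mem_eigTors (hS : ∀ l, l.Prime → l ∉ S → ¬ l ∣ p * M) {x : JZero (p * M)}
    (hx : x ∈ RT.LowerQ.EigTors (p * M) p S a) :
    RT.LowerQ.wJ p M hpM • x ∈ RT.LowerQ.EigTors (p * M) p S a := by
  haveI : NeZero p := ⟨hp.out.ne_zero⟩
  obtain ⟨hpx, hT⟩ := RT.LowerQ.mem_eigTors.mp hx
  refine RT.LowerQ.mem_eigTors.mpr ⟨?_, fun l hl hlS => ?_⟩
  · have h := map_nsmul (DistribSMul.toAddMonoidHom (JZero (p * M)) (RT.LowerQ.wJ p M hpM)) p x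
    rw [hpx, map_zero] at h
    exact h.symm
  · rw [RT.LowerQ.hecke_wJ hl (hS l hl hlS) hpx, hT l hl hlS]
    exact map_nsmul (DistribSMul.toAddMonoidHom (JZero (p * M)) (RT.LowerQ.wJ p M hpM)) _ x

/-- Both norms are powers. -/
theorem exists_norms_eq_pow_of_bot (hS : ∀ l, l.Prime → l ∉ S → ¬ l ∣ p * M)
    (hbot : RT.LowerQ.EigTors M p S a = ⊥) (f : divGrp QBar (FB (p * M)) p)
    (hf : (toTorsion (Additive.ofMul f) : JZero (p * M)) ∈ RT.LowerQ.EigTors (p * M) p S a) :
    (∃ g : FB M, g ≠ 0 ∧ normUp p M ((f : (FB (p * M))ˣ) : FB (p * M)) = g ^ p) ∧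
      ∃ g : FB M, g ≠ 0 ∧
        normUp p M (wEquiv p M hpM ((f : (FB (p * M))ˣ) : FB (p * M))) = g ^ p := by
  haveI : NeZero p := ⟨hp.out.ne_zero⟩
  refine ⟨exists_normUp_eq_pow_of_bot (hpM := hpM) hS hbot f hf, ?_⟩
  rw [← RT.LowerQ.coe_smulDiv_wJ]
  refine exists_normUp_eq_pow_of_bot (hpM := hpM) hS hbot
    (RT.LowerQ.smulDiv (RT.LowerQ.wJ p M hpM) f) ?_
  rw [← RT.LowerQ.smul_toTorsion]
  exact wJ_smul_mem_eigTors hS hf

/-- **Both norms to level `M` of the inclusion of an eigen class of level `p M₀` are powers**,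
when the system does not occur at level `M₀`. -/
theorem exists_norms_inclF_eq_pow_of_bot {M₀ : ℕ} [NeZero M₀] (hd : M₀ ∣ M)
    (hS : ∀ l, l.Prime → l ∉ S → ¬ l ∣ p * M)
    (hbot : RT.LowerQ.EigTors M₀ p S a = ⊥) (f : divGrp QBar (FB (p * M₀)) p)
    (hf : (toTorsion (Additive.ofMul f) : JZero (p * M₀)) ∈
      RT.LowerQ.EigTors (p * M₀) p S a) :
    (∃ g : FB M, g ≠ 0 ∧
        normUp p M (inclF (mul_dvd_mul_left p hd) ((f : (FB (p * M₀))ˣ) : FB (p * M₀))) = g ^ p) ∧
      ∃ g : FB M, g ≠ 0 ∧ normUp p M (wEquiv p M hpM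
        (inclF (mul_dvd_mul_left p hd) ((f : (FB (p * M₀))ˣ) : FB (p * M₀)))) = g ^ p := by
  have hpM₀ : ¬ p ∣ M₀ := fun h => hpM (h.trans hd)
  obtain ⟨⟨g, hg0, hg⟩, g', hg'0, hg'⟩ := exists_norms_eq_pow_of_bot (hpM := hpM₀)
    (fun l hl hlS h => hS l hl hlS (h.trans (mul_dvd_mul_left p hd))) hbot f hf
  refine ⟨⟨inclF hd g, (map_ne_zero _).mpr hg0, ?_⟩, inclF hd g', (map_ne_zero _).mpr hg'0, ?_⟩
  · rw [normUp_inclF hpM, hg, map_pow]
  · rw [wEquiv_inclF_eq hpM hd hpM₀, normUp_inclF hpM, hg', map_pow]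

/-- A function whose two norms are `p`-th powers. -/
theorem NormsArePowers.of_eq_pow {f : FB (p * M)}
    (h : (∃ g : FB M, g ≠ 0 ∧ normUp p M f = g ^ p) ∧
      ∃ g : FB M, g ≠ 0 ∧ normUp p M (wEquiv p M hpM f) = g ^ p) : NormsArePowers hpM f := by
  obtain ⟨⟨g, -, hg⟩, g', -, hg'⟩ := h
  exact ⟨⟨1, g, by rw [hg, map_one, one_mul]⟩, 1, g', by rw [hg', map_one, one_mul]⟩

/-- **An eigen class of level `p M₀` of a system absent at level `M₀` is new.** -/
theorem normsArePowers_of_bot {M₀ : ℕ} [NeZero M₀] (hd : M₀ ∣ M)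
    (hS : ∀ l, l.Prime → l ∉ S → ¬ l ∣ p * M)
    (hbot : RT.LowerQ.EigTors M₀ p S a = ⊥) (f : divGrp QBar (FB (p * M₀)) p)
    (hf : (toTorsion (Additive.ofMul f) : JZero (p * M₀)) ∈
      RT.LowerQ.EigTors (p * M₀) p S a) :
    NormsArePowers hpM (inclF (mul_dvd_mul_left p hd) ((f : (FB (p * M₀))ˣ) : FB (p * M₀))) :=
  NormsArePowers.of_eq_pow (exists_norms_inclF_eq_pow_of_bot hd hS hbot f hf)

end Classes

end Fermat.Agent.Extra39

end
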