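import Fermat.Agent.Semistable.ModBound
import Fermat.Agent.NewformLocal.Toric.NormRed
import Fermat.Agent.RedTorsion.ReducedBasis
import Fermat.Agent.Igusa.SeriesOrder

/-!
# The norm of `j (p τ)` and norms of functions with bounded poles

The norm of `j (p τ)` from level `p M` to level `M` is a polynomial of degree `p + 1` in `j`; so the
norm of a function with poles bounded by `m` times those of `j` or of `j (p τ)` has poles bounded by
`(p + 1) m` times those of `j`.
-/

set_option autoImplicit false
set_option synthInstance.maxHeartbeats 400000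
set_option maxHeartbeats 1000000

noncomputable section

namespace Fermat.Agent.Extra39

open ModularCurve AlgebraicCurve Polynomial Fermat.Agent.Semistable
open Fermat.Agent.ModFun (twist)
open Arith (QBar)

variable (p M : ℕ) [hp : Fact p.Prime] [NeZero M] (hpM : ¬ p ∣ M)

/-- The product of the roots of the modular relation over `j (p τ)` is a polynomial in `j (p τ)`. -/
theorem exists_prod_modRoot {u : QBarˣ} (hu : IsPrimitiveRoot u p) :
    ∃ R : QBar[X], aeval (qExpand QBar p (jqModC QBar)) R = ∏ a, modRoot p u a := by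
  classical
  obtain ⟨Φ, hm, hd, -, -, h1, h2⟩ := exists_modRel p (⊤ : ValuationSubring QBar)
  set jq := qExpand QBar p (jqModC QBar) with hjq
  set f : QBar[X] →+* LSer := (aeval jq).toRingHom with hf
  have hroot : ∀ a, (Φ.map f).eval (modRoot p u a) = 0 := by
    intro a
    rw [eval_map]
    show ev2 jq (modRoot p u a) Φ = 0
    induction a using Fin.cases with
    | zero =>
      have h := congrArg (qExpand QBar p) h1
      rw [map_zero, map_ev2 _ (qExpand_const p), qExpand_qExpand] at h
      exact h
    | succ i =>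
      have h := congrArg (twist (u ^ (i : ℕ))) h2
      rw [map_zero, map_ev2 _ (twist_const _), twist_qExpand_of_pow_eq_one] at h
      · exact h
      · rw [← pow_mul, mul_comm, pow_mul, hu.pow_eq_one, one_pow]
  let Pr : LSer[X] := ∏ a, (X - C (modRoot p u a))
  have hdvd : Pr ∣ Φ.map f := Finset.prod_dvd_of_coprime
    ((pairwise_coprime_X_sub_C (modRoot_injective p hp.out.two_le u hu)).set_pairwise _)
    fun a _ => dvd_iff_isRoot.mpr (hroot a)
  have hPr : Φ.map f = Pr := eq_of_monic_of_dvd_of_natDegree_le
    (monic_prod_of_monic _ _ fun _ _ => monic_X_sub_C _) (hm.map _) hdvd (by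
      rw [natDegree_finsetProd_X_sub_C_eq_card, Finset.card_univ, Fintype.card_fin,
        hm.natDegree_map, hd])
  have h0 := congrArg (fun P : LSer[X] => P.eval 0) hPr
  simp only [Pr, eval_prod, eval_sub, eval_X, eval_C, zero_sub, ← coeff_zero_eq_eval_zero,
    coeff_map, Finset.prod_neg, Finset.card_univ, Fintype.card_fin] at h0
  refine ⟨C ((-1) ^ (p + 1)) * Φ.coeff 0, ?_⟩
  rw [map_mul, aeval_C, show aeval jq (Φ.coeff 0) = f (Φ.coeff 0) from rfl, h0, ← mul_assoc,
    map_pow, map_neg, map_one, ← mul_pow]
  simp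

variable {p M}

/-- **The norm of `j (p τ)`** is a polynomial of degree `p + 1` in `j`. -/
theorem exists_normUp_downF_jM : ∃ R : QBar[X], R.natDegree = p + 1 ∧
    NewformLocal.Toric.normUp p M (downF M p hpM (jM M)) = aeval (jM M) R := by
  obtain ⟨ζ₀, hζ₀⟩ := HasEnoughRootsOfUnity.exists_primitiveRoot QBar p
  set ζ : QBarˣ := (hζ₀.isUnit hp.out.ne_zero).unit with hζdef
  have hζ : IsPrimitiveRoot ζ p := IsPrimitiveRoot.coe_units_iff.mp (by simpa [hζdef] using hζ₀)
  obtain ⟨R, hR⟩ := exists_prod_modRoot p hζ
  set N := NewformLocal.Toric.normUp p M (downF M p hpM (jM M))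
  have hN : qExpand QBar p (N : LSer) = ∏ a, modRoot p ζ a := by
    rw [NewformLocal.Toric.qExpand_normUp p M hpM hζ, wEquiv_downF, coe_downF, coe_upF, coe_jM,
      qExpand_qExpand, Fin.prod_univ_succ]
    rfl
  have hcoe : ((aeval (jM M) R : FB M) : LSer) = aeval (jqModC QBar) R := by
    have := aeval_algHom_apply (FB M).val (jM M) R
    rw [IntermediateField.coe_val, coe_jM] at this
    exact this.symm
  refine ⟨R, ?_, Subtype.ext (qExpand_injective p ?_)⟩
  · -- comparing orders
    have hj0 : jqModC QBar ≠ 0 := fun h =>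
      Semistable.transcendental_jqModC QBar (h ▸ isAlgebraic_zero)
    have hne : ∀ a, modRoot p ζ a ≠ 0 := fun a => by
      induction a using Fin.cases with
      | zero => exact (_root_.map_ne_zero _).mpr hj0
      | succ i => exact Igusa.twist_ne_zero _ hj0
    have hP : (∏ a, modRoot p ζ a).order = -((p : ℤ) * (p + 1)) := by
      have key : ∀ s : Finset (Fin p), (∏ i ∈ s, modRoot p ζ i.succ).order = -(s.card : ℤ) := by
        intro s
        induction s using Finset.induction_on with
        | empty => simp
        | insert i s hi ih =>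
          rw [Finset.prod_insert hi, HahnSeries.order_mul (hne _)
            (Finset.prod_ne_zero_iff.mpr fun j _ => hne _), ih, Finset.card_insert_of_notMem hi,
            show modRoot p ζ i.succ = twist (ζ ^ (i : ℕ)) (jqModC QBar) from rfl,
            Igusa.order_twist _ hj0, Igusa.order_jqModC]
          push_cast
          ring
      rw [Fin.prod_univ_succ, HahnSeries.order_mul (hne 0)
        (Finset.prod_ne_zero_iff.mpr fun j _ => hne _), key, Finset.card_univ, Fintype.card_fin,
        show modRoot p ζ 0 = qExpand QBar (p * p) (jqModC QBar) from rfl,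
        Igusa.order_qExpand hj0, Igusa.order_jqModC]
      push_cast
      ring
    have hR0 : R ≠ 0 := fun h => by
      rw [h, map_zero] at hR
      exact Finset.prod_ne_zero_iff.mpr (fun a _ => hne a) hR.symm
    have hY : (aeval (jqModC QBar) R).order = -(R.natDegree : ℤ) := Igusa.order_eq_of_coeff
      (by rw [Igusa.coeff_aeval_jqModC_neg_natDegree]; exact leadingCoeff_ne_zero.mpr hR0)
      fun m hm => Igusa.coeff_aeval_jqModC_of_lt R hm
    have hY0 : aeval (jqModC QBar) R ≠ 0 :=
      (map_ne_zero_iff _ Igusa.aeval_jqModC_injective).mpr hR0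
    rw [← hR, ← map_aevalPoly _ (qExpand_const p), Igusa.order_qExpand hY0, hY] at hP
    have hp0 : (p : ℤ) ≠ 0 := Int.natCast_ne_zero.mpr hp.out.ne_zero
    exact_mod_cast mul_left_cancel₀ hp0 (by linarith : (p : ℤ) * R.natDegree = p * (p + 1))
  · rw [hN, hcoe, map_aevalPoly _ (qExpand_const p), hR]

include hpM in
/-- The norm of `j` from level `p M` to level `M`. -/
theorem normUp_upF (y : FB M) :
    NewformLocal.Toric.normUp p M (upF M p y) = y ^ (p + 1) := by
  letI := algebraAlong (upF M p)
  show Algebra.norm (FB M) (algebraMap (FB M) (FB (p * M)) y) = _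
  rw [Algebra.norm_algebraMap]
  exact congrArg _ (NewformLocal.Toric.finrankAlong_upF p M hpM)

/-- Poles bounded by `m` times those of a function `J` with poles over the cusps and norm of degree
`p + 1` in `j` give norms in `L((p + 1) m ∞)`. -/
theorem normUp_mem_HM {J : FB (p * M)}
    (hJ : ∀ w : Place QBar (FB (p * M)),
      (0 ≤ w.ord (upF M p (jM M)) → 0 ≤ w.ord J) ∧ (w.ord (upF M p (jM M)) < 0 → w.ord J < 0))
    {R : QBar[X]} (hd : R.natDegree = p + 1)
    (hN : NewformLocal.Toric.normUp p M J = aeval (jM M) R) {y : FB (p * M)} {m : ℕ}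
    (hy : y ∈ riemannRochSpace (m • FF.poles QBar J)) :
    NewformLocal.Toric.normUp p M y ∈ HM M ((p + 1) * m) := by
  rcases eq_or_ne y 0 with rfl | hy0
  · rw [show NewformLocal.Toric.normUp p M (0 : FB (p * M)) = 0 from by
      letI := algebraAlong (upF M p)
      haveI : Module.Finite (FB M) (FB (p * M)) := FF.finiteAlong (upF M p)
      exact Algebra.norm_zero]
    exact zero_mem _
  rw [RedTorsion.mem_polesSpace] at hy
  refine RedTorsion.mem_polesSpace.mpr fun v => FF.mem_ordGe_of_le v ?_
  set φ := upF M p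
  have hi := FF.isIntegralAlong φ
  have hsum : v.ord (NewformLocal.Toric.normUp p M y) =
      ∑ w ∈ Place.fiberAlong φ hi v, w.ord y * (w.inertiaDegAlong φ hi : ℤ) :=
    FF.ord_norm_along φ hi v hy0
  have hw : ∀ w ∈ Place.fiberAlong φ hi v,
      w.ord (φ (jM M)) = Place.ramificationIndexAlong φ w * v.ord (jM M) := fun w hw => by
    rw [Place.ord_restrictAlong φ hi, Place.mem_fiberAlong.mp hw]
  have hb : ∀ w : Place QBar (FB (p * M)), -((m : ℤ) * max 0 (-w.ord J)) ≤ w.ord y := fun w => by
    have h := FF.le_ord_of_mem_ordGe w hy0 (hy w)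
    rwa [FF.poles_apply] at h
  rw [hsum, FF.poles_apply]
  by_cases hv : v.ord (jM M) < 0
  · rw [max_eq_right (by omega)]
    have hR : R ≠ 0 := fun h => by rw [h, natDegree_zero] at hd; omega
    obtain ⟨hne, hord⟩ := RedTorsion.ord_aeval_of_pole v hv R hR
    have hJ0 : J ≠ 0 := fun h => hne (by
      rw [← hN, h]
      letI := algebraAlong (upF M p)
      haveI : Module.Finite (FB M) (FB (p * M)) := FF.finiteAlong (upF M p)
      exact Algebra.norm_zero)
    have hsumJ : v.ord (NewformLocal.Toric.normUp p M J) =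
        ∑ w ∈ Place.fiberAlong φ hi v, w.ord J * (w.inertiaDegAlong φ hi : ℤ) :=
      FF.ord_norm_along φ hi v hJ0
    rw [hN, hord, hd] at hsumJ
    have hle : ∀ w ∈ Place.fiberAlong φ hi v,
        (m : ℤ) * (w.ord J * (w.inertiaDegAlong φ hi : ℤ)) ≤
          w.ord y * (w.inertiaDegAlong φ hi : ℤ) := by
      intro w hmem
      rw [← mul_assoc]
      refine mul_le_mul_of_nonneg_right ?_ (Int.natCast_nonneg _)
      refine le_trans ?_ (hb w)
      have hneg : w.ord J < 0 := (hJ w).2 (by
        rw [hw w hmem]
        refine mul_neg_of_pos_of_neg ?_ hv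
        letI := algebraAlong φ
        haveI := isScalarTower_along φ
        haveI : Module.Finite (FB M) (FB (p * M)) := FF.finiteAlong φ
        exact_mod_cast w.ramificationIndex_pos)
      rw [max_eq_right (by omega)]
      linarith
    refine le_trans ?_ (Finset.sum_le_sum hle)
    rw [← Finset.mul_sum, ← hsumJ]
    push_cast
    linarith
  · rw [max_eq_left (by omega), mul_zero, neg_zero]
    refine Finset.sum_nonneg fun w hmem => mul_nonneg ?_ (Int.natCast_nonneg _)
    have hpos : 0 ≤ w.ord J := (hJ w).1 (by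
      rw [hw w hmem]
      exact mul_nonneg (Int.natCast_nonneg _) (not_lt.mp hv))
    have := hb w
    rwa [max_eq_left (by omega), mul_zero, neg_zero] at this

include hpM in
/-- The norm on the side of `∞`. -/
theorem normUp_mem_HM_up {y : FB (p * M)} {m : ℕ} (hy : y ∈ HN M p m) :
    NewformLocal.Toric.normUp p M y ∈ HM M ((p + 1) * m) :=
  normUp_mem_HM (J := upF M p (jM M)) (fun _ => ⟨id, id⟩) (natDegree_X_pow (p + 1))
    (by rw [normUp_upF hpM, map_pow, aeval_X]) hy

/-- The norm on the other side. -/
theorem normUp_mem_HM_down {y : FB (p * M)} {m : ℕ}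
    (hy : y ∈ riemannRochSpace (m • FF.poles QBar (downF M p hpM (jM M)))) :
    NewformLocal.Toric.normUp p M y ∈ HM M ((p + 1) * m) := by
  obtain ⟨R, hd, hN⟩ := exists_normUp_downF_jM (M := M) hpM
  exact normUp_mem_HM (fun w => ⟨(ord_downF_jM M p hpM w).1,
    fun h => ((ord_downF_jM M p hpM w).2 h).1⟩) hd hN hy

/-- The involution exchanges the two bounds. -/
theorem wEquiv_mem_poles_downF {y : FB (p * M)} {m : ℕ} (hy : y ∈ HN M p m) :
    wEquiv p M hpM y ∈ riemannRochSpace (m • FF.poles QBar (downF M p hpM (jM M))) := by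
  rw [RedTorsion.mem_polesSpace]
  intro v
  rw [FF.poles_apply]
  exact map_mem_ordGe (wEquiv p M hpM).toAlgHom hy v

end Fermat.Agent.Extra39

end
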