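import Fermat.Agent.EichlerShimura.Congruence
import Fermat.Agent.RT.MazurP.Incl
import Fermat.Agent.RT.LowerQ.Reduction
import Fermat.Agent.Mazur.Eisenstein.DiscValue

/-!
# The reduction of places and the degeneracy maps

In characteristic `p ∤ N l` the reduction of places commutes with both degeneracy maps from level
`N l` to level `N`, hence on degree zero with the correspondence `T_l`; it is onto, and carries
poles of `j` to poles of `j`.
-/

set_option autoImplicit false
set_option synthInstance.maxHeartbeats 400000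
set_option maxHeartbeats 1000000
set_option linter.unusedSectionVars false
set_option linter.style.haveILetI false

noncomputable section

namespace Fermat.Agent.Extra39

open AlgebraicCurve ModularCurve IsLocalRing
open Fermat.Agent.Semistable
open Arith (QBar)

section General

variable {K F F' : Type*} [Field K] [Field F] [Field F'] [Algebra K F] [Algebra K F']
  [FF.IsFunctionField K F] [FF.IsFunctionField K F']

theorem pullbackAlong_div (φ : F →ₐ[K] F') (hφ : φ.toRingHom.IsIntegral) (f : F) :
    Divisor.pullbackAlong φ hφ (FF.div K f) = FF.div K (φ f) := by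
  ext w
  rw [Divisor.pullbackAlong_apply, FF.div_apply, FF.div_apply, Place.ord_restrictAlong φ hφ]

theorem inertiaDegAlong_eq_one [IsAlgClosed K] (φ : F →ₐ[K] F') (hφ : φ.toRingHom.IsIntegral)
    (w : Place K F') : w.inertiaDegAlong φ hφ = 1 := by
  letI := algebraAlong φ
  haveI := isScalarTower_along φ
  haveI : Module.Finite F F' := FF.finiteAlong φ
  exact EichlerShimura.inertiaDeg_eq_one w

theorem degree_single_one [IsAlgClosed K] (v : Place K F) :
    Divisor.degree (Finsupp.single v (1 : ℤ)) = 1 := by
  rw [Divisor.degree_single, FF.deg_eq_one]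
  simp

theorem eq_zero_of_nonneg_of_degree [IsAlgClosed K] {D : Divisor K F} (h : 0 ≤ D)
    (hdeg : Divisor.degree D = 0) : D = 0 := by
  rw [FF.degree_eq_sum D D.support subset_rfl] at hdeg
  ext v
  by_cases hv : v ∈ D.support
  · have := (Finset.sum_eq_zero_iff_of_nonneg
      (fun w _ => mul_nonneg (h w) (Int.natCast_nonneg _))).mp hdeg v hv
    simpa [FF.deg_eq_one] using this
  · exact Finsupp.notMem_support_iff.mp hv

theorem mapDomain_nonneg {α β : Type*} (f : α → β) {D : α →₀ ℤ} (h : 0 ≤ D) :
    0 ≤ Finsupp.mapDomain f D := by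
  rw [Finsupp.mapDomain, Finsupp.sum]
  exact Finset.sum_nonneg fun a _ => Finsupp.single_nonneg.mpr (h a)

end General

variable {A : ValuationSubring QBar} [IsAlgClosed (Res A)]

section Place

variable {N : ℕ} [NeZero N]

/-- The reduction of places at level `N`. -/
def redPl (hN : (N : Res A) ≠ 0) : Place QBar (FB N) → Place (Res A) (KM A N) :=
  placeReductionModL (EichlerShimura.reductionInputsModL (A := A) hN)

theorem isRedPl (hN : (N : Res A) ≠ 0) : IsPlaceReductionModL A N (redPl hN) :=
  isPlaceReductionModL_placeReductionModL _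

variable [FF.IsFunctionField (Res A) (KM A N)] (hN : (N : Res A) ≠ 0)

theorem mapDomain_redPl_div (y : LaurentSeries A) (f : FB N) (g : KM A N)
    (hf : coeffMap A.subtype y = (f : LSer))
    (hg : coeffMap (residue A) y = (g : LaurentSeries (Res A))) (hg0 : g ≠ 0) :
    Finsupp.mapDomain (redPl hN) (FF.div QBar f) = FF.div (Res A) g :=
  EichlerShimura.mapDomain_div (isRedPl hN) y f g hf hg hg0

theorem jK_sub_ne_zero (t : Res A) : jK A N - algebraMap (Res A) (KM A N) t ≠ 0 := fun h =>
  jK_transcendental A N (by rw [sub_eq_zero.mp h]; exact isAlgebraic_algebraMap t)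

/-- The divisor of `j - c` reduces to that of `j - t`. -/
theorem mapDomain_div_jM_sub (c : A) :
    Finsupp.mapDomain (redPl hN) (FF.div QBar (jM N - algebraMap QBar (FB N) (c : QBar))) =
      FF.div (Res A) (jK A N - algebraMap (Res A) (KM A N) (residue A c)) := by
  refine mapDomain_redPl_div hN (jqModC A - HahnSeries.C c) _ _ ?_ ?_ (jK_sub_ne_zero _)
  · rw [map_sub, coeffMap_jqModC, AddSubgroupClass.coe_sub, coe_jM, IntermediateField.coe_algebraMap_apply,
      algebraMap_laurentSeries_eq_single, HahnSeries.C_apply, coeffMap_single]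
    rfl
  · rw [map_sub, coeffMap_jqModC, AddSubgroupClass.coe_sub, coe_jK, IntermediateField.coe_algebraMap_apply,
      algebraMap_laurentSeries_eq_single, HahnSeries.C_apply, coeffMap_single]

theorem mapDomain_div_jM :
    Finsupp.mapDomain (redPl hN) (FF.div QBar (jM N)) = FF.div (Res A) (jK A N) := by
  have h := mapDomain_div_jM_sub hN (0 : A)
  simpa using h

theorem redPl_surjective : Function.Surjective (redPl hN) := by
  intro v
  by_contra hv
  push Not at hv
  have h0 : ∀ c : A, v.ord (jK A N - algebraMap (Res A) (KM A N) (residue A c)) = 0 := fun c => by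
    rw [← FF.div_apply, ← mapDomain_div_jM_sub hN c]
    exact Finsupp.mapDomain_of_notMem_range _ _ (fun ⟨P, hP⟩ => hv P hP)
  have hmem : jK A N ∈ v.toValuationSubring := by
    have := h0 0
    rw [map_zero, map_zero, sub_zero] at this
    exact (FF.mem_iff v).mpr (Or.inr this.ge)
  obtain ⟨t, ht⟩ := RedTorsion.exists_sub_mem_ordGe_one v ((FF.mem_ordGe_zero v).mpr hmem)
  obtain ⟨c, rfl⟩ := residue_surjective t
  have := FF.le_ord_of_mem_ordGe v (jK_sub_ne_zero _) ht
  rw [h0 c] at this
  omega

theorem exists_redPl_ne (v : Place (Res A) (KM A N)) : ∃ P, redPl hN P ≠ v := by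
  by_contra h
  push Not at h
  have h1 : ∀ D : Divisor QBar (FB N), Finsupp.mapDomain (redPl hN) D =
      Finsupp.single v (Divisor.degree D) := fun D => by
    induction D using Finsupp.induction with
    | zero => simp
    | single_add P n D _ _ ih =>
      rw [Finsupp.mapDomain_add, ih, Finsupp.mapDomain_single, h, map_add, Divisor.degree_single,
        FF.deg_eq_one, Nat.cast_one, mul_one, Finsupp.single_add]
  have h2 := mapDomain_div_jM hN
  rw [h1, FF.degree_div, Finsupp.single_zero] at h2
  have hp : FF.poles (Res A) (jK A N) = 0 := by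
    ext w
    rw [FF.poles_apply, ← FF.div_apply, ← h2]
    simp
  have hd := degree_poles_jK (A := A) N hN
  rw [hp, map_zero] at hd
  exact (Nat.cast_ne_zero (R := ℤ)).mpr (Semistable.dedekindPsi_pos N).ne' hd.symm

/-- Poles of `j` reduce to poles of `j`. -/
theorem mapDomain_poles_jM :
    Finsupp.mapDomain (redPl hN) (FF.poles QBar (jM N)) = FF.poles (Res A) (jK A N) := by
  have h1 : Finsupp.mapDomain (redPl hN) (FF.poles QBar (jM N)⁻¹) -
      Finsupp.mapDomain (redPl hN) (FF.poles QBar (jM N)) =
      FF.poles (Res A) (jK A N)⁻¹ - FF.poles (Res A) (jK A N) := by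
    rw [← Finsupp.mapDomain_sub, ← FF.div_eq_poles_sub, ← FF.div_eq_poles_sub,
      mapDomain_div_jM]
  have h2 : 0 ≤ Finsupp.mapDomain (redPl hN) (FF.poles QBar (jM N)) -
      FF.poles (Res A) (jK A N) := by
    refine Finsupp.le_def.mpr fun v => ?_
    have e := DFunLike.congr_fun h1 v
    have hz := mapDomain_nonneg (redPl hN) (FF.poles_nonneg (K := QBar) (jM N)⁻¹) v
    have hp := mapDomain_nonneg (redPl hN) (FF.poles_nonneg (K := QBar) (jM N)) v
    simp only [Finsupp.sub_apply, Finsupp.coe_zero, Pi.zero_apply, FF.poles_apply, Place.ord_inv,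
      neg_neg] at e hz hp ⊢
    omega
  refine sub_eq_zero.mp (eq_zero_of_nonneg_of_degree h2 ?_)
  rw [map_sub, degree_mapDomain_of_deg_eq (isRedPl hN).1, degree_poles_jM, degree_poles_jK (A := A) N hN,
    sub_self]

/-- A place over a finite value of `j` has only finite lifts. -/
theorem ord_jM_nonneg_of_redPl {P : Place QBar (FB N)}
    (h : 0 ≤ (redPl hN P).ord (jK A N)) : 0 ≤ P.ord (jM N) := by
  classical
  have e := DFunLike.congr_fun (mapDomain_poles_jM hN) (redPl hN P)
  rw [FF.poles_apply, Finsupp.mapDomain_apply_eq_sum] at e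
  by_contra hneg
  have := Finset.single_le_sum (f := fun x => FF.poles QBar (jM N) x)
    (fun x _ => FF.poles_nonneg (K := QBar) (jM N) x)
    (show P ∈ (FF.poles QBar (jM N)).support.filter (fun x => redPl hN x = redPl hN P) from
      Finset.mem_filter.mpr ⟨by rw [Finsupp.mem_support_iff, FF.poles_apply]; omega, rfl⟩)
  rw [e, FF.poles_apply] at this
  omega

end Place

section Maps

variable {N : ℕ} [NeZero N] (l : ℕ) [NeZero l]

variable (A N) in
/-- The inclusion of level `N` in level `N l` over the residue field. -/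
def alphaK : KM A N →ₐ[Res A] KM A (N * l) :=
  IntermediateField.inclusion (full_degeneracyC_le (Res A) (dvd_mul_right N l))

theorem qExpand_mem_KM (x : KM A N) :
    qExpand (Res A) l (x : LaurentSeries (Res A)) ∈ KM A (N * l) :=
  full_degeneracyC_map_le (Res A) N l ⟨(x : LaurentSeries (Res A)), x.2, rfl⟩

variable (A N) in
/-- `q ↦ q ^ l` as a morphism of rings. -/
def betaKRing : KM A N →+* KM A (N * l) where
  toFun x := ⟨qExpand (Res A) l (x : LaurentSeries (Res A)), qExpand_mem_KM l x⟩
  map_one' := Subtype.ext (map_one (qExpand (Res A) l))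
  map_mul' _ _ := Subtype.ext (map_mul (qExpand (Res A) l) _ _)
  map_zero' := Subtype.ext (map_zero (qExpand (Res A) l))
  map_add' _ _ := Subtype.ext (map_add (qExpand (Res A) l) _ _)

variable (A N) in
/-- `q ↦ q ^ l` from level `N` to level `N l` over the residue field. -/
def betaK : KM A N →ₐ[Res A] KM A (N * l) :=
  { betaKRing A N l with
    commutes' := fun a => Subtype.ext <| by
      show qExpand (Res A) l (algebraMap (Res A) (LaurentSeries (Res A)) a) =
        algebraMap (Res A) (LaurentSeries (Res A)) a
      rw [algebraMap_laurentSeries_eq_single, qExpand_single, mul_zero] }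

theorem coe_alphaK (x : KM A N) :
    (alphaK A N l x : LaurentSeries (Res A)) = (x : LaurentSeries (Res A)) :=
  IntermediateField.coe_inclusion (full_degeneracyC_le (Res A) (dvd_mul_right N l)) x

theorem coe_betaK (x : KM A N) :
    (betaK A N l x : LaurentSeries (Res A)) = qExpand (Res A) l (x : LaurentSeries (Res A)) := rfl

/-- Two morphisms are compatible on series with integral coefficients. -/
def CompatRed {N' : ℕ} [NeZero N'] (φ : FB N →ₐ[QBar] FB N')
    (φ' : KM A N →ₐ[Res A] KM A N') : Prop :=
  ∀ (y : LaurentSeries A) (f : FB N) (g : KM A N), coeffMap A.subtype y = (f : LSer) →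
    coeffMap (residue A) y = (g : LaurentSeries (Res A)) →
    ∃ y' : LaurentSeries A, coeffMap A.subtype y' = (φ f : LSer) ∧
      coeffMap (residue A) y' = (φ' g : LaurentSeries (Res A))

theorem compatRed_alpha : CompatRed (heckeAlphaBar QBar N l) (alphaK A N l) := fun y f g hf hg =>
  ⟨y, by rw [coe_heckeAlphaBar]; exact hf, by rw [coe_alphaK]; exact hg⟩

theorem compatRed_beta : CompatRed (heckeBetaBar QBar N l) (betaK A N l) := fun y f g hf hg =>
  ⟨qExpand A l y, by rw [coe_heckeBetaBar, coeffMap_qExpand, hf],
    by rw [coe_betaK, coeffMap_qExpand, hg]⟩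

variable {l} [FF.IsFunctionField (Res A) (KM A N)] [FF.IsFunctionField (Res A) (KM A (N * l))]
variable (hN : (N : Res A) ≠ 0) (hNl : ((N * l : ℕ) : Res A) ≠ 0)

theorem mapDomain_pullback {φ : FB N →ₐ[QBar] FB (N * l)}
    {φ' : KM A N →ₐ[Res A] KM A (N * l)} (hc : CompatRed φ φ') {D : Divisor QBar (FB N)}
    (hD : D ∈ Divisor.degZero (K := QBar) (F := FB N)) :
    Finsupp.mapDomain (redPl hNl) (Divisor.pullbackAlong φ (FF.isIntegralAlong φ) D) =
      Divisor.pullbackAlong φ' (FF.isIntegralAlong φ') (Finsupp.mapDomain (redPl hN) D) := by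
  let δ := (Finsupp.mapDomain.addMonoidHom (redPl hNl)).comp
      (Divisor.pullbackAlong φ (FF.isIntegralAlong φ)) -
    (Divisor.pullbackAlong φ' (FF.isIntegralAlong φ')).comp
      (Finsupp.mapDomain.addMonoidHom (redPl hN))
  refine sub_eq_zero.mp (EichlerShimura.eq_zero_of_degree_zero (A := A) hN δ (fun E hE => ?_) D hD)
  obtain ⟨y, hy, hyk, hne, rfl⟩ := EichlerShimura.exists_eq_div hE
  set f : FB N := ⟨coeffMap A.subtype y, hy⟩
  set g : KM A N := ⟨coeffMap (residue A) y, hyk⟩
  have hg0 : g ≠ 0 := fun h => hne (congrArg Subtype.val h)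
  obtain ⟨y', hy', hyk'⟩ := hc y f g rfl rfl
  show Finsupp.mapDomain (redPl hNl) (Divisor.pullbackAlong φ (FF.isIntegralAlong φ) (FF.div QBar f)) -
    Divisor.pullbackAlong φ' (FF.isIntegralAlong φ') (Finsupp.mapDomain (redPl hN) (FF.div QBar f)) = 0
  rw [mapDomain_redPl_div hN y f g rfl rfl hg0, pullbackAlong_div, pullbackAlong_div,
    mapDomain_redPl_div hNl y' _ _ hy' hyk' ((_root_.map_ne_zero _).mpr hg0), sub_self]

include hN hNl in
/-- The degree of a degeneracy map does not change under reduction. -/
theorem finrankAlong_alphaK :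
    finrankAlong (Res A) (alphaK A N l) = finrankAlong QBar (heckeAlphaBar QBar N l) := by
  have hα : heckeAlphaBar QBar N l = RT.MazurP.inclF (dvd_mul_right N l) :=
    AlgHom.ext fun x => Subtype.ext
      ((coe_heckeAlphaBar (L := QBar) (N := N) (ℓ := l) x).trans (RT.MazurP.coe_inclF _ x).symm)
  rw [hα]
  have e₀ := RT.MazurP.finrankAlong_inclF (dvd_mul_right N l)
  letI := algebraAlong (alphaK A N l)
  haveI := isScalarTower_along (alphaK A N l)
  haveI : Module.Finite (KM A N) (KM A (N * l)) := FF.finiteAlong (alphaK A N l)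
  have e := (FF.finite_and_finrank_adjoin_algebraMap (F' := KM A (N * l)) (jK_transcendental A N)).2
  have hj : algebraMap (KM A N) (KM A (N * l)) (jK A N) = jK A (N * l) :=
    Subtype.ext ((coe_alphaK l (jK A N)).trans (by rw [coe_jK, coe_jK]))
  rw [hj] at e
  have f1 : Module.finrank (IntermediateField.adjoin (Res A) {jK A (N * l)})
      (KM A (N * l)) = dedekindPsi (N * l) :=
    (RedTorsion.finrank_jF (F := KM A (N * l)) rfl hNl).trans (ModFun.natCard_coset _)
  have f0 : Module.finrank (IntermediateField.adjoin (Res A) {jK A N}) (KM A N) =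
      dedekindPsi N :=
    (RedTorsion.finrank_jF (F := KM A N) rfl hN).trans (ModFun.natCard_coset _)
  rw [f1, f0, ← e₀] at e
  exact (Nat.eq_of_mul_eq_mul_left (Semistable.dedekindPsi_pos N) e).symm

/-- **The reduction of places commutes with the inclusion of level `N`.** -/
theorem restrictAlong_redPl (w : Place QBar (FB (N * l))) :
    (redPl hNl w).restrictAlong (alphaK A N l) (FF.isIntegralAlong _) =
      redPl hN (w.restrictAlong (heckeAlphaBar QBar N l) (FF.isIntegralAlong _)) := by
  classical
  set α := heckeAlphaBar QBar N l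
  set α' := alphaK A N l
  set P₀ := w.restrictAlong α (FF.isIntegralAlong _) with hP₀
  let E : Place QBar (FB N) → Divisor (Res A) (KM A (N * l)) := fun P =>
    Finsupp.mapDomain (redPl hNl)
        (Divisor.pullbackAlong α (FF.isIntegralAlong α) (Finsupp.single P 1)) -
      Divisor.pullbackAlong α' (FF.isIntegralAlong α') (Finsupp.single (redPl hN P) 1)
  have hconst : ∀ P, E P = E P₀ := fun P => by
    have h := mapDomain_pullback hN hNl (compatRed_alpha (A := A) (N := N) l)
      (D := Finsupp.single P 1 - Finsupp.single P₀ 1)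
      (by rw [Divisor.mem_degZero, map_sub, degree_single_one, degree_single_one, sub_self])
    simp only [Finsupp.mapDomain_sub, map_sub, Finsupp.mapDomain_single] at h
    exact sub_eq_sub_iff_sub_eq_sub.mp h
  have hnn : 0 ≤ E P₀ := Finsupp.le_def.mpr fun Q => by
    obtain ⟨P, hP⟩ := exists_redPl_ne hN (Q.restrictAlong α' (FF.isIntegralAlong _))
    rw [← hconst P, Finsupp.coe_zero, Pi.zero_apply, Finsupp.sub_apply,
      Divisor.pullbackAlong_apply α', Finsupp.single_eq_of_ne hP.symm, mul_zero, sub_zero]
    refine mapDomain_nonneg _ (Finsupp.le_def.mpr fun W => ?_) Q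
    rw [Finsupp.coe_zero, Pi.zero_apply, Divisor.pullbackAlong_apply]
    exact mul_nonneg (Int.natCast_nonneg _) (Finsupp.single_nonneg.mpr zero_le_one _)
  have hdeg : Divisor.degree (E P₀) = 0 := by
    rw [map_sub, degree_mapDomain_of_deg_eq (isRedPl hNl).1,
      Divisor.degree_pullbackAlong _ _ (FF.fundamentalIdentityAlong _ _),
      Divisor.degree_pullbackAlong _ _ (FF.fundamentalIdentityAlong _ _), degree_single_one,
      degree_single_one, finrankAlong_alphaK hN hNl, sub_self]
  have h0 := sub_eq_zero.mp (eq_zero_of_nonneg_of_degree hnn hdeg)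
  have e := DFunLike.congr_fun h0 (redPl hNl w)
  rw [Divisor.pullbackAlong_apply α'] at e
  by_contra hne
  rw [Finsupp.single_eq_of_ne hne, mul_zero] at e
  have hpos : 0 < (w.ramificationIndexAlong α : ℤ) := by
    letI := algebraAlong α
    haveI := isScalarTower_along α
    haveI : Module.Finite (FB N) (FB (N * l)) := FF.finiteAlong α
    exact_mod_cast (FF.e_pos (F := FB N) w)
  set D := Divisor.pullbackAlong α (FF.isIntegralAlong α) (Finsupp.single P₀ (1 : ℤ))
  have hDnn : ∀ W, 0 ≤ D W := fun W => by
    rw [Divisor.pullbackAlong_apply]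
    exact mul_nonneg (Int.natCast_nonneg _) (Finsupp.single_nonneg.mpr zero_le_one _)
  have hDw : D w = w.ramificationIndexAlong α := by
    rw [Divisor.pullbackAlong_apply, ← hP₀, Finsupp.single_eq_same, mul_one]
  rw [Finsupp.mapDomain_apply_eq_sum] at e
  have := Finset.single_le_sum (f := fun x => D x) (fun x _ => hDnn x)
    (show w ∈ D.support.filter (fun x => redPl hNl x = redPl hNl w) from
      Finset.mem_filter.mpr ⟨by rw [Finsupp.mem_support_iff, hDw]; omega, rfl⟩)
  rw [e, hDw] at this
  omega

theorem mapDomain_pushforward (D : Divisor QBar (FB (N * l))) :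
    Finsupp.mapDomain (redPl hN)
        (Divisor.pushforwardAlong (heckeAlphaBar QBar N l) (FF.isIntegralAlong _) D) =
      Divisor.pushforwardAlong (alphaK A N l) (FF.isIntegralAlong _)
        (Finsupp.mapDomain (redPl hNl) D) := by
  induction D using Finsupp.induction with
  | zero => simp
  | single_add w n D _ _ ih =>
    rw [map_add, Finsupp.mapDomain_add, Finsupp.mapDomain_add, map_add, ih,
      Finsupp.mapDomain_single, Divisor.pushforwardAlong_single, Divisor.pushforwardAlong_single,
      Finsupp.mapDomain_single, inertiaDegAlong_eq_one, inertiaDegAlong_eq_one,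
      restrictAlong_redPl hN hNl]

variable (A N l) in
/-- The Hecke correspondence over the residue field. -/
def heckeDivK : Divisor (Res A) (KM A N) →+ Divisor (Res A) (KM A N) :=
  Divisor.correspondence (betaK A N l) (alphaK A N l) (FF.isIntegralAlong _)
    (FF.isIntegralAlong _)

variable (A N l) in
/-- The Hecke correspondence on classes over the residue field. -/
def heckeK : JZeroC (Res A) N →+ JZeroC (Res A) N :=
  Pic0.correspondence (betaK A N l) (alphaK A N l) (FF.isIntegralAlong _) (FF.isIntegralAlong _)
    (FF.fundamentalIdentityAlong _ _) (FF.finiteAlong _) (FF.normFormulaAlong _ _)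

variable (N l) in
/-- The Hecke correspondence on divisors over `ℚ̄`. -/
def heckeDivB : Divisor QBar (FB N) →+ Divisor QBar (FB N) :=
  Divisor.correspondence (heckeBetaBar QBar N l) (heckeAlphaBar QBar N l) (FF.isIntegralAlong _)
    (FF.isIntegralAlong _)

include hN hNl in
/-- **Reduction commutes with `T_l` on divisors of degree zero.** -/
theorem mapDomain_heckeDiv {D : Divisor QBar (FB N)}
    (hD : D ∈ Divisor.degZero (K := QBar) (F := FB N)) :
    Finsupp.mapDomain (redPl hN) (heckeDivB N l D) =
      heckeDivK A N l (Finsupp.mapDomain (redPl hN) D) := by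
  rw [heckeDivB, heckeDivK, Divisor.correspondence_apply, Divisor.correspondence_apply,
    mapDomain_pushforward hN hNl, mapDomain_pullback hN hNl (compatRed_beta l) hD]

include hN hNl in
/-- **Reduction commutes with `T_l` on classes.** -/
theorem reductionModL_heckeK (hl : l.Prime) (x : JZero N) :
    reductionModL A N (heckeOperatorBar N (⟨l, hl⟩ : Nat.Primes) x) =
      heckeK A N l (reductionModL A N x) := by
  obtain ⟨D, rfl⟩ := Pic0.mk_surjective x
  have hop : heckeOperatorBar N (⟨l, hl⟩ : Nat.Primes) (Pic0.mk D) = Pic0.mk (Pic0.degZeroCorrespondence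
      (heckeBetaBar QBar N l) (heckeAlphaBar QBar N l) (FF.isIntegralAlong _)
      (FF.isIntegralAlong _) (FF.fundamentalIdentityAlong _ _) D) := by
    refine (heckeOperatorBar_apply _ _ _).trans ?_
    exact DFunLike.congr_fun (heckeOperatorAlong_eq (L := QBar) (N := N) (ℓ := l)
      (FF.isIntegralAlong _) (FF.isIntegralAlong _) (FF.fundamentalIdentityAlong _ _)
      (FF.finiteAlong _) (FF.normFormulaAlong _ _)) _
  rw [hop, reductionModL_mk (EichlerShimura.reductionInputsModL (A := A) hN),
    reductionModL_mk (EichlerShimura.reductionInputsModL (A := A) hN), heckeK,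
    Pic0.correspondence_mk]
  exact congrArg Pic0.mk (Subtype.ext (mapDomain_heckeDiv hN hNl D.2))

end Maps

end Fermat.Agent.Extra39

end
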