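import Fermat.Agent.Extra39.RedDegeneracy
import Fermat.Agent.Extra39.HeckeAnn
import Fermat.Agent.RT.MazurP.HeckeKum
import Fermat.Agent.RT.LowerQ.Classes

/-!
# Eigen functions on the reduced curve

On the reduced curve of level `M` prime to `p`, a function with divisor divisible by `p`, not a
`p`-th power, whose Hecke images are its `a_l`-th powers up to `p`-th powers, gives the system
`a` in `J₀(M)[p]`.
-/

set_option autoImplicit false
set_option synthInstance.maxHeartbeats 400000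
set_option maxHeartbeats 1000000
set_option linter.unusedSectionVars false

noncomputable section

namespace Fermat.Agent.Extra39

open AlgebraicCurve ModularCurve IsLocalRing
open Fermat.Agent.Semistable Fermat.Agent.RT.MazurP
open Fermat.Agent.JacTorsion (divGrp toTorsion divQuot smul_divQuot eq_of_smul_eq)
open Arith (QBar)

variable {A : ValuationSubring QBar} {p : ℕ} [Fact p.Prime] [CharP (Res A) p]
  {M : ℕ} [NeZero M] [IsAlgClosed (Res A)] [FF.IsFunctionField (Res A) (KM A M)]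

/-- The divisor of a reduction is the reduced divisor. -/
theorem mapDomain_div_of_isRed (hA : A.LiesOverPrime p) (hM : (M : Res A) ≠ 0) {f : FB M}
    (hf : f ≠ 0) {z : KM A M} (hz : IsRed A (f : LSer) (z : LaurentSeries (Res A))) :
    Finsupp.mapDomain (redPl hM) (FF.div QBar f) = FF.div (Res A) z := by
  obtain ⟨z₀, hz₀, hd⟩ := RT.LowerQ.exists_isRed_div (q := p) hA hM (isRedPl hM) hf
  obtain ⟨c, hc, hcz⟩ := IsRed.unique hz₀ hz
  have hz0 : z ≠ 0 := fun h => hz.1 (congrArg Subtype.val h)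
  have hz₀0 : z₀ ≠ 0 := fun h => hz₀.1 (congrArg Subtype.val h)
  have e : z = algebraMap (Res A) (KM A M) c * z₀ := Subtype.ext (by rw [hcz]; rfl)
  rw [hd]
  ext P
  rw [FF.div_apply, FF.div_apply, e, P.ord_mul ((_root_.map_ne_zero _).mpr hc) hz₀0,
    FF.ord_algebraMap, zero_add]

variable {l : ℕ} [NeZero l] [FF.IsFunctionField (Res A) (KM A (M * l))]

/-- **The correspondence over the residue field is given by Hecke images.** -/
theorem heckeDivK_div (hA : A.LiesOverPrime p) (hl : l.Prime) (hlN : ¬ l ∣ p * M)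
    (hM : (M : Res A) ≠ 0) (hMl : ((M * l : ℕ) : Res A) ≠ 0) {z X : KM A M} (hz : z ≠ 0)
    (hX : IsHeckeImage l (z : LaurentSeries (Res A)) (X : LaurentSeries (Res A))) :
    heckeDivK A M l (FF.div (Res A) z) = FF.div (Res A) X := by
  have hp : p.Prime := Fact.out
  have hlM : ¬ l ∣ M := fun h => hlN (dvd_mul_of_dvd_right h p)
  have hlp : ¬ p ∣ l := not_dvd_of_not_dvd_mul hl hlN
  obtain ⟨x₁, hx₁⟩ := red1_surjective M hM z.2
  have hx₁r : IsRed A ((x₁ : FB M) : LSer) (z : LaurentSeries (Res A)) := by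
    have h1 : redL A ⟨((x₁ : FB M) : LSer), (Semistable.mem_loc1 M).mp x₁.2⟩ = z := hx₁
    have h2 := IsRed.of_locS ((Semistable.mem_loc1 M).mp x₁.2)
      (by rw [h1]; exact fun h => hz (Subtype.ext h))
    rwa [h1] at h2
  have hx₁0 : (x₁ : FB M) ≠ 0 := fun h0 => by
    refine hz (Subtype.ext (hx₁.symm.trans ?_))
    rw [show x₁ = 0 from Subtype.ext h0, map_zero]
    rfl
  obtain ⟨Y, hY, hYim⟩ := exists_isRed_heckeImage hA hp hlp (mem_fracS_of_mem _)
    (fun ζ hζ => qExpand_heckeNorm hl hlM hζ (x₁ : FB M)) hx₁r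
  obtain ⟨ζ, hζ⟩ := exists_primitive (N := M) hl hlM
  have hη := resRoot_primitive hA hp hlp hζ
  have hYX : Y = (X : LaurentSeries (Res A)) :=
    qExpand_injective l ((hYim _ hη).trans (hX _ hη).symm)
  rw [hYX] at hY
  rw [← mapDomain_div_of_isRed hA hM hx₁0 hx₁r,
    ← mapDomain_heckeDiv hM hMl (show FF.div QBar (x₁ : FB M) ∈ Divisor.degZero from
      Divisor.mem_degZero.mpr (FF.degree_div _)),
    show heckeDivB M l (FF.div QBar (x₁ : FB M)) = FF.div QBar (heckeNorm M l (x₁ : FB M)) from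
      EichlerShimura.heckeDivBar_div _ hx₁0]
  exact mapDomain_div_of_isRed hA hM (heckeNorm_ne_zero (l := l) hx₁0) hY

omit [NeZero l] [FF.IsFunctionField (Res A) (KM A (M * l))] in
/-- **An eigen function of the reduced curve gives the system in `J₀(M)[p]`.** -/
theorem eigTors_ne_bot_of_redClass (hA : A.LiesOverPrime p) (hM : (M : Res A) ≠ 0) (S : Finset ℕ)
    (hS : ∀ l : ℕ, l.Prime → l ∉ S → ¬ l ∣ p * M) (a : ℕ → ℤ) (r : KM A M) (hr0 : r ≠ 0)
    (hnp : ∀ g : KM A M, g ^ p ≠ r) (hdiv : ∀ P : Place (Res A) (KM A M), (p : ℤ) ∣ P.ord r)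
    (hrel : ∀ (l : ℕ) [NeZero l], l.Prime → l ∉ S → ∃ (X g : KM A M) (u : Res A), g ≠ 0 ∧ u ≠ 0 ∧
      IsHeckeImage l (r : LaurentSeries (Res A)) (X : LaurentSeries (Res A)) ∧
      X = algebraMap (Res A) (KM A M) u * r ^ (a l) * g ^ p) :
    RT.LowerQ.EigTors M p S (fun l => (a l : ZMod p)) ≠ ⊥ := by
  have hp : p.Prime := Fact.out
  have : NeZero p := ⟨hp.ne_zero⟩
  let ru : divGrp (Res A) (KM A M) p :=
    ⟨Units.mk0 r hr0, fun P => by rw [Units.val_mk0]; exact hdiv P⟩
  set D₀ := divQuot ru with hD₀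
  have hp₀ : (p : ℤ) • D₀ = FF.div (Res A) r := smul_divQuot ru
  set c : JZeroC (Res A) M := Pic0.mk ⟨D₀, JacTorsion.divQuot_mem_degZero ru⟩ with hc
  have hct : ((toTorsion (Additive.ofMul ru) : Pic0.torsion (Res A) (KM A M) p) :
      JZeroC (Res A) M) = c := rfl
  have hc0 : c ≠ 0 := fun h => by
    obtain ⟨g, -, hg⟩ := RT.LowerQ.exists_eq_pow_of_toTorsion_eq_zero
      (f := ru) (Subtype.ext (hct.trans h))
    exact hnp g hg.symm
  have hpc : p • c = 0 := by
    rw [← hct]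
    exact RT.LowerQ.nsmul_m_toTorsion ru
  -- a lift of the class
  obtain ⟨s, hs⟩ := (redPl_surjective hM).hasRightInverse
  have hD : Finsupp.mapDomain (redPl hM) (Finsupp.mapDomain s D₀) = D₀ := by
    rw [← Finsupp.mapDomain_comp, show redPl hM ∘ s = id from funext hs, Finsupp.mapDomain_id]
  have hdeg : Finsupp.mapDomain s D₀ ∈ Divisor.degZero (K := QBar) (F := FB M) := by
    rw [Divisor.mem_degZero, ← degree_mapDomain_of_deg_eq (isRedPl hM).1, hD]
    exact Divisor.mem_degZero.mp (JacTorsion.divQuot_mem_degZero ru)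
  have hx₀ : reductionModL A M (Pic0.mk ⟨_, hdeg⟩) = c := by
    rw [reductionModL_mk (EichlerShimura.reductionInputsModL (A := A) hM)]
    exact congrArg Pic0.mk (Subtype.ext hD)
  refine eigTors_ne_bot_of_scales (reductionModL A M) c hx₀ hpc hc0 S a fun l hl hlS k x hx => ?_
  have : NeZero l := ⟨hl.ne_zero⟩
  have hlN := hS l hl hlS
  have hMl : ((M * l : ℕ) : Res A) ≠ 0 := by
    rw [Nat.cast_mul]
    exact mul_ne_zero hM fun h =>
      not_dvd_of_not_dvd_mul hl hlN ((CharP.cast_eq_zero_iff (Res A) p l).mp h)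
  have := isFunctionField_KM (A := A) (M := M * l) hMl
  refine (reductionModL_heckeK hM hMl hl x).trans ?_
  rw [hx, map_zsmul, mul_comm, mul_zsmul]
  refine congrArg (k • ·) ?_
  obtain ⟨X, g, u, hg, hu, hX, e⟩ := hrel l hl hlS
  have hT : heckeDivK A M l D₀ = a l • D₀ + FF.div (Res A) g := by
    refine eq_of_smul_eq (m := p) ?_
    rw [← map_zsmul, hp₀, heckeDivK_div hA hl hlN hM hMl hr0 hX, smul_add, smul_comm, hp₀]
    ext P
    rw [Finsupp.add_apply, Finsupp.smul_apply, Finsupp.smul_apply, FF.div_apply, FF.div_apply,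
      FF.div_apply, e, P.ord_mul (mul_ne_zero ((_root_.map_ne_zero _).mpr hu) (zpow_ne_zero _ hr0))
        (pow_ne_zero _ hg), P.ord_mul ((_root_.map_ne_zero _).mpr hu) (zpow_ne_zero _ hr0),
      FF.ord_algebraMap, P.ord_zpow, FF.ord_pow P, smul_eq_mul, smul_eq_mul]
    ring
  have hg' : FF.div (Res A) g ∈ Divisor.degZero (K := Res A) (F := KM A M) :=
    Divisor.mem_degZero.mpr (FF.degree_div g)
  have hzero : Pic0.mk ⟨FF.div (Res A) g, hg'⟩ = (0 : JZeroC (Res A) M) :=
    (QuotientAddGroup.eq_zero_iff _).mpr ⟨g, hg, fun v => FF.div_apply g v⟩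
  rw [hc, heckeK, Pic0.correspondence_mk]
  calc Pic0.mk _ = Pic0.mk (a l • (⟨D₀, JacTorsion.divQuot_mem_degZero ru⟩ :
        Divisor.degZero (K := Res A) (F := KM A M)) + ⟨_, hg'⟩) :=
        congrArg Pic0.mk (Subtype.ext hT)
    _ = _ := by rw [Pic0.mk_add, hzero, add_zero]; rfl

end Fermat.Agent.Extra39

end
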