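import Fermat.Agent.Extra39.Basic
import Fermat.Agent.RT.MazurP.Trivial.Main

/-!
# Relations between sections of a class with trivial reductions

The depth of a relation is bounded unless the class is principal; a relation whose quotient
reduces into `J ^ n B + B` deepens; beyond `e / (p - 1)` this is always so, below it the `p`-th
power of the quotient reduces into `J ^ (n p) B + B`.
-/

set_option autoImplicit false
set_option synthInstance.maxHeartbeats 400000
set_option maxHeartbeats 1000000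
set_option linter.unusedSectionVars false

noncomputable section

namespace Fermat.Agent.Extra39

open ModularCurve AlgebraicCurve Fermat.Agent.Semistable Fermat.Agent.Arith
open Fermat.Agent.RT.Mazur Fermat.Agent.RT.MazurP

variable {A : ValuationSubring QBar} {p M : ℕ} [Fact p.Prime] [CharP (Res A) p] [NeZero M]
variable [FF.IsFunctionField (Res A) (KM A M)] {hpM : ¬ p ∣ M} {C : CoefField A p}

/-- `J ^ n L(n ∞ + D)` and `L(n ∞ + D)` meet trivially if `D` has no section. -/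
theorem map_inf_eq_bot {K : Kum hpM C}
    (hL0 : ∀ y ∈ riemannRochSpace K.D, y = (0 : FB (p * M))) (n : ℕ) :
    (K.V n).map (LinearMap.mulLeft QBar ((Jp A hpM : FB (p * M)) ^ n)) ⊓ K.V n = ⊥ := by
  rw [Submodule.eq_bot_iff]
  rintro _ ⟨⟨y, hy, rfl⟩, hy'⟩
  suffices hy0 : y = 0 by rw [hy0]; exact map_zero _
  by_contra hy0
  refine hy0 (hL0 y (FF.mem_riemannRochSpace'.mpr fun v => ?_))
  have h1 := FF.mem_riemannRochSpace'.mp hy v
  rw [Finsupp.add_apply, RedTorsion.nsmul_poles_apply] at h1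
  by_cases hv : v.ord (upF M p (jM M)) < 0
  · have hy'' : (Jp A hpM : FB (p * M)) ^ n * y ∈ K.V n := hy'
    have h2 := FF.le_ord_of_mem_ordGe v (mul_ne_zero (Jp_pow_ne_zero n) hy0)
      (FF.mem_riemannRochSpace'.mp hy'' v)
    rw [v.ord_mul (Jp_pow_ne_zero n) hy0, FF.ord_pow, Finsupp.add_apply,
      RedTorsion.nsmul_poles_apply, coe_Jp, FF.poles_apply, max_eq_right (by omega)] at h2
    exact FF.mem_ordGe_of_le v (by linarith)
  · rwa [FF.poles_apply, max_eq_left (by omega), mul_zero, add_zero] at h1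

/-- A class with a section is principal. -/
theorem Kum.exists_principal_of_ne (K : Kum hpM C)
    (h : ¬ ∀ y ∈ riemannRochSpace K.D, y = (0 : FB (p * M))) :
    ∃ (h : FB (p * M)) (c : QBar), K.f = algebraMap QBar (FB (p * M)) c * h ^ p := by
  push Not at h
  obtain ⟨y, hy, hy0⟩ := h
  have hyD := exists_principal_of_section K.degree_D hy hy0
  obtain ⟨c, hc⟩ := exists_eq_const (mul_ne_zero K.f_ne (pow_ne_zero p hy0)) fun v => by
    rw [v.ord_mul K.f_ne (pow_ne_zero p hy0), FF.ord_pow, ← K.D_mul, ← hyD v, v.ord_inv]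
    ring
  refine ⟨y⁻¹, c, ?_⟩
  rw [← hc, inv_pow, mul_inv_cancel_right₀ (pow_ne_zero p hy0)]

/-- The reduction of a power of the uniformiser vanishes. -/
theorem residue_π_pow {k : ℕ} (hk : 1 ≤ k) :
    IsLocalRing.residue A ⟨C.π ^ k, pow_mem (mem_of_mem_nonunits C.π_nonunit) k⟩ = 0 := by
  refine (IsLocalRing.residue_eq_zero_iff _).mpr ?_
  rw [show (⟨C.π ^ k, pow_mem (mem_of_mem_nonunits C.π_nonunit) k⟩ : A) =
    ⟨C.π, mem_of_mem_nonunits C.π_nonunit⟩ ^ k from rfl]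
  exact Ideal.pow_mem_of_mem _ (ValuationSubring.coe_mem_nonunits_iff.mp C.π_nonunit) k hk

variable {K : Kum hpM C} {n k : ℕ}

theorem Rel.coe_rel (R : Rel K n k) :
    (Jp A hpM : FB (p * M)) ^ n * (R.x : FB (p * M)) =
      R.z + algebraMap QBar (FB (p * M)) (C.π ^ k) * (R.w : FB (p * M)) := by
  have e := congrArg Subtype.val R.rel
  simp only [Subring.coe_mul, Subring.coe_add, SubmonoidClass.coe_pow, coe_cst] at e
  exact e

/-- The quotient is a section of degree `2 n`. -/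
theorem Rel.w_mem (R : Rel K n k) : (R.w : FB (p * M)) ∈ K.V (n + n) := by
  have e : (R.w : FB (p * M)) = (C.π ^ k)⁻¹ •
      ((Jp A hpM : FB (p * M)) ^ n * (R.x : FB (p * M)) - R.z) := by
    rw [R.coe_rel, add_sub_cancel_left, Algebra.smul_def, ← mul_assoc, ← map_mul,
      inv_mul_cancel₀ (pow_ne_zero _ C.π_ne_zero), map_one, one_mul]
  rw [e]
  refine Submodule.smul_mem _ _ (sub_mem ?_ ?_)
  · have hx := K.mem_V.mp R.x_mem
    rw [Kum.mem_V, mul_pow, mul_assoc, ← pow_mul, mul_comm n p, mul_add]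
    exact mul_mem_polesSpace (Jp_pow_mem_HN _) hx
  · have hz := K.mem_V.mp R.z_mem
    rw [Kum.mem_V]
    exact RedTorsion.polesSpace_mono (Nat.mul_le_mul_left _ (Nat.le_add_right _ _)) hz

/-- The quotient reduces into `B (2 n)`. -/
theorem Rel.red_w_mem (R : Rel K n k)
    (hglue : redSub A (iota2 M p hpM) (K.V (n + n)) = Bn A M p hpM (n + n)) :
    red2 A (iota2 M p hpM) R.w ∈ Bn A M p hpM (n + n) :=
  hglue ▸ mem_redSub.mpr ⟨R.w, R.w_mem, rfl⟩

variable (K)

/-- A relation exists if `D` has no section. -/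
theorem exists_rel (hA : A.LiesOverPrime p) (hM : (M : Res A) ≠ 0) (h4 : 4 ∣ M)
    (V : VUnit A hpM) (hV : V.Simple) (hfb : ∀ s, K.fb s = 1) (hv : K.v = 0)
    (hL0 : ∀ y ∈ riemannRochSpace K.D, y = (0 : FB (p * M))) :
    ∃ n₀ : ℕ, ∀ n, n₀ ≤ n → ∃ k, 1 ≤ k ∧ Nonempty (Rel K n k) := by
  obtain ⟨n₁, hn₁⟩ := K.exists_relation hA hM h4 (goodM_of_dvd (Or.inl rfl) h4 hM) hL0
    (K.exists_glue hfb hv hA hM V hV)
  refine ⟨n₁, fun n hn => ?_⟩
  obtain ⟨k, β, x, z, w, hk, hβ, hx, hz, hxf, hzf, hwf, e, hxr, hzr, -, -⟩ := hn₁ n hn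
  exact ⟨k, hk, ⟨⟨β, hβ, x, z, w, hx, hz, hxf, hzf, hwf, e, hxr, hzr⟩⟩⟩

/-- The depth of the relations is bounded if `D` has no section. -/
theorem exists_rel_bound (hA : A.LiesOverPrime p)
    (hL0 : ∀ y ∈ riemannRochSpace K.D, y = (0 : FB (p * M))) (n : ℕ) :
    ∃ k₀ : ℕ, ∀ k, Rel K n k → k ≤ k₀ := by
  classical
  have hp : p.Prime := Fact.out
  set V := K.V n with hVdef
  have : FiniteDimensional QBar V := by rw [hVdef]; unfold Kum.V; infer_instance
  set μ := LinearMap.mulLeft QBar ((Jp A hpM : FB (p * M)) ^ n) with hμ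
  have hμinj : Function.Injective μ := mul_right_injective₀ (Jp_pow_ne_zero n)
  have hinf : V.map μ ⊓ V = ⊥ := map_inf_eq_bot hL0 n
  set U := V.map μ ⊔ V with hUdef
  have hstab : ∀ τ ∈ C.H, ∀ e ∈ U, galF (p * M) τ e ∈ U := by
    intro τ hτ e he
    obtain ⟨_, ⟨a, ha, rfl⟩, b, hb, rfl⟩ := Submodule.mem_sup.mp he
    rw [map_add]
    refine add_mem (Submodule.mem_sup_left ⟨galF (p * M) τ a, K.galF_mem_V hτ ha, ?_⟩)
      (Submodule.mem_sup_right (K.galF_mem_V hτ hb))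
    rw [hμ, LinearMap.mulLeft_apply, LinearMap.mulLeft_apply, map_mul, map_pow, galF_Jp]
  obtain ⟨u, hu, huU, hufix, hli⟩ := exists_fixed_redBasis hA hp C.le_inertia (iota2 M p hpM)
    (iota2_fracS M p hpM) (fun τ _ s x => iota2_galF hpM τ s x) U hstab
  -- the decompositions are fixed
  have hdec : ∀ i, ∃ a b, a ∈ V ∧ b ∈ V ∧ μ a + b = u i := fun i => by
    obtain ⟨_, ⟨a, ha, rfl⟩, b, hb, e⟩ := Submodule.mem_sup.mp (huU i)
    exact ⟨a, b, ha, hb, e⟩
  choose y y' hy hy' e using hdec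
  have hfix : ∀ i, ∀ τ ∈ C.H, galF (p * M) τ (y i) = y i := by
    intro i τ hτ
    have hui : galF (p * M) τ (u i) = u i := galF_eq_self (by
      rw [← iota2_zero M p hpM (u i)]
      exact hufix i 0 τ hτ)
    have e' := congrArg (galF (p * M) τ) (e i)
    rw [map_add, hμ, LinearMap.mulLeft_apply, map_mul, map_pow, galF_Jp, hui, ← e i] at e'
    have hd : μ (galF (p * M) τ (y i) - y i) = y' i - galF (p * M) τ (y' i) := by
      rw [hμ, LinearMap.mulLeft_apply]
      rw [hμ, LinearMap.mulLeft_apply] at e'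
      linear_combination e'
    have h0 : μ (galF (p * M) τ (y i) - y i) ∈ V.map μ ⊓ V :=
      ⟨⟨_, sub_mem (K.galF_mem_V hτ (hy i)) (hy i), rfl⟩, by
        rw [hd]; exact sub_mem (hy' i) (K.galF_mem_V hτ (hy' i))⟩
    rw [hinf, Submodule.mem_bot] at h0
    exact sub_eq_zero.mp (hμinj (h0.trans (map_zero μ).symm))
  have hscale : ∀ i, ∃ G : ℕ, ∀ G', G ≤ G' →
      algebraMap QBar (FB (p * M)) (C.π ^ G') * y i ∈ loc2 A (iota2 M p hpM) := by
    intro i
    rcases eq_or_ne (y i) 0 with h0 | h0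
    · exact ⟨0, fun G _ => by rw [h0, mul_zero]; exact zero_mem _⟩
    obtain ⟨g, hg, -⟩ := exists_zpow_scale hA h0 (hfix i)
    refine ⟨(-g).toNat, fun G hG => ?_⟩
    have := hg (-(G : ℤ)) (by omega)
    rwa [neg_neg, zpow_natCast] at this
  choose G hG using hscale
  refine ⟨Finset.univ.sup G, fun k R => ?_⟩
  by_contra hk
  push Not at hk
  -- `w` has integral coefficients
  have hw : (R.w : FB (p * M)) ∈ U := by
    have e1 : (R.w : FB (p * M)) = (C.π ^ k)⁻¹ • (μ (R.x : FB (p * M)) + -(R.z : FB (p * M))) := by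
      rw [hμ, LinearMap.mulLeft_apply, R.coe_rel, ← sub_eq_add_neg, add_sub_cancel_left,
        Algebra.smul_def, ← mul_assoc, ← map_mul, inv_mul_cancel₀ (pow_ne_zero _ C.π_ne_zero),
        map_one, one_mul]
    rw [e1]
    exact Submodule.smul_mem _ _ (add_mem (Submodule.mem_sup_left ⟨_, R.x_mem, rfl⟩)
      (Submodule.mem_sup_right (neg_mem R.z_mem)))
  let ul : Fin (Module.finrank QBar U) → loc2 A (iota2 M p hpM) :=
    fun i => ⟨u i, (mem_loc2 _).mpr (hu i)⟩
  have hli' : LinearIndependent (Res A) fun i => red2 A (iota2 M p hpM) (ul i) := by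
    convert hli using 1
    funext i s
    exact red2_apply _ _ s
  have hcoef : ∀ c : Fin (Module.finrank QBar U) → QBar,
      ∑ i, c i • u i ∈ loc2 A (iota2 M p hpM) → ∀ i, c i ∈ A := by
    intro c hc
    rcases isEmpty_or_nonempty (Fin (Module.finrank QBar U)) with h | h
    · exact fun i => isEmptyElim i
    obtain ⟨i₀, hi₀⟩ := Finite.exists_max fun i => A.valuation (c i)
    intro i
    refine (A.valuation_le_one_iff _).mp ((hi₀ i).trans ?_)
    by_contra hgt
    push Not at hgt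
    have hc0 : c i₀ ≠ 0 := fun h0 => by rw [h0, map_zero] at hgt; exact not_lt.mpr zero_le hgt
    have hd : ∀ i, c i / c i₀ ∈ A := fun i => (A.valuation_le_one_iff _).mp (by
      rw [map_div₀]
      exact (div_le_one₀ (zero_lt_one.trans hgt)).mpr (hi₀ i))
    have hinv : (c i₀)⁻¹ ∈ A := (A.valuation_le_one_iff _).mp (by
      rw [map_inv₀]; exact inv_le_one_of_one_le₀ hgt.le)
    have hsum : ∑ i, cst hpM ⟨c i / c i₀, hd i⟩ * ul i =
        cst hpM ⟨(c i₀)⁻¹, hinv⟩ * ⟨_, hc⟩ := Subtype.ext (by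
      push_cast
      rw [Finset.mul_sum]
      refine Finset.sum_congr rfl fun i _ => ?_
      rw [coe_cst, coe_cst, Algebra.smul_def, ← mul_assoc, ← map_mul]
      exact congrArg (· * _) (congrArg _ (div_eq_inv_mul (c i) (c i₀))))
    have h0 : IsLocalRing.residue A ⟨(c i₀)⁻¹, hinv⟩ = 0 :=
      (IsLocalRing.residue_eq_zero_iff _).mpr (ValuationSubring.coe_mem_nonunits_iff.mp (by
        show A.valuation (c i₀)⁻¹ < 1
        rw [map_inv₀]; exact inv_lt_one_of_one_lt₀ hgt))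
    have hr := congrArg (red2 A (iota2 M p hpM)) hsum
    simp only [map_sum, red2_cst_mul, h0, zero_smul] at hr
    have h1 := Fintype.linearIndependent_iff.mp hli' _ hr i₀
    rw [show (⟨c i₀ / c i₀, hd i₀⟩ : A) = 1 from Subtype.ext (div_self hc0), map_one] at h1
    exact one_ne_zero h1
  have hspan : ∃ c : Fin (Module.finrank QBar U) → QBar, ∑ i, c i • u i = (R.w : FB (p * M)) := by
    have huli : LinearIndependent QBar fun i => (⟨u i, huU i⟩ : U) := by
      rw [Fintype.linearIndependent_iff]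
      intro c hc
      by_contra hne
      push Not at hne
      obtain ⟨j, hj⟩ := hne
      have hc' : ∀ d : QBar, ∑ i, (d * c i) • u i = 0 := fun d => by
        have := congrArg (fun z : U => d • (z : FB (p * M))) hc
        simpa [Finset.smul_sum, smul_smul] using this
      obtain ⟨i₀, hi₀⟩ := @Finite.exists_max _ _ _ ⟨j⟩ _ fun i => A.valuation (c i)
      have hci : A.valuation (c i₀) ≠ 0 := fun h0 =>
        (Valuation.ne_zero_iff _).mpr hj (le_antisymm ((hi₀ j).trans h0.le) zero_le)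
      obtain ⟨hm⟩ : Nonempty (∀ i, (c i₀)⁻¹ * c i ∈ A) := ⟨fun i => hcoef _ (by
        rw [hc' (c i₀)⁻¹]; exact zero_mem _) i⟩
      have hr := congrArg (red2 A (iota2 M p hpM)) (show ∑ i, cst hpM ⟨_, hm i⟩ * ul i = 0 from
        Subtype.ext (by
          push_cast
          refine Eq.trans (Finset.sum_congr rfl fun i _ => ?_) (hc' (c i₀)⁻¹)
          rw [coe_cst, Algebra.smul_def]))
      simp only [map_sum, red2_cst_mul, map_zero] at hr
      have h1 := Fintype.linearIndependent_iff.mp hli' _ hr i₀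
      rw [show (⟨(c i₀)⁻¹ * c i₀, hm i₀⟩ : A) = 1 from
        Subtype.ext (inv_mul_cancel₀ ((Valuation.ne_zero_iff _).mp hci)), map_one] at h1
      exact one_ne_zero h1
    have := huli.span_eq_top_of_card_eq_finrank' (Fintype.card_fin _)
    have hmem : (⟨(R.w : FB (p * M)), hw⟩ : U) ∈ Submodule.span QBar
        (Set.range fun i => (⟨u i, huU i⟩ : U)) := this ▸ Submodule.mem_top
    rw [Submodule.mem_span_range_iff_exists_fun] at hmem
    obtain ⟨c, hc⟩ := hmem
    exact ⟨c, by simpa using congrArg Subtype.val hc⟩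
  obtain ⟨c, hc⟩ := hspan
  have hcA := hcoef c (hc ▸ R.w.2)
  -- so `x` reduces to zero
  have hx : (R.x : FB (p * M)) = ∑ i, (C.π ^ k * c i) • y i := by
    refine sub_eq_zero.mp (hμinj ((?_ : μ _ = 0).trans (map_zero μ).symm))
    have hmem : μ ((R.x : FB (p * M)) - ∑ i, (C.π ^ k * c i) • y i) ∈ V.map μ ⊓ V := by
      refine ⟨⟨_, sub_mem R.x_mem (V.sum_mem fun i _ => V.smul_mem _ (hy i)), rfl⟩, ?_⟩
      have e1 : μ ((R.x : FB (p * M)) - ∑ i, (C.π ^ k * c i) • y i) =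
          (R.z : FB (p * M)) + ∑ i, (C.π ^ k * c i) • y' i := by
        rw [map_sub, map_sum, hμ, LinearMap.mulLeft_apply, R.coe_rel, ← hc, Finset.mul_sum,
          add_sub_assoc, ← Finset.sum_sub_distrib]
        congr 1
        refine Finset.sum_congr rfl fun i _ => ?_
        rw [← e i, hμ, LinearMap.map_smul, ← Algebra.smul_def, smul_smul, smul_add,
          add_sub_cancel_left]
      rw [SetLike.mem_coe, e1]
      exact add_mem R.z_mem (V.sum_mem fun i _ => V.smul_mem _ (hy' i))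
    rwa [hinf, Submodule.mem_bot] at hmem
  obtain ⟨j, hj⟩ : ∃ j : ℕ, k = j + 1 + Finset.univ.sup G :=
    ⟨k - Finset.univ.sup G - 1, by omega⟩
  let yl : Fin (Module.finrank QBar U) → loc2 A (iota2 M p hpM) :=
    fun i => ⟨_, hG i (Finset.univ.sup G) (Finset.le_sup (Finset.mem_univ i))⟩
  have hxl : R.x = ∑ i, cst hpM
      ⟨C.π ^ (j + 1) * c i, mul_mem (pow_mem (mem_of_mem_nonunits C.π_nonunit) _) (hcA i)⟩ *
        yl i := Subtype.ext (by
    push_cast
    rw [hx]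
    refine Finset.sum_congr rfl fun i _ => ?_
    rw [coe_cst, Algebra.smul_def, ← mul_assoc, ← map_mul, hj, pow_add]
    congr 2
    ring)
  refine R.β_ne ?_
  have hr : red2 A (iota2 M p hpM) R.x = 0 := by
    rw [hxl, map_sum]
    refine Finset.sum_eq_zero fun i _ => ?_
    rw [red2_cst_mul, show (⟨C.π ^ (j + 1) * c i, _⟩ : A) =
      ⟨C.π ^ (j + 1), pow_mem (mem_of_mem_nonunits C.π_nonunit) _⟩ * ⟨c i, hcA i⟩ from rfl,
      map_mul, residue_π_pow (by omega), zero_mul, zero_smul]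
  rw [R.red_x] at hr
  have h0 := congrFun hr 0
  rw [Pi.smul_apply, Pi.one_apply, Pi.zero_apply, Igusa.hsmul_eq, mul_one] at h0
  exact (map_eq_zero _).mp h0

variable {K}

/-- A relation with quotient in `J ^ n B + B` deepens. -/
theorem Rel.improve (hA : A.LiesOverPrime p) (R : Rel K n k) (hk : 1 ≤ k)
    (hglue : redSub A (iota2 M p hpM) (K.V n) = Bn A M p hpM n)
    (ht : red2 A (iota2 M p hpM) R.w ∈ SB A hpM n) : Nonempty (Rel K n (k + 1)) := by
  obtain ⟨_, ⟨r, hr, rfl⟩, r', hr', hsum⟩ := Submodule.mem_sup.mp ht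
  have : FiniteDimensional QBar (K.V n) := by unfold Kum.V; infer_instance
  obtain ⟨a, haV, hafix, har⟩ := exists_fixed_lift_redSub hA C.le_inertia (K.V n)
    (fun τ hτ x hx => K.galF_mem_V hτ hx) (hglue.symm ▸ hr)
  obtain ⟨a', ha'V, ha'fix, ha'r⟩ := exists_fixed_lift_redSub hA C.le_inertia (K.V n)
    (fun τ hτ x hx => K.galF_mem_V hτ hx) (hglue.symm ▸ hr')
  obtain ⟨w₂, hw₂, hw₂fix⟩ := C.exists_eq_π_mul hA (R.w - (Jp A hpM ^ n * a + a'))
    (fun τ hτ => by
      push_cast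
      rw [map_sub, map_add, map_mul, map_pow, galF_Jp, R.w_fix τ hτ, hafix τ hτ, ha'fix τ hτ])
    (by
      rw [map_sub, map_add, map_mul, red2_Jp_pow, har, ha'r, ← hsum]
      exact sub_self _)
  set πk := cst hpM ⟨C.π ^ k, pow_mem (mem_of_mem_nonunits C.π_nonunit) k⟩ with hπk
  have hπfix : ∀ τ ∈ C.H, galF (p * M) τ (πk : FB (p * M)) = πk := fun τ hτ => by
    rw [hπk, coe_cst]
    exact galF_const (by rw [map_pow, C.π_fixed τ hτ])
  refine ⟨⟨R.β, R.β_ne, R.x - πk * a, R.z + πk * a', w₂, ?_, ?_, fun τ hτ => ?_, fun τ hτ => ?_,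
    hw₂fix, ?_, ?_, ?_⟩⟩
  · simp only [hπk, Subring.coe_mul, AddSubgroupClass.coe_sub, Subring.coe_add, coe_cst]
    rw [← Algebra.smul_def]
    exact sub_mem R.x_mem (Submodule.smul_mem _ _ haV)
  · simp only [hπk, Subring.coe_mul, AddSubgroupClass.coe_sub, Subring.coe_add, coe_cst]
    rw [← Algebra.smul_def]
    exact add_mem R.z_mem (Submodule.smul_mem _ _ ha'V)
  · push_cast
    rw [map_sub, map_mul, R.x_fix τ hτ, hπfix τ hτ, hafix τ hτ]
  · push_cast
    rw [map_add, map_mul, R.z_fix τ hτ, hπfix τ hτ, ha'fix τ hτ]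
  · rw [show (⟨C.π ^ (k + 1), pow_mem (mem_of_mem_nonunits C.π_nonunit) (k + 1)⟩ : A) =
      ⟨C.π ^ k, pow_mem (mem_of_mem_nonunits C.π_nonunit) k⟩ *
        ⟨C.π, mem_of_mem_nonunits C.π_nonunit⟩ from Subtype.ext (pow_succ C.π k), cst_mul, ← hπk]
    linear_combination R.rel + πk * hw₂
  · rw [map_sub, hπk, red2_cst_mul, residue_π_pow hk, zero_smul, sub_zero, R.red_x]
  · rw [map_add, hπk, red2_cst_mul, residue_π_pow hk, zero_smul, add_zero, R.red_z]

/-- The function `(J ^ n x) ^ p f - z ^ p f` of a relation lies in `J ^ P L + L`. -/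
theorem Rel.wb_mem (R : Rel K n k) (F : loc2 A (iota2 M p hpM)) (hF : (F : FB (p * M)) = K.f) :
    ((((Jp A hpM ^ n * R.x) ^ p - R.z ^ p) * F : loc2 A (iota2 M p hpM)) : FB (p * M)) ∈
      WB A hpM (n * p) := by
  have e : ((((Jp A hpM ^ n * R.x) ^ p - R.z ^ p) * F : loc2 A (iota2 M p hpM)) : FB (p * M)) =
      (Jp A hpM : FB (p * M)) ^ (n * p) * ((R.x : FB (p * M)) ^ p * K.f) -
        (R.z : FB (p * M)) ^ p * K.f := by
    push_cast
    rw [hF, pow_mul]
    ring
  rw [e]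
  have hxH := K.mem_V.mp R.x_mem
  have hzH := K.mem_V.mp R.z_mem
  rw [mul_comm p n] at hxH hzH
  exact sub_mem (Submodule.mem_sup_left ⟨_, hxH, rfl⟩) (Submodule.mem_sup_right hzH)

/-- Beyond `e / (p - 1)` the quotient reduces into `J ^ n B + B`. -/
theorem exists_mem_SB_of_big (hA : A.LiesOverPrime p) (hM : (M : Res A) ≠ 0) (h4 : 4 ∣ M)
    (hfb : ∀ s, K.fb s = 1) (hv : K.v = 0) (V : VUnit A hpM) (hV : V.Simple) :
    ∃ n₀ : ℕ, ∀ n, n₀ ≤ n → ∀ k, 1 ≤ k → C.e < (p - 1) * k → ∀ R : Rel K n k,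
      red2 A (iota2 M p hpM) R.w ∈ SB A hpM n := by
  have hp : p.Prime := Fact.out
  have hgood : GoodM A M := goodM_of_dvd (Or.inl rfl) h4 hM
  obtain ⟨n₁, hn₁⟩ := K.exists_glue hfb hv hA hM V hV
  obtain ⟨n₂, hn₂⟩ := exists_redSub_WB (hpM := hpM) hA hM h4 hgood
  obtain ⟨n₃, hn₃⟩ := exists_descend_SB (hpM := hpM) hA hM hgood
  refine ⟨n₁ + n₂ + n₃, fun n hn k hk hbig R => ?_⟩
  set P := n * p with hP
  have hWS : redSub A (iota2 M p hpM) (WB A hpM P) = SB A hpM P :=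
    hn₂ P (le_trans (by omega) (Nat.le_mul_of_pos_right n hp.pos))
  set F : loc2 A (iota2 M p hpM) := ⟨K.f, K.f_mem hfb hv⟩ with hFdef
  have hFr : red2 A (iota2 M p hpM) F = 1 := K.red2_f hfb hv
  set πA : A := ⟨C.π, mem_of_mem_nonunits C.π_nonunit⟩ with hπA
  have hrel' : Jp A hpM ^ n * R.x = R.z + cst hpM (πA ^ k) * R.w := R.rel
  have hEW := R.wb_mem F rfl
  set E : loc2 A (iota2 M p hpM) := ((Jp A hpM ^ n * R.x) ^ p - R.z ^ p) * F with hE
  obtain ⟨S, hS⟩ := exists_add_pow_eq hp R.z (cst hpM (πA ^ k) * R.w)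
  have hπv : (0 : A.ValueGroup) < A.valuation C.π :=
    zero_lt_iff.mpr ((Valuation.ne_zero_iff _).mpr C.π_ne_zero)
  have hpQ : (p : QBar) ≠ 0 := Nat.cast_ne_zero.mpr hp.ne_zero
  set d : QBar := C.π ^ ((p - 1) * k) / (p : QBar) with hd
  have hdn : d ∈ A.nonunits := by
    show A.valuation d < 1
    rw [hd, map_div₀, map_pow, C.val_p, div_lt_one₀ (pow_pos hπv _)]
    exact pow_lt_pow_right_of_lt_one₀ hπv C.π_nonunit hbig
  set dA : A := ⟨d, mem_of_mem_nonunits hdn⟩ with hdA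
  set G := R.z ^ (p - 1) * R.w * F + cst hpM (πA ^ k) * (R.w ^ 2 * S * F) +
    cst hpM dA * (R.w ^ p * F) with hG
  have hds : πA ^ (k * p) = (p : A) * πA ^ k * dA := Subtype.ext (by
    push_cast [hdA, hπA, hd]
    have e : k * p = k + (p - 1) * k := by
      rw [Nat.sub_mul, one_mul, mul_comm k p]
      have := Nat.le_mul_of_pos_left k hp.pos
      omega
    rw [e, pow_add]
    field_simp)
  have hEG : E = cst hpM ((p : A) * πA ^ k) * G := by
    have e1 : cst hpM (πA ^ k) ^ p =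
        (p : loc2 A (iota2 M p hpM)) * cst hpM (πA ^ k) * cst hpM dA := by
      rw [← cst_pow, ← pow_mul, hds, cst_mul, cst_mul, cst_natCast]
    rw [hE, hrel', hS, hG, cst_mul, cst_natCast, mul_pow]
    linear_combination (R.w ^ p * F) * e1
  have hGW : (G : FB (p * M)) ∈ WB A hpM P := by
    have e : (G : FB (p * M)) = ((p : QBar) * C.π ^ k)⁻¹ • (E : FB (p * M)) := by
      rw [hEG, Subring.coe_mul, coe_cst,
        show (((p : A) * πA ^ k : A) : QBar) = (p : QBar) * C.π ^ k by push_cast [hπA]; rfl,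
        Algebra.smul_def, ← mul_assoc, ← map_mul,
        inv_mul_cancel₀ (mul_ne_zero hpQ (pow_ne_zero _ C.π_ne_zero)), map_one, one_mul]
    rw [e]
    exact Submodule.smul_mem _ _ hEW
  have hGr : red2 A (iota2 M p hpM) G =
      R.β ^ (p - 1) • (jPow A p (n * (p - 1)) * red2 A (iota2 M p hpM) R.w) := by
    rw [hG, map_add, map_add, red2_cst_mul, red2_cst_mul,
      show πA ^ k = ⟨C.π ^ k, pow_mem (mem_of_mem_nonunits C.π_nonunit) k⟩ from rfl,
      residue_π_pow hk, (IsLocalRing.residue_eq_zero_iff dA).mpr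
        (ValuationSubring.coe_mem_nonunits_iff.mp hdn), zero_smul, zero_smul, add_zero, add_zero,
      map_mul, map_mul, hFr, mul_one, map_pow, R.red_z, pi_smul_pow, ← jPow_mul, pi_smul_mul]
  refine hn₃ n (by omega) (R.β ^ (p - 1)) _ (pow_ne_zero _ R.β_ne)
    (R.red_w_mem (hn₁ _ (by omega))) ?_
  rw [← hWS]
  exact mem_redSub.mpr ⟨G, hGW, hGr⟩

/-- Below `e / (p - 1)` the `p`-th power of the quotient reduces into `J ^ (n p) B + B`. -/
theorem exists_pow_mem_SB_of_small (hA : A.LiesOverPrime p) (hM : (M : Res A) ≠ 0) (h4 : 4 ∣ M)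
    (hfb : ∀ s, K.fb s = 1) (hv : K.v = 0) :
    ∃ n₀ : ℕ, ∀ n, n₀ ≤ n → ∀ k, 1 ≤ k → (p - 1) * k < C.e → ∀ R : Rel K n k,
      red2 A (iota2 M p hpM) R.w ^ p ∈ SB A hpM (n * p) := by
  have hp : p.Prime := Fact.out
  obtain ⟨n₂, hn₂⟩ := exists_redSub_WB (hpM := hpM) hA hM h4 (goodM_of_dvd (Or.inl rfl) h4 hM)
  refine ⟨n₂, fun n hn k hk hsmall R => ?_⟩
  set P := n * p with hP
  have hWS : redSub A (iota2 M p hpM) (WB A hpM P) = SB A hpM P :=
    hn₂ P (le_trans (by omega) (Nat.le_mul_of_pos_right n hp.pos))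
  set F : loc2 A (iota2 M p hpM) := ⟨K.f, K.f_mem hfb hv⟩ with hFdef
  set πA : A := ⟨C.π, mem_of_mem_nonunits C.π_nonunit⟩ with hπA
  have hrel' : Jp A hpM ^ n * R.x = R.z + cst hpM (πA ^ k) * R.w := R.rel
  have hEW := R.wb_mem F rfl
  set E : loc2 A (iota2 M p hpM) := ((Jp A hpM ^ n * R.x) ^ p - R.z ^ p) * F with hE
  obtain ⟨S, hS⟩ := exists_add_pow_eq hp R.z (cst hpM (πA ^ k) * R.w)
  have hπv : (0 : A.ValueGroup) < A.valuation C.π :=
    zero_lt_iff.mpr ((Valuation.ne_zero_iff _).mpr C.π_ne_zero)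
  set d : QBar := (p : QBar) / C.π ^ ((p - 1) * k) with hd
  have hdn : d ∈ A.nonunits := by
    show A.valuation d < 1
    rw [hd, map_div₀, map_pow, C.val_p, div_lt_one₀ (pow_pos hπv _)]
    exact pow_lt_pow_right_of_lt_one₀ hπv C.π_nonunit hsmall
  set dA : A := ⟨d, mem_of_mem_nonunits hdn⟩ with hdA
  set G := R.w ^ p * F + cst hpM dA * (R.z ^ (p - 1) * R.w * F) +
    cst hpM (dA * πA ^ k) * (R.w ^ 2 * S * F) with hG
  have hds : (p : A) * πA ^ k = πA ^ (k * p) * dA := Subtype.ext (by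
    push_cast [hdA, hπA, hd]
    have e : k * p = k + (p - 1) * k := by
      rw [Nat.sub_mul, one_mul, mul_comm k p]
      have := Nat.le_mul_of_pos_left k hp.pos
      omega
    have := pow_ne_zero ((p - 1) * k) C.π_ne_zero
    rw [e, pow_add]
    field_simp)
  have hEG : E = cst hpM (πA ^ (k * p)) * G := by
    have e1 : (p : loc2 A (iota2 M p hpM)) * cst hpM (πA ^ k) =
        cst hpM (πA ^ (k * p)) * cst hpM dA := by
      rw [← cst_natCast, ← cst_mul, hds, cst_mul]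
    have e2 : cst hpM (πA ^ k) ^ p = cst hpM (πA ^ (k * p)) := by rw [← cst_pow, ← pow_mul]
    rw [hE, hrel', hS, hG, cst_mul dA, mul_pow (cst hpM (πA ^ k)) R.w p, e2]
    linear_combination (R.z ^ (p - 1) * R.w * F + cst hpM (πA ^ k) * R.w ^ 2 * S * F) * e1
  have hGW : (G : FB (p * M)) ∈ WB A hpM P := by
    have e : (G : FB (p * M)) = (C.π ^ (k * p))⁻¹ • (E : FB (p * M)) := by
      rw [hEG, Subring.coe_mul, coe_cst,
        show ((πA ^ (k * p) : A) : QBar) = C.π ^ (k * p) by push_cast [hπA]; rfl,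
        Algebra.smul_def, ← mul_assoc, ← map_mul,
        inv_mul_cancel₀ (pow_ne_zero _ C.π_ne_zero), map_one, one_mul]
    rw [e]
    exact Submodule.smul_mem _ _ hEW
  have hGr : red2 A (iota2 M p hpM) G = red2 A (iota2 M p hpM) R.w ^ p := by
    rw [hG, map_add, map_add, red2_cst_mul, red2_cst_mul, map_mul (IsLocalRing.residue A),
      (IsLocalRing.residue_eq_zero_iff dA).mpr (ValuationSubring.coe_mem_nonunits_iff.mp hdn),
      zero_mul, zero_smul, zero_smul, add_zero, add_zero, map_mul, map_pow,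
      show red2 A (iota2 M p hpM) F = 1 from K.red2_f hfb hv, mul_one]
  rw [← hWS]
  exact mem_redSub.mpr ⟨G, hGW, hGr⟩

/-- A relation beyond `e / (p - 1)` forces a section of `D`. -/
theorem exists_isEmpty_of_big (hA : A.LiesOverPrime p) (hM : (M : Res A) ≠ 0) (h4 : 4 ∣ M)
    (hfb : ∀ s, K.fb s = 1) (hv : K.v = 0) (V : VUnit A hpM) (hV : V.Simple)
    (hL0 : ∀ y ∈ riemannRochSpace K.D, y = (0 : FB (p * M))) :
    ∃ n₀ : ℕ, ∀ n, n₀ ≤ n → ∀ k, 1 ≤ k → C.e < (p - 1) * k → IsEmpty (Rel K n k) := by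
  obtain ⟨n₁, hn₁⟩ := K.exists_glue hfb hv hA hM V hV
  obtain ⟨n₂, hn₂⟩ := exists_mem_SB_of_big hA hM h4 hfb hv V hV
  refine ⟨n₁ + n₂, fun n hn k hk hbig => ⟨fun R => ?_⟩⟩
  have key : ∀ j, Nonempty (Rel K n (k + j)) := by
    intro j
    induction j with
    | zero => exact ⟨R⟩
    | succ j ih =>
      obtain ⟨R'⟩ := ih
      have hkj : 1 ≤ k + j := by omega
      exact R'.improve hA hkj (hn₁ n (by omega)) (hn₂ n (by omega) (k + j) hkj
        (hbig.trans_le (Nat.mul_le_mul_left _ (Nat.le_add_right k j))) R')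
  obtain ⟨k₀, hk₀⟩ := exists_rel_bound K hA hL0 n
  obtain ⟨R'⟩ := key (k₀ + 1)
  have := hk₀ _ R'
  omega

end Fermat.Agent.Extra39

end
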